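import Mathlib
import Fermat.Agent.S24.FF.Principal
import Fermat.Agent.Lib.PlaceApprox

/-!
# MW strand D, leaf D6: the moving lemma

`F / K` is a function field of one variable over an algebraically closed field of characteristic
zero and `v₀` is a place.  If the class of `P - v₀` is `l` times a divisor class for every place
`P` outside a finite set `S0`, then `Pic0 K F` is `l`-divisible:

* a place `a ∈ S0` is moved off `S0` by a function `w` with a simple zero at `a` and no other
  zero or pole in `S0` (weak approximation, `Lib/PlaceApprox`);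
* every divisor `E` is `(deg E) v₀` plus a `ℤ`-combination of the divisors `P - v₀`.

Main statements: `divisible_of_forall_notMem` (the literal of the D contract),
`divisible_of_generators` (the same with `∈ Divisor.principal`),
`divisible_of_forall_sub_mem_principal` (the literal of the D5 stub) and the core form
`divisible_of_forall_mem_divMod`.
-/

set_option autoImplicit false

namespace Fermat.Agent.S17.D.Move

open AlgebraicCurve

variable {K F : Type*} [Field K] [Field F] [Algebra K F]

/-- The divisors which are `l` times a divisor, up to a principal divisor. -/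
noncomputable def divMod (K F : Type*) [Field K] [Field F] [Algebra K F] (l : ℕ) :
    AddSubgroup (Divisor K F) :=
  Divisor.principal (K := K) (F := F) ⊔ (nsmulAddMonoidHom (α := Divisor K F) l).range

theorem mem_divMod_iff {l : ℕ} {E : Divisor K F} :
    E ∈ divMod K F l ↔ ∃ B : Divisor K F, (E - l • B).IsPrincipal := by
  unfold divMod
  rw [AddSubgroup.mem_sup]
  constructor
  · rintro ⟨p, hp, q, ⟨B, rfl⟩, rfl⟩
    refine ⟨B, ?_⟩
    rw [nsmulAddMonoidHom_apply, add_sub_cancel_right]
    exact hp
  · rintro ⟨B, hB⟩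
    exact ⟨E - l • B, hB, l • B, ⟨B, rfl⟩, sub_add_cancel _ _⟩

theorem principal_le_divMod (l : ℕ) :
    Divisor.principal (K := K) (F := F) ≤ divMod K F l :=
  le_sup_left

/-- `E ↦ E - (deg E) v₀`, an additive map. -/
noncomputable def shift (v₀ : Place K F) : Divisor K F →+ Divisor K F :=
  AddMonoidHom.id _ - (Finsupp.singleAddHom v₀).comp Divisor.degree

theorem shift_apply (v₀ : Place K F) (E : Divisor K F) :
    shift v₀ E = E - Finsupp.single v₀ (Divisor.degree E) := rfl

theorem shift_single (v₀ a : Place K F) (b : ℤ) :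
    shift v₀ (Finsupp.single a b) = b • shift v₀ (Finsupp.single a 1) := by
  rw [← map_zsmul, Finsupp.smul_single_one]

theorem shift_eq_self_of_degree_eq_zero (v₀ : Place K F) {E : Divisor K F}
    (hE : Divisor.degree E = 0) : shift v₀ E = E := by
  rw [shift_apply, hE, Finsupp.single_zero, sub_zero]

section Abstract

variable {l : ℕ} {S0 : Finset (Place K F)} {v₀ : Place K F}

theorem shift_single_mem_of_notMem (hdeg : ∀ v : Place K F, v.deg = 1)
    (h : ∀ P ∉ S0, Finsupp.single P (1 : ℤ) - Finsupp.single v₀ 1 ∈ divMod K F l)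
    {a : Place K F} (ha : a ∉ S0) : shift v₀ (Finsupp.single a 1) ∈ divMod K F l := by
  rw [shift_apply, Divisor.degree_single, hdeg a]
  simpa using h a ha

theorem shift_filter_mem (hdeg : ∀ v : Place K F, v.deg = 1)
    (h : ∀ P ∉ S0, Finsupp.single P (1 : ℤ) - Finsupp.single v₀ 1 ∈ divMod K F l)
    (E : Divisor K F) [DecidablePred fun P : Place K F => P ∉ S0] :
    shift v₀ (E.filter fun P => P ∉ S0) ∈ divMod K F l := by
  induction E using Finsupp.induction_linear with
  | zero =>
    rw [Finsupp.filter_zero, map_zero]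
    exact zero_mem _
  | add f g hf hg =>
    rw [Finsupp.filter_add, map_add]
    exact add_mem hf hg
  | single a b =>
    by_cases ha : a ∈ S0
    · rw [Finsupp.filter_single_of_neg (p := fun P : Place K F => P ∉ S0) (not_not.mpr ha),
        map_zero]
      exact zero_mem _
    · rw [Finsupp.filter_single_of_pos (p := fun P : Place K F => P ∉ S0) ha, shift_single]
      exact AddSubgroup.zsmul_mem _ (shift_single_mem_of_notMem hdeg h ha) b

end Abstract

section Curve

variable [IsAlgClosed K] [CharZero K] [Algebra.EssFiniteType K F]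
variable {l : ℕ} {S0 : Finset (Place K F)} {v₀ : Place K F}

open Fermat.Agent.S24.FF

/-- The moving step: `a - v₀` is `l`-divisible up to principal divisors for EVERY place `a`. -/
theorem shift_single_mem (htr : Algebra.trdeg K F = 1)
    (h : ∀ P ∉ S0, Finsupp.single P (1 : ℤ) - Finsupp.single v₀ 1 ∈ divMod K F l)
    (a : Place K F) : shift v₀ (Finsupp.single a 1) ∈ divMod K F l := by
  classical
  have hdeg : ∀ v : Place K F, v.deg = 1 := fun v => deg_eq_one htr v
  by_cases ha : a ∈ S0
  swap
  · exact shift_single_mem_of_notMem hdeg h ha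
  obtain ⟨u, hu⟩ : ∃ u : F, Transcendental K u := by
    have h0 : Algebra.trdeg K F ≠ 0 := by rw [htr]; exact one_ne_zero
    exact (trdeg_ne_zero_iff.mp h0).transcendental
  have : Module.Finite (IntermediateField.adjoin K {u}) F := finite_adjoin_simple htr hu
  obtain ⟨w, hw0, hw⟩ := Fermat.Agent.Lib.PlaceApprox.exists_forall_ord_eq u hu S0
    (fun P => if P = a then 1 else 0)
  obtain ⟨W, hW⟩ := exists_divisor_ord htr hw0
  have hWdeg : Divisor.degree W = 0 := degree_eq_zero_of_ord htr hw0 W hW
  have hWmem : W ∈ divMod K F l := principal_le_divMod l ⟨w, hw0, hW⟩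
  have hfil : (W - Finsupp.single a 1).filter (fun P => P ∉ S0) = W - Finsupp.single a 1 := by
    rw [Finsupp.filter_eq_self_iff]
    intro P hP hPS
    apply hP
    rw [Finsupp.sub_apply, hW P, hw P hPS]
    by_cases hPa : P = a
    · subst hPa
      simp
    · rw [if_neg hPa, Finsupp.single_eq_of_ne hPa, sub_zero]
  have h1 := shift_filter_mem hdeg h (W - Finsupp.single a 1)
  rw [hfil, map_sub, shift_eq_self_of_degree_eq_zero v₀ hWdeg] at h1
  have h2 := sub_mem hWmem h1
  rwa [sub_sub_cancel] at h2

theorem shift_mem (htr : Algebra.trdeg K F = 1)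
    (h : ∀ P ∉ S0, Finsupp.single P (1 : ℤ) - Finsupp.single v₀ 1 ∈ divMod K F l)
    (E : Divisor K F) : shift v₀ E ∈ divMod K F l := by
  induction E using Finsupp.induction_linear with
  | zero =>
    rw [map_zero]
    exact zero_mem _
  | add f g hf hg =>
    rw [map_add]
    exact add_mem hf hg
  | single a b =>
    rw [shift_single]
    exact AddSubgroup.zsmul_mem _ (shift_single_mem htr h a) b

/-- Every divisor of degree zero is `l` times a divisor of degree zero, up to a principal
divisor. -/
theorem exists_degZero_sub_nsmul_isPrincipal (htr : Algebra.trdeg K F = 1) (hl : l ≠ 0)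
    (h : ∀ P ∉ S0, Finsupp.single P (1 : ℤ) - Finsupp.single v₀ 1 ∈ divMod K F l)
    {D : Divisor K F} (hD : Divisor.degree D = 0) :
    ∃ B : Divisor K F, Divisor.degree B = 0 ∧ (D - l • B).IsPrincipal := by
  have h1 := shift_mem htr h D
  rw [shift_eq_self_of_degree_eq_zero v₀ hD, mem_divMod_iff] at h1
  obtain ⟨B, f, hf, hfD⟩ := h1
  refine ⟨B, ?_, f, hf, hfD⟩
  have hdeg := degree_eq_zero_of_ord htr hf (D - l • B) hfD
  rw [map_sub, hD, map_nsmul, zero_sub, neg_eq_zero, nsmul_eq_mul] at hdeg
  rcases mul_eq_zero.mp hdeg with h0 | h0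
  · exact absurd (by exact_mod_cast h0) hl
  · exact h0

/-- **The moving lemma, core form.**  If `P - v₀` is `l`-divisible up to principal divisors for
all places `P` outside a finite set, then `Pic0 K F` is `l`-divisible. -/
theorem divisible_of_forall_mem_divMod (htr : Algebra.trdeg K F = 1) (hl : l ≠ 0)
    (S0 : Finset (Place K F)) (v₀ : Place K F)
    (h : ∀ P ∉ S0, Finsupp.single P (1 : ℤ) - Finsupp.single v₀ 1 ∈ divMod K F l) :
    ∀ x : Pic0 K F, ∃ y : Pic0 K F, l • y = x := by
  intro x
  obtain ⟨⟨D, hD⟩, rfl⟩ := Pic0.mk_surjective x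
  obtain ⟨B, hB, hprin⟩ := exists_degZero_sub_nsmul_isPrincipal htr hl h
    (Divisor.mem_degZero.mp hD)
  refine ⟨Pic0.mk ⟨B, hB⟩, ?_⟩
  unfold Pic0.mk
  rw [← QuotientAddGroup.mk_nsmul, QuotientAddGroup.eq, AddSubgroup.mem_addSubgroupOf]
  have hc : ((-(l • (⟨B, hB⟩ : Divisor.degZero (K := K) (F := F))) + ⟨D, hD⟩ :
      Divisor.degZero (K := K) (F := F)) : Divisor K F) = D - l • B := by
    rw [AddSubgroup.coe_add, AddSubgroup.coe_neg, AddSubgroup.coe_nsmul]
    abel
  rw [hc]
  exact hprin

/-- **D6, the moving lemma** in the literal of the D contract: if `l B - P + v₀` is principal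
for some divisor `B`, for every place `P` outside a finite set `S0`, then `Pic0 K F` is
`l`-divisible. -/
theorem divisible_of_forall_notMem (htr : Algebra.trdeg K F = 1) (hl : l ≠ 0)
    (S0 : Finset (Place K F)) (v₀ : Place K F)
    (h : ∀ P ∉ S0, ∃ B : Divisor K F,
      (l • B - Finsupp.single P 1 + Finsupp.single v₀ 1).IsPrincipal) :
    ∀ x : Pic0 K F, ∃ y : Pic0 K F, l • y = x := by
  refine divisible_of_forall_mem_divMod htr hl S0 v₀ fun P hP => ?_
  obtain ⟨B, hB⟩ := h P hP
  rw [mem_divMod_iff]
  refine ⟨B, ?_⟩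
  have h1 : Finsupp.single P (1 : ℤ) - Finsupp.single v₀ 1 - l • B
      = -(l • B - Finsupp.single P 1 + Finsupp.single v₀ 1) := by abel
  rw [h1]
  exact (Divisor.principal (K := K) (F := F)).neg_mem hB

/-- The same statement in the binder shape of R WORD #6 (membership in `Divisor.principal`,
`v₀` before `S0`). -/
theorem divisible_of_generators (htr : Algebra.trdeg K F = 1) {l : ℕ} (hl : l ≠ 0)
    (v₀ : Place K F) (S0 : Finset (Place K F))
    (h : ∀ P : Place K F, P ∉ S0 → ∃ B : Divisor K F,
      (l • B - Finsupp.single P 1 + Finsupp.single v₀ 1) ∈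
        Divisor.principal (K := K) (F := F)) :
    ∀ x : Pic0 K F, ∃ y : Pic0 K F, l • y = x :=
  divisible_of_forall_notMem htr hl S0 v₀ h

/-- D6 against the literal of the D5 stub (`P - Q₀ - n D` principal, integer multiple). -/
theorem divisible_of_forall_sub_mem_principal (htr : Algebra.trdeg K F = 1) {n : ℕ} (hn : 0 < n)
    (S₀ : Finset (Place K F)) (Q₀ : Place K F)
    (h : ∀ P : Place K F, P ∉ S₀ → ∃ D : Divisor K F,
      Finsupp.single P (1 : ℤ) - Finsupp.single Q₀ 1 - (n : ℤ) • D ∈
        Divisor.principal (K := K) (F := F)) :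
    ∀ x : Pic0 K F, ∃ y : Pic0 K F, n • y = x := by
  refine divisible_of_forall_mem_divMod htr hn.ne' S₀ Q₀ fun P hP => ?_
  obtain ⟨D, hD⟩ := h P hP
  rw [mem_divMod_iff]
  refine ⟨D, ?_⟩
  rw [natCast_zsmul] at hD
  exact hD

end Curve

end Fermat.Agent.S17.D.Move
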