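/-
PROGRAM MW, strand D, leaf D0 in the FINSET shapes of the compiled D interface stub
(`notes/helper111/S17_D_iface.lean.txt`), hypothesis-free (only `htr : Algebra.trdeg K F = 1`).
Companion of the landed `S17/D/NonSpecial.lean` (the `Fin gR → Place` form).

No new mathematics: a thin wrapper around the landed leaves of strand R,
* R2 `Riemann.lean`        : `riemann_inequality`, `riemann_eq_of_large`,
* R9 `NonSpecialStep.lean` : `exists_distinct_nonspecial` (Riemann-only, no Riemann-Roch).

* `exists_finset`  : the `hNS` hypothesis of `pic0_divisible` in the D stub, verbatim;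
* `le_finrank`     : the `hdim` hypothesis of `exists_finset_forall_principal` in the D stub,
                     verbatim, from Riemann's inequality (needs `0 < n`);
* `exists_data`    : for `0 < n`, a base place `Q₀` and a finite set `S` of places, a Finset `E₀`
                     with `card = gR`, disjoint from `S`, not containing `Q₀`, with `l(∑ E₀) = 1`
                     and `(n - 1) gR + 2 ≤ l(n ∑ E₀ + Q₀)`: the three hypotheses `hQ`, `hE`, `hdim`
                     of `exists_finset_forall_principal` in one call.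
-/
import Mathlib
import Fermat.Agent.S17.R.Riemann
import Fermat.Agent.S17.R.NonSpecialStep

set_option autoImplicit false

namespace Fermat.Agent.S17.D.NonSpecialFinset

open AlgebraicCurve

variable {K F : Type*} [Field K] [Field F] [Algebra K F]
variable [IsAlgClosed K] [CharZero K] [Algebra.EssFiniteType K F]

/-- **D0, Finset form** (the `hNS` shape of the D interface): for every finite set `S` of places
there are `gR` distinct places outside `S` whose sum `E₀` is non-special, `l(E₀) = 1`. -/
theorem exists_finset (htr : Algebra.trdeg K F = 1) (S : Finset (Place K F)) :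
    ∃ E₀ : Finset (Place K F), E₀.card = R.gR K F ∧ Disjoint E₀ S ∧
      Module.finrank K ↥(riemannRochSpace (∑ v ∈ E₀, Finsupp.single v (1 : ℤ))) = 1 := by
  obtain ⟨s, hcard, hS, hrank⟩ :=
    R.exists_distinct_nonspecial htr (R.riemann_eq_of_large htr) (S : Set (Place K F))
      S.finite_toSet
  exact ⟨s, hcard, Finset.disjoint_left.mpr fun P hP hPS => hS P hP (Finset.mem_coe.mpr hPS),
    hrank⟩

/-- Degree of `n • ∑ E₀ + Q₀`. -/
theorem degree_smul_sum_add (htr : Algebra.trdeg K F = 1) (n : ℕ) (Q₀ : Place K F)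
    (E₀ : Finset (Place K F)) :
    Divisor.degree ((n : ℤ) • ∑ v ∈ E₀, Finsupp.single v (1 : ℤ) + Finsupp.single Q₀ 1) =
      (n : ℤ) * E₀.card + 1 := by
  rw [map_add, map_zsmul, R.NonSpecialStep.degree_sum_single htr,
    R.NonSpecialStep.degree_single_one htr, smul_eq_mul]

/-- **The `hdim` shape of the D interface**, from Riemann's inequality: if `E₀` consists of `gR`
places and `0 < n` then `(n - 1) gR + 2 ≤ l(n ∑ E₀ + Q₀)`. -/
theorem le_finrank (htr : Algebra.trdeg K F = 1) (n : ℕ) (hn : 0 < n) (Q₀ : Place K F)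
    (E₀ : Finset (Place K F)) (hcard : E₀.card = R.gR K F) :
    (n - 1) * E₀.card + 2 ≤ Module.finrank K
      ↥(riemannRochSpace ((n : ℤ) • ∑ v ∈ E₀, Finsupp.single v (1 : ℤ) + Finsupp.single Q₀ 1)) := by
  have h := R.riemann_inequality htr
    ((n : ℤ) • ∑ v ∈ E₀, Finsupp.single v (1 : ℤ) + Finsupp.single Q₀ 1)
  rw [degree_smul_sum_add htr, ← hcard] at h
  obtain ⟨m, rfl⟩ : ∃ m, n = m + 1 := ⟨n - 1, by omega⟩
  have h2 : (((m + 1 - 1) * E₀.card + 2 : ℕ) : ℤ) = ((m + 1 : ℕ) : ℤ) * E₀.card + 1 + 1 - E₀.card := by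
    rw [Nat.add_sub_cancel]
    push_cast
    ring
  exact_mod_cast h2.le.trans h

/-- **D0, all the data D5 consumes in one call**: for `0 < n`, a place `Q₀` and a finite set `S`,
a Finset `E₀` of `gR` places, disjoint from `S`, not containing `Q₀`, with `l(∑ E₀) = 1` and
`(n - 1) * card E₀ + 2 ≤ l(n ∑ E₀ + Q₀)`. -/
theorem exists_data (htr : Algebra.trdeg K F = 1) (n : ℕ) (hn : 0 < n) (Q₀ : Place K F)
    (S : Finset (Place K F)) :
    ∃ E₀ : Finset (Place K F), E₀.card = R.gR K F ∧ Disjoint E₀ S ∧ Q₀ ∉ E₀ ∧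
      Module.finrank K ↥(riemannRochSpace (∑ v ∈ E₀, Finsupp.single v (1 : ℤ))) = 1 ∧
      (n - 1) * E₀.card + 2 ≤ Module.finrank K
        ↥(riemannRochSpace ((n : ℤ) • ∑ v ∈ E₀, Finsupp.single v (1 : ℤ) +
          Finsupp.single Q₀ 1)) := by
  classical
  obtain ⟨E₀, hcard, hdisj, hrank⟩ := exists_finset htr (insert Q₀ S)
  refine ⟨E₀, hcard, ?_, ?_, hrank, le_finrank htr n hn Q₀ E₀ hcard⟩
  · exact Finset.disjoint_left.mpr fun P hP hPS =>
      Finset.disjoint_left.mp hdisj hP (Finset.mem_insert_of_mem hPS)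
  · intro hQ
    exact Finset.disjoint_left.mp hdisj hQ (Finset.mem_insert_self Q₀ S)

end Fermat.Agent.S17.D.NonSpecialFinset
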