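import Mathlib
import Fermat.Agent.S17.Contract
import Fermat.Agent.S17.D.Move
import Fermat.Agent.S17.D.NonSpecialFinset
import Fermat.Agent.S17.R.Places
import Fermat.Agent.S30.HeckeInputs

/-!
# Program MW (statement S17), strand D: the exit, conditional on the generic-point statement

The generic-point statement of strand D (leaf D5, `exists_finset_forall_principal` of the D
interface) says: for `0 < n`, a place `Q₀` and a non-special reduced divisor `E₀` off `Q₀` with
`(n - 1) * card E₀ + 2 ≤ l(n E₀ + Q₀)`, the class of `P - Q₀` is `n` times a divisor class for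
all but finitely many places `P`.

* `pic0_divisible_of_generic` : if the generic-point statement holds for `n` (as a hypothesis,
  verbatim literal), then `Pic0 K F` is `n`-divisible - from the landed leaves D0
  (`NonSpecialFinset.exists_data`) and D6 (`Move.divisible_of_forall_sub_mem_principal`);
* `divisible_of_generic` : the contract exit `Fermat.Agent.S17.Divisible N` (with `L₀ = 0`) from
  the generic-point statement for the function field of `X₀(N)` over the algebraic closure of
  the rationals.

So the exit of strand D is one application of these to `exists_finset_forall_principal`.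
-/

set_option autoImplicit false

open AlgebraicCurve ModularCurve

namespace Fermat.Agent.S17.D

section Curve

variable {K F : Type*} [Field K] [Field F] [Algebra K F]
variable [IsAlgClosed K] [CharZero K] [Algebra.EssFiniteType K F]

/-- **D0 + D6**: `Pic0 K F` is `n`-divisible as soon as the generic-point statement holds for
`n`. -/
theorem pic0_divisible_of_generic (htr : Algebra.trdeg K F = 1) (n : ℕ) (hn : 0 < n)
    (hgen : ∀ (Q₀ : Place K F) (E₀ : Finset (Place K F)), Q₀ ∉ E₀ →
      Module.finrank K ↥(riemannRochSpace (∑ v ∈ E₀, Finsupp.single v (1 : ℤ))) = 1 →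
      (n - 1) * E₀.card + 2 ≤ Module.finrank K
        ↥(riemannRochSpace ((n : ℤ) • ∑ v ∈ E₀, Finsupp.single v (1 : ℤ) +
          Finsupp.single Q₀ 1)) →
      ∃ S₀ : Finset (Place K F), ∀ P : Place K F, P ∉ S₀ →
        ∃ D : Divisor K F, Finsupp.single P (1 : ℤ) - Finsupp.single Q₀ 1 - (n : ℤ) • D ∈
          Divisor.principal (K := K) (F := F))
    (x : Pic0 K F) : ∃ y : Pic0 K F, n • y = x := by
  obtain ⟨Q₀⟩ := R.nonempty_place htr
  obtain ⟨E₀, -, -, hQ, hE, hdim⟩ := NonSpecialFinset.exists_data htr n hn Q₀ ∅
  obtain ⟨S₀, hS₀⟩ := hgen Q₀ E₀ hQ hE hdim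
  exact Move.divisible_of_forall_sub_mem_principal htr hn S₀ Q₀ hS₀ x

end Curve

/-- **Strand D exit, conditional form**: `Divisible N` (with `L₀ = 0`) from the generic-point
statement for the function field of `X₀(N)` over the algebraic closure of the rationals. -/
theorem divisible_of_generic (N : ℕ) [NeZero N]
    (hgen : ∀ n : ℕ, 0 < n →
      ∀ (Q₀ : Place (AlgebraicClosure ℚ) ↥(modularFunctionFieldBar N))
        (E₀ : Finset (Place (AlgebraicClosure ℚ) ↥(modularFunctionFieldBar N))), Q₀ ∉ E₀ →
      Module.finrank (AlgebraicClosure ℚ)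
        ↥(riemannRochSpace (∑ v ∈ E₀, Finsupp.single v (1 : ℤ))) = 1 →
      (n - 1) * E₀.card + 2 ≤ Module.finrank (AlgebraicClosure ℚ)
        ↥(riemannRochSpace ((n : ℤ) • ∑ v ∈ E₀, Finsupp.single v (1 : ℤ) +
          Finsupp.single Q₀ 1)) →
      ∃ S₀ : Finset (Place (AlgebraicClosure ℚ) ↥(modularFunctionFieldBar N)),
        ∀ P : Place (AlgebraicClosure ℚ) ↥(modularFunctionFieldBar N), P ∉ S₀ →
        ∃ D : Divisor (AlgebraicClosure ℚ) ↥(modularFunctionFieldBar N),
          Finsupp.single P (1 : ℤ) - Finsupp.single Q₀ 1 - (n : ℤ) • D ∈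
            Divisor.principal (K := AlgebraicClosure ℚ) (F := ↥(modularFunctionFieldBar N))) :
    Fermat.Agent.S17.Divisible N :=
  ⟨0, fun l hl _ x =>
    pic0_divisible_of_generic (Fermat.Agent.S30.HeckeInputs.trdeg_bar N) l hl.pos
      (hgen l hl.pos) x⟩

end Fermat.Agent.S17.D
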