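/-
MW strand D, leaf D5a: the affine coordinate ring of the curve minus a point.

`regAway Q0` is the `K`-algebra of the functions regular away from the place `Q0`.

* (A1) `finiteType` : `regAway Q0` is a finitely generated `K`-algebra (it is the integral
  closure of `K[x]` in `F` for any `x` whose only pole is `Q0`, a finite `K[x]`-module);
* (A2) `evalAt htr v hv` : the evaluation at a place `v ≠ Q0`, with `evalAt_spec`;
* (A3) `exists_place_of_algHom` : every `K`-point of `regAway Q0` is the evaluation at a place;
* (A4) `mem_regAway_of_mem_L` : sections of a divisor which is `≤ 0` away from `Q0`;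
* (A5) `exists_nonconst` : `regAway Q0` contains a transcendental element.

`regAway` is the ring `regOff` of strand R (leaf R13, `R/Eval.lean`): `regAway_eq_regOff`.
-/
import Mathlib
import Fermat.Prelude.Def_AlgebraicCurve_Repartitions
import Fermat.Agent.S24.FF.Dedekind
import Fermat.Agent.S24.FF.PrimeAvoid
import Fermat.Agent.S17.R.LSpace
import Fermat.Agent.S17.R.PoleOrder
import Fermat.Agent.S17.R.Eval

set_option autoImplicit false
set_option linter.unusedSectionVars false
set_option linter.unusedVariables false

namespace Fermat.Agent.S17.D.AffineRing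

open AlgebraicCurve IsDedekindDomain IntermediateField
open scoped IntermediateField.algebraAdjoinAdjoin

variable {K F : Type*} [Field K] [Field F] [Algebra K F]

/-- The functions regular away from `Q0` (the coordinate ring of the affine curve `C ∖ {Q0}`). -/
def regAway (Q0 : Place K F) : Subalgebra K F where
  carrier := {f | ∀ v : Place K F, v ≠ Q0 → f ∈ v.toValuationSubring}
  mul_mem' := fun ha hb v hv => mul_mem (ha v hv) (hb v hv)
  one_mem' := fun _ _ => one_mem _
  add_mem' := fun ha hb v hv => add_mem (ha v hv) (hb v hv)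
  zero_mem' := fun _ _ => zero_mem _
  algebraMap_mem' := fun r v _ => v.algebraMap_mem' r

theorem mem_regAway_iff {Q0 : Place K F} {f : F} :
    f ∈ regAway Q0 ↔ ∀ v : Place K F, v ≠ Q0 → f ∈ v.toValuationSubring := Iff.rfl

/-- `regAway` is the ring `regOff` of strand R (leaf R13). -/
theorem regAway_eq_regOff (Q0 : Place K F) : regAway Q0 = R.regOff Q0 := rfl

/-- (A4) A section of a divisor which is `≤ 0` away from `Q0` is regular away from `Q0`. -/
theorem mem_regAway_of_mem_L {Q0 : Place K F} {D : Divisor K F} {f : F}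
    (hf : f ∈ riemannRochSpace D) (hD : ∀ v : Place K F, v ≠ Q0 → D v ≤ 0) :
    f ∈ regAway Q0 := by
  intro v hv
  by_cases hf0 : f = 0
  · rw [hf0]
    exact zero_mem _
  · have h := (R.mem_L_of_ne_zero hf0).mp hf v
    have h2 := hD v hv
    exact (Fermat.Agent.S24.FF.ord_nonneg_iff v hf0).mp (by omega)

/-- The order at a place `v ≠ Q0` of a function regular away from `Q0` is nonnegative. -/
theorem ord_nonneg {Q0 : Place K F} (b : ↥(regAway Q0)) (v : Place K F) (hv : v ≠ Q0) :
    0 ≤ v.ord (b : F) :=
  Fermat.Agent.S24.FF.ord_nonneg_of_mem v (b.2 v hv)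

/-- The inclusion of `regAway Q0` into the valuation ring of a place `v ≠ Q0`. -/
def toValuationSubring {Q0 : Place K F} (v : Place K F) (hv : v ≠ Q0) :
    ↥(regAway Q0) →ₐ[K] ↥v.toValuationSubring where
  toFun b := ⟨(b : F), b.2 v hv⟩
  map_one' := rfl
  map_mul' _ _ := rfl
  map_zero' := rfl
  map_add' _ _ := rfl
  commutes' _ := rfl

theorem coe_toValuationSubring {Q0 : Place K F} (v : Place K F) (hv : v ≠ Q0)
    (b : ↥(regAway Q0)) : ((toValuationSubring v hv b : ↥v.toValuationSubring) : F) = (b : F) :=
  rfl

/-- A function with a pole is transcendental over `K`. -/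
theorem transcendental_of_ord_neg [IsAlgClosed K] {Q0 : Place K F} {x : F}
    (hx : Q0.ord x < 0) : Transcendental K x := by
  apply Fermat.Agent.S24.FF.transcendental_of_not_mem_range
  rintro ⟨c, rfl⟩
  rw [Fermat.Agent.S24.FF.ord_algebraMap] at hx
  exact lt_irrefl _ hx

namespace Closure

variable (K) (x : F)

/-- `K[x]` is a PID when `x` is transcendental. -/
local instance instPIDa [hx : Fact (Transcendental K x)] :
    IsPrincipalIdealRing (Algebra.adjoin K {x}) :=
  Fermat.Agent.S24.FF.polyRing_isPrincipalIdealRing K x hx.out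

local instance instDedekindClosurea [CharZero K] [Fact (Transcendental K x)]
    [Module.Finite K⟮x⟯ F] : IsDedekindDomain (integralClosure (Algebra.adjoin K {x}) F) :=
  integralClosure.isDedekindDomain (Algebra.adjoin K {x}) K⟮x⟯ F

local instance instFracClosurea [Module.Finite K⟮x⟯ F] :
    IsFractionRing (integralClosure (Algebra.adjoin K {x}) F) F :=
  integralClosure.isFractionRing_of_finite_extension K⟮x⟯ F

local instance instFiniteClosurea [CharZero K] [Fact (Transcendental K x)]
    [Module.Finite K⟮x⟯ F] :
    Module.Finite (Algebra.adjoin K {x}) (integralClosure (Algebra.adjoin K {x}) F) :=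
  IsIntegralClosure.finite (Algebra.adjoin K {x}) K⟮x⟯ F _

local instance instTowerClosurea :
    IsScalarTower K (integralClosure (Algebra.adjoin K {x}) F) F :=
  IsScalarTower.of_algebraMap_eq (fun c => by simp [Algebra.algebraMap_eq_smul_one])

/-- `⊇` : a function integral over `K[x]` is regular away from `Q0` as soon as `x` is. -/
theorem mem_regAway_of_isIntegral {Q0 : Place K F} (hx : x ∈ regAway Q0) {b : F}
    (hb : IsIntegral (Algebra.adjoin K {x}) b) : b ∈ regAway Q0 :=
  fun v hv => Fermat.Agent.S24.FF.mem_of_isIntegral_adjoin v (hx v hv) hb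

/-- `⊆` : a function regular away from `Q0` is integral over `K[x]` when `x` has a pole at
`Q0` (a Dedekind domain is the intersection of its localisations at the height-one primes, and
the place of a height-one prime of the integral closure of `K[x]` is not a pole of `x`). -/
theorem isIntegral_of_mem_regAway [CharZero K] [Fact (Transcendental K x)]
    [Module.Finite K⟮x⟯ F] {Q0 : Place K F} (hord : Q0.ord x < 0) {b : F}
    (hb : b ∈ regAway Q0) : IsIntegral (Algebra.adjoin K {x}) b := by
  have hxint : IsIntegral (Algebra.adjoin K {x}) x :=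
    isIntegral_algebraMap (x := (⟨x, Algebra.self_mem_adjoin_singleton K x⟩ : Algebra.adjoin K {x}))
  have hval : ∀ w : HeightOneSpectrum (integralClosure (Algebra.adjoin K {x}) F),
      w.valuation F b ≤ 1 := by
    intro w
    have hne : Place.ofHeightOneSpectrum (K := K) (F := F) w ≠ Q0 := by
      intro h
      have hxw : x ∈ (Place.ofHeightOneSpectrum (K := K) (F := F) w).toValuationSubring := by
        have h1 : w.valuation F
            (algebraMap (integralClosure (Algebra.adjoin K {x}) F) F ⟨x, hxint⟩) ≤ 1 :=
          w.valuation_le_one _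
        exact h1
      rw [h] at hxw
      have h2 := Fermat.Agent.S24.FF.ord_nonneg_of_mem Q0 hxw
      omega
    exact hb _ hne
  obtain ⟨y, hy⟩ := HeightOneSpectrum.mem_integers_of_valuation_le_one F b hval
  rw [← hy]
  exact y.2

/-- The integral closure of `K[x]` in `F` is a finitely generated `K`-algebra. -/
theorem finiteType_closure [CharZero K] [Fact (Transcendental K x)] [Module.Finite K⟮x⟯ F] :
    Algebra.FiniteType K ↥(integralClosure (Algebra.adjoin K {x}) F) := by
  have h1 : Algebra.FiniteType K ↥(Algebra.adjoin K {x}) :=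
    Algebra.FiniteType.adjoin_of_finite (Set.finite_singleton x)
  have h2 : Algebra.FiniteType ↥(Algebra.adjoin K {x})
      ↥(integralClosure (Algebra.adjoin K {x}) F) := inferInstance
  exact h1.trans h2

/-- `regAway Q0` is a finitely generated `K`-algebra, given `x` regular away from `Q0` with a
pole at `Q0`. -/
theorem finiteType_aux [CharZero K] [Fact (Transcendental K x)] [Module.Finite K⟮x⟯ F]
    {Q0 : Place K F} (hx : x ∈ regAway Q0) (hord : Q0.ord x < 0) :
    Algebra.FiniteType K ↥(regAway Q0) := by
  have h3 := finiteType_closure K x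
  let φ : ↥(integralClosure (Algebra.adjoin K {x}) F) →ₐ[K] ↥(regAway Q0) :=
    { toFun := fun b => ⟨(b : F), mem_regAway_of_isIntegral K x hx b.2⟩
      map_one' := rfl
      map_mul' := fun _ _ => rfl
      map_zero' := rfl
      map_add' := fun _ _ => rfl
      commutes' := fun r => Subtype.ext
        (IsScalarTower.algebraMap_apply K ↥(integralClosure (Algebra.adjoin K {x}) F) F r).symm }
  exact Algebra.FiniteType.of_surjective φ
    (fun b => ⟨⟨(b : F), isIntegral_of_mem_regAway K x hord b.2⟩, rfl⟩)

end Closure

section Curve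

variable [IsAlgClosed K] [CharZero K] [Algebra.EssFiniteType K F]

/-- A function regular away from `Q0` with a pole at `Q0`. -/
theorem exists_pole (htr : Algebra.trdeg K F = 1) (Q0 : Place K F) :
    ∃ x : ↥(regAway Q0), Q0.ord (x : F) < 0 := by
  obtain ⟨n₀, hn₀⟩ := R.exists_nongap_bound (K := K) (F := F) htr Q0
  obtain ⟨f, hfL, hford⟩ := hn₀ (n₀ + 1) (Nat.le_succ n₀)
  refine ⟨⟨f, R.Eval.mem_regOff_of_mem_L hfL⟩, ?_⟩
  show Q0.ord f < 0
  rw [hford]
  push_cast
  omega

/-- (A5) `regAway Q0` contains a nonconstant (transcendental) function. -/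
theorem exists_nonconst (htr : Algebra.trdeg K F = 1) (Q0 : Place K F) :
    ∃ x : ↥(regAway Q0), Transcendental K (x : F) := by
  obtain ⟨x, hord⟩ := exists_pole htr Q0
  exact ⟨x, transcendental_of_ord_neg hord⟩

/-- (A1) `regAway Q0` is a finitely generated `K`-algebra. -/
theorem finiteType (htr : Algebra.trdeg K F = 1) (Q0 : Place K F) :
    Algebra.FiniteType K ↥(regAway Q0) := by
  obtain ⟨x, hord⟩ := exists_pole htr Q0
  have hxt : Transcendental K (x : F) := transcendental_of_ord_neg hord
  have : Fact (Transcendental K (x : F)) := ⟨hxt⟩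
  have : Module.Finite K⟮(x : F)⟯ F := Fermat.Agent.S24.FF.finite_adjoin_simple htr hxt
  exact Closure.finiteType_aux K (x : F) x.2 hord

/-- (A2) The evaluation at a place `v ≠ Q0` of the functions regular away from `Q0`. -/
noncomputable def evalAt (htr : Algebra.trdeg K F = 1) {Q0 : Place K F} (v : Place K F)
    (hv : v ≠ Q0) : ↥(regAway Q0) →ₐ[K] K :=
  (R.evalAt htr v).comp (toValuationSubring v hv)

theorem evalAt_eq_iff (htr : Algebra.trdeg K F = 1) {Q0 : Place K F} (v : Place K F)
    (hv : v ≠ Q0) (b : ↥(regAway Q0)) (c : K) :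
    evalAt htr v hv b = c ↔
      ((b : F) = algebraMap K F c ∨ 0 < v.ord ((b : F) - algebraMap K F c)) :=
  R.evalAt_eq_iff htr v (toValuationSubring v hv b) c

/-- (A2) The value `evalAt htr v hv b` is the constant `c` with `b - c` vanishing at `v`. -/
theorem evalAt_spec (htr : Algebra.trdeg K F = 1) {Q0 : Place K F} (v : Place K F)
    (hv : v ≠ Q0) (b : ↥(regAway Q0)) :
    (b : F) = algebraMap K F (evalAt htr v hv b) ∨
      0 < v.ord ((b : F) - algebraMap K F (evalAt htr v hv b)) :=
  (evalAt_eq_iff htr v hv b _).mp rfl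

/-- The kernel of the evaluation at `v`: the functions vanishing at `v`. -/
theorem evalAt_eq_zero_iff (htr : Algebra.trdeg K F = 1) {Q0 : Place K F} (v : Place K F)
    (hv : v ≠ Q0) (b : ↥(regAway Q0)) :
    evalAt htr v hv b = 0 ↔ ((b : F) = 0 ∨ 0 < v.ord (b : F)) := by
  rw [evalAt_eq_iff, map_zero, sub_zero]

/-- (A3) Every `K`-point of `regAway Q0` is the evaluation at a place `v ≠ Q0`. -/
theorem exists_place_of_algHom (htr : Algebra.trdeg K F = 1) {Q0 : Place K F}
    (χ : ↥(regAway Q0) →ₐ[K] K) : ∃ v : Place K F, ∃ hv : v ≠ Q0, χ = evalAt htr v hv := by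
  obtain ⟨v, hv, h⟩ := R.exists_place_of_algHom htr Q0 χ
  exact ⟨v, hv, AlgHom.ext fun b => ((evalAt_eq_iff htr v hv b (χ b)).mpr (h b)).symm⟩

/-- The place of a `K`-point is unique: the evaluations at distinct places are distinct. -/
theorem evalAt_injective (htr : Algebra.trdeg K F = 1) {Q0 : Place K F} {v w : Place K F}
    (hv : v ≠ Q0) (hw : w ≠ Q0) (h : evalAt htr v hv = evalAt htr w hw) : v = w := by
  refine R.place_unique_of_algHom htr Q0 hv hw fun f c hpos => ?_
  have h1 : evalAt htr v hv f = c := (evalAt_eq_iff htr v hv f c).mpr (Or.inr hpos)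
  rw [h] at h1
  rcases (evalAt_eq_iff htr w hw f c).mp h1 with h2 | h2
  · rw [h2, sub_self, Place.ord_zero] at hpos
    exact absurd hpos (lt_irrefl _)
  · exact h2

end Curve

end Fermat.Agent.S17.D.AffineRing
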