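/-
MW strand D, leaf Model: the affine model of the curve minus a point.

A MODEL of `C ∖ {Q₀}` is a Dedekind domain `R` with `[Algebra R F] [IsFractionRing R F]
[Algebra K R] [IsScalarTower K R F]` whose places are exactly the places `≠ Q₀`.

* (M1) `exists_sole_pole` : a transcendental function whose only pole is `Q₀`;
* (M2) `exists_model` : a model exists, finitely generated over `K` (the integral closure of
  `K[x]` in `F`, for `x` with sole pole `Q₀`);
* (M3) `exists_point` : every height-one prime of a model is the kernel of a `K`-point;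
* (M4) `exists_prime_of_point` : the kernel of a `K`-point of a model is a height-one prime.
-/
import Mathlib
import Fermat.Prelude.Def_AlgebraicCurve_Repartitions
import Fermat.Agent.S24.FF.Dedekind
import Fermat.Agent.S17.R.Eval
import Fermat.Agent.S17.D.AffineRing

set_option autoImplicit false
set_option linter.unusedSectionVars false
set_option linter.unusedVariables false

open AlgebraicCurve IsDedekindDomain

namespace Fermat.Agent.S17.D.Model

universe uK uF

variable {K : Type uK} {F : Type uF} [Field K] [Field F] [Algebra K F]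
variable [IsAlgClosed K] [CharZero K] [Algebra.EssFiniteType K F]

/-- (M1) a function whose only pole is `Q₀`. -/
theorem exists_sole_pole (htr : Algebra.trdeg K F = 1) (Q₀ : Place K F) :
    ∃ x : F, Transcendental K x ∧ ∀ v : Place K F, v.ord x < 0 ↔ v = Q₀ := by
  obtain ⟨x, hord⟩ := AffineRing.exists_pole htr Q₀
  refine ⟨(x : F), AffineRing.transcendental_of_ord_neg hord, fun v => ⟨fun h => ?_, fun h => ?_⟩⟩
  · by_contra hv
    have h2 := AffineRing.ord_nonneg x v hv
    omega
  · rw [h]
    exact hord

section Abstract

variable {R : Type*} [CommRing R] [IsDedekindDomain R] [Algebra R F] [IsFractionRing R F]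
  [Algebra K R] [IsScalarTower K R F]

/-- A model maps into the valuation ring of the place of each of its height-one primes. -/
def toValuationSubring (w : HeightOneSpectrum R) :
    R →ₐ[K] ↥(Place.ofHeightOneSpectrum (K := K) (F := F) w).toValuationSubring where
  toFun r := ⟨algebraMap R F r, w.valuation_le_one r⟩
  map_one' := Subtype.ext (map_one _)
  map_mul' a b := Subtype.ext (map_mul _ a b)
  map_zero' := Subtype.ext (map_zero _)
  map_add' a b := Subtype.ext (map_add _ a b)
  commutes' c := Subtype.ext (IsScalarTower.algebraMap_apply K R F c).symm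

theorem coe_toValuationSubring (w : HeightOneSpectrum R) (r : R) :
    ((toValuationSubring (K := K) (F := F) w r :
      ↥(Place.ofHeightOneSpectrum (K := K) (F := F) w).toValuationSubring) : F) =
      algebraMap R F r := rfl

/-- (M3) every height-one prime of the model is the kernel of a `K`-point. -/
theorem exists_point (htr : Algebra.trdeg K F = 1) (w : HeightOneSpectrum R) :
    ∃ χ : R →ₐ[K] K, ∀ b : R, χ b = 0 ↔ b ∈ w.asIdeal := by
  refine ⟨(Fermat.Agent.S17.R.evalAt htr (Place.ofHeightOneSpectrum (K := K) (F := F) w)).comp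
    (toValuationSubring (K := K) (F := F) w), fun b => ?_⟩
  rw [AlgHom.comp_apply, Fermat.Agent.S17.R.evalAt_eq_iff, map_zero, sub_zero,
    coe_toValuationSubring]
  by_cases hb : b = 0
  · rw [hb, map_zero]
    exact ⟨fun _ => zero_mem _, fun _ => Or.inl rfl⟩
  · have hb' : algebraMap R F b ≠ 0 := by
      intro h0
      exact hb ((IsFractionRing.injective R F) (by rw [h0, map_zero]))
    rw [Fermat.Agent.S24.FF.mem_asIdeal_iff_ord_pos (K := K) (F := F) w hb]
    exact ⟨fun h => h.resolve_left hb', fun h => Or.inr h⟩

/-- (M4) every `K`-point of the model is a height-one prime. -/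
theorem exists_prime_of_point (htr : Algebra.trdeg K F = 1) (χ : R →ₐ[K] K) :
    ∃ w : HeightOneSpectrum R, ∀ b : R, b ∈ w.asIdeal ↔ χ b = 0 := by
  have hprime : (RingHom.ker χ.toRingHom).IsPrime := RingHom.ker_isPrime χ.toRingHom
  have hne : RingHom.ker χ.toRingHom ≠ ⊥ := by
    intro hbot
    have hconst : ∀ b : R, b = algebraMap K R (χ b) := by
      intro b
      have h1 : b - algebraMap K R (χ b) ∈ RingHom.ker χ.toRingHom := by
        rw [RingHom.mem_ker]
        show χ (b - algebraMap K R (χ b)) = 0
        rw [map_sub, AlgHom.commutes, sub_eq_zero]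
        rfl
      rw [hbot, Ideal.mem_bot, sub_eq_zero] at h1
      exact h1
    have h : Algebra.trdeg K F ≠ 0 := by
      rw [htr]
      exact one_ne_zero
    obtain ⟨x₀, hx₀⟩ := (trdeg_ne_zero_iff.mp h).transcendental
    apply hx₀
    obtain ⟨a, b, hb, rfl⟩ := IsFractionRing.div_surjective (A := R) x₀
    rw [hconst a, hconst b, ← IsScalarTower.algebraMap_apply K R F,
      ← IsScalarTower.algebraMap_apply K R F, ← map_div₀]
    exact isAlgebraic_algebraMap _
  exact ⟨⟨RingHom.ker χ.toRingHom, hprime, hne⟩, fun b => RingHom.mem_ker⟩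

end Abstract

section Concrete

open scoped IntermediateField.algebraAdjoinAdjoin
open IntermediateField

variable (K) (x : F)

/-- `K[x]` is a PID when `x` is transcendental. -/
local instance instPIDm [hx : Fact (Transcendental K x)] :
    IsPrincipalIdealRing (Algebra.adjoin K {x}) :=
  Fermat.Agent.S24.FF.polyRing_isPrincipalIdealRing K x hx.out

local instance instDedekindClosurem [Fact (Transcendental K x)]
    [Module.Finite K⟮x⟯ F] : IsDedekindDomain (integralClosure (Algebra.adjoin K {x}) F) :=
  integralClosure.isDedekindDomain (Algebra.adjoin K {x}) K⟮x⟯ F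

local instance instFracClosurem [Module.Finite K⟮x⟯ F] :
    IsFractionRing (integralClosure (Algebra.adjoin K {x}) F) F :=
  integralClosure.isFractionRing_of_finite_extension K⟮x⟯ F

local instance instTowerClosurem :
    IsScalarTower K (integralClosure (Algebra.adjoin K {x}) F) F :=
  IsScalarTower.of_algebraMap_eq (fun c => by simp [Algebra.algebraMap_eq_smul_one])

/-- The integral closure of `K[x]` in `F` is a model of `C ∖ {Q₀}` when `x` is regular away
from `Q₀` with a pole at `Q₀`. -/
theorem model_closure [Fact (Transcendental K x)] [Module.Finite K⟮x⟯ F] {Q₀ : Place K F}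
    (hx : x ∈ AffineRing.regAway Q₀) (hord : Q₀.ord x < 0) (v : Place K F) :
    v ≠ Q₀ ↔ ∃ w : HeightOneSpectrum (integralClosure (Algebra.adjoin K {x}) F),
      Place.ofHeightOneSpectrum (K := K) (F := F) w = v := by
  constructor
  · intro hv
    exact Fermat.Agent.S24.FF.exists_ofHeightOneSpectrum_eq v
      (fun r => AffineRing.Closure.mem_regAway_of_isIntegral K x hx r.2 v hv)
  · rintro ⟨w, rfl⟩ h
    have hxint : IsIntegral (Algebra.adjoin K {x}) x :=
      isIntegral_algebraMap
        (x := (⟨x, Algebra.self_mem_adjoin_singleton K x⟩ : Algebra.adjoin K {x}))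
    have hxw : x ∈ (Place.ofHeightOneSpectrum (K := K) (F := F) w).toValuationSubring := by
      have h1 : w.valuation F
          (algebraMap (integralClosure (Algebra.adjoin K {x}) F) F ⟨x, hxint⟩) ≤ 1 :=
        w.valuation_le_one _
      exact h1
    rw [h] at hxw
    have h2 := Fermat.Agent.S24.FF.ord_nonneg_of_mem Q₀ hxw
    omega

/-- (M2), for a given `x`. -/
theorem exists_model_aux [Fact (Transcendental K x)] [Module.Finite K⟮x⟯ F] {Q₀ : Place K F}
    (hx : x ∈ AffineRing.regAway Q₀) (hord : Q₀.ord x < 0) :
    ∃ (R : Type uF) (_ : CommRing R) (_ : IsDedekindDomain R) (_ : Algebra R F)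
      (_ : IsFractionRing R F) (_ : Algebra K R) (_ : IsScalarTower K R F)
      (_ : Algebra.FiniteType K R),
      ∀ v : Place K F, v ≠ Q₀ ↔
        ∃ w : HeightOneSpectrum R, Place.ofHeightOneSpectrum (K := K) (F := F) w = v :=
  ⟨↥(integralClosure (Algebra.adjoin K {x}) F), inferInstance, inferInstance, inferInstance,
    inferInstance, inferInstance, inferInstance, AffineRing.Closure.finiteType_closure K x,
    model_closure K x hx hord⟩

variable {K}

/-- (M2) the concrete model: the integral closure of `K[x]` in `F`, for `x` with sole pole `Q₀`. -/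
theorem exists_model (htr : Algebra.trdeg K F = 1) (Q₀ : Place K F) :
    ∃ (R : Type uF) (_ : CommRing R) (_ : IsDedekindDomain R) (_ : Algebra R F)
      (_ : IsFractionRing R F) (_ : Algebra K R) (_ : IsScalarTower K R F)
      (_ : Algebra.FiniteType K R),
      ∀ v : Place K F, v ≠ Q₀ ↔
        ∃ w : HeightOneSpectrum R, Place.ofHeightOneSpectrum (K := K) (F := F) w = v := by
  obtain ⟨x, hord⟩ := AffineRing.exists_pole htr Q₀
  have hxt : Transcendental K (x : F) := AffineRing.transcendental_of_ord_neg hord
  have : Fact (Transcendental K (x : F)) := ⟨hxt⟩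
  have : Module.Finite K⟮(x : F)⟯ F := Fermat.Agent.S24.FF.finite_adjoin_simple htr hxt
  exact exists_model_aux K (x : F) x.2 hord

end Concrete

end Fermat.Agent.S17.D.Model
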