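import Mathlib

/-!
# Program MW, strand D, leaf D2a: the `I`-adic contraction principle

`R` is a commutative ring, `I`-adically complete (e.g. `R = K⟦X⟧`, `I = (X)`).

* `exists_unique_fixed_point` : a self-map `T` of `ι → R` that preserves the vectors with
  coordinates in `I` and gains one power of `I` on differences has exactly one fixed point
  with coordinates in `I`.
* `exists_unique_zero` : a map `G : (ι → R) → (κ → R)` with `G 0 ≡ 0 mod I` which is
  approximated to first order by an invertible matrix `J` (`G x - G y - J (x - y)` gains one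
  power of `I`) has exactly one zero with coordinates in `I` (quasi-Newton `x ↦ x - J⁻¹ G x`).
* `exists_unique_zero_of_isUnit_det` : the square case, `J.det` a unit.
* `exists_unique_zero_powerSeries`, `exists_unique_zero_powerSeries_of_isUnit_det` : the same
  over `PowerSeries K`, in divisibility form (`X ^ k ∣ _`).

Level-free: Mathlib only.
-/

set_option autoImplicit false

namespace Fermat.Agent.S17.D.Contraction

variable {R : Type*} [CommRing R]

/-- Limits of sequences with `c (n + 1) - c n ∈ I ^ n` in a precomplete ring. -/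
theorem exists_limit (I : Ideal R) [IsPrecomplete I R] (c : ℕ → R)
    (hc : ∀ n, c (n + 1) - c n ∈ I ^ n) : ∃ L : R, ∀ n, c n - L ∈ I ^ n := by
  have aux : ∀ m n, m ≤ n → c m ≡ c n [SMOD (I ^ m • ⊤ : Ideal R)] := by
    intro m n hmn
    rw [← Ideal.one_eq_top, Ideal.smul_eq_mul, mul_one]
    induction n, hmn using Nat.le_induction with
    | base => rfl
    | succ n hmn ih =>
      refine ih.trans ?_
      rw [SModEq.sub_mem, ← Ideal.neg_mem_iff, neg_sub]
      exact Ideal.pow_le_pow_right hmn (hc n)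
  obtain ⟨L, hL⟩ := IsPrecomplete.prec' c (aux _ _)
  refine ⟨L, fun n => ?_⟩
  have h := hL n
  rw [← Ideal.one_eq_top, Ideal.smul_eq_mul, mul_one] at h
  exact SModEq.sub_mem.mp h

/-- An element lying in every power of `I` is zero in a Hausdorff ring. -/
theorem eq_zero_of_forall_mem_pow (I : Ideal R) [IsHausdorff I R] (x : R)
    (hx : ∀ n, x ∈ I ^ n) : x = 0 := by
  refine IsHausdorff.haus' (I := I) x fun n => ?_
  rw [← Ideal.one_eq_top, Ideal.smul_eq_mul, mul_one, SModEq.zero]
  exact hx n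

/-- **The `I`-adic contraction principle.** -/
theorem exists_unique_fixed_point {ι : Type*} (I : Ideal R) [IsAdicComplete I R]
    (T : (ι → R) → (ι → R))
    (hT : ∀ x : ι → R, (∀ i, x i ∈ I) → ∀ i, T x i ∈ I)
    (hc : ∀ (k : ℕ) (x y : ι → R), (∀ i, x i ∈ I) → (∀ i, y i ∈ I) →
      (∀ i, x i - y i ∈ I ^ k) → ∀ i, T x i - T y i ∈ I ^ (k + 1)) :
    ∃! x : ι → R, (∀ i, x i ∈ I) ∧ T x = x := by
  let s : ℕ → ι → R := fun n => Nat.rec (0 : ι → R) (fun _ y => T y) n
  have hs : ∀ n, s (n + 1) = T (s n) := fun n => rfl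
  have hsI : ∀ n i, s n i ∈ I := by
    intro n
    induction n with
    | zero =>
      intro i
      show (0 : R) ∈ I
      exact Ideal.zero_mem _
    | succ n ih =>
      intro i
      rw [hs]
      exact hT _ ih i
  have hstep : ∀ n i, s (n + 1) i - s n i ∈ I ^ n := by
    intro n
    induction n with
    | zero =>
      intro i
      rw [pow_zero, Ideal.one_eq_top]
      exact Submodule.mem_top
    | succ n ih =>
      intro i
      rw [hs (n + 1), hs n]
      exact hc n (s (n + 1)) (s n) (hsI (n + 1)) (hsI n) ih i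
  have hlim : ∀ i, ∃ L : R, ∀ n, s n i - L ∈ I ^ n := fun i =>
    exists_limit I (fun n => s n i) fun n => hstep n i
  choose b hb using hlim
  have hbI : ∀ i, b i ∈ I := by
    intro i
    have h1 := hb i 1
    rw [pow_one] at h1
    have e : b i = s 1 i - (s 1 i - b i) := by ring
    rw [e]
    exact Ideal.sub_mem _ (hsI 1 i) h1
  have hfix : T b = b := by
    funext i
    refine sub_eq_zero.mp (eq_zero_of_forall_mem_pow I _ fun n => ?_)
    have h1 : ∀ j, b j - s n j ∈ I ^ n := fun j => by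
      rw [← Ideal.neg_mem_iff, neg_sub]
      exact hb j n
    have h2 : T b i - T (s n) i ∈ I ^ (n + 1) := hc n b (s n) hbI (hsI n) h1 i
    have h3 : s (n + 1) i - b i ∈ I ^ (n + 1) := hb i (n + 1)
    have e : T b i - b i = (T b i - T (s n) i) + (s (n + 1) i - b i) := by
      rw [hs]
      ring
    rw [e]
    exact Ideal.pow_le_pow_right (Nat.le_succ n) (Ideal.add_mem _ h2 h3)
  refine ⟨b, ⟨hbI, hfix⟩, ?_⟩
  rintro b' ⟨hb'I, hfix'⟩
  have key : ∀ k : ℕ, ∀ i, b' i - b i ∈ I ^ k := by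
    intro k
    induction k with
    | zero =>
      intro i
      rw [pow_zero, Ideal.one_eq_top]
      exact Submodule.mem_top
    | succ k ih =>
      intro i
      have h := hc k b' b hb'I hbI ih i
      rwa [hfix', hfix] at h
  funext i
  exact sub_eq_zero.mp (eq_zero_of_forall_mem_pow I _ fun k => key k i)

/-- `mulVec` preserves coordinatewise membership in an ideal. -/
theorem mulVec_mem {m n : Type*} [Fintype n] (A : Matrix m n R) (𝔞 : Ideal R) (v : n → R)
    (hv : ∀ i, v i ∈ 𝔞) (j : m) : (A.mulVec v) j ∈ 𝔞 :=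
  Ideal.sum_mem _ fun i _ => Ideal.mul_mem_left _ _ (hv i)

section Zero

variable {ι κ : Type*} [Fintype ι] [Fintype κ] [DecidableEq ι] [DecidableEq κ]

/-- **Zeros by quasi-Newton.**  `G : (ι → R) → (κ → R)` with `G 0 ≡ 0` modulo `I`, approximated
to first order by the matrix `J` with two-sided inverse `B`, has exactly one zero with
coordinates in `I`. -/
theorem exists_unique_zero (I : Ideal R) [IsAdicComplete I R]
    (G : (ι → R) → (κ → R)) (J : Matrix κ ι R) (B : Matrix ι κ R)
    (hBJ : B * J = 1) (hJB : J * B = 1) (h0 : ∀ j, G 0 j ∈ I)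
    (hG : ∀ (k : ℕ) (x y : ι → R), (∀ i, x i ∈ I) → (∀ i, y i ∈ I) →
      (∀ i, x i - y i ∈ I ^ k) → ∀ j, G x j - G y j - (J.mulVec (x - y)) j ∈ I ^ (k + 1)) :
    ∃! x : ι → R, (∀ i, x i ∈ I) ∧ G x = 0 := by
  -- `G` maps `I`-vectors to `I`-vectors
  have hGI : ∀ x : ι → R, (∀ i, x i ∈ I) → ∀ j, G x j ∈ I := by
    intro x hx j
    have h1 := hG 0 x 0 hx (fun _ => Ideal.zero_mem _)
      (fun i => by rw [pow_zero, Ideal.one_eq_top]; exact Submodule.mem_top) j
    rw [zero_add, pow_one, sub_zero] at h1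
    have h2 : (J.mulVec x) j ∈ I := mulVec_mem J I x hx j
    have e : G x j = (G x j - G 0 j - (J.mulVec x) j) + G 0 j + (J.mulVec x) j := by ring
    rw [e]
    exact Ideal.add_mem _ (Ideal.add_mem _ h1 (h0 j)) h2
  -- the quasi-Newton map
  let T : (ι → R) → (ι → R) := fun x => x - B.mulVec (G x)
  have hT : ∀ x : ι → R, (∀ i, x i ∈ I) → ∀ i, T x i ∈ I := by
    intro x hx i
    exact Ideal.sub_mem _ (hx i) (mulVec_mem B I (G x) (hGI x hx) i)
  have hTc : ∀ (k : ℕ) (x y : ι → R), (∀ i, x i ∈ I) → (∀ i, y i ∈ I) →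
      (∀ i, x i - y i ∈ I ^ k) → ∀ i, T x i - T y i ∈ I ^ (k + 1) := by
    intro k x y hx hy hxy i
    have e : T x - T y = -(B.mulVec (G x - G y - J.mulVec (x - y))) := by
      have h1 : B.mulVec (J.mulVec (x - y)) = x - y := by
        rw [Matrix.mulVec_mulVec, hBJ, Matrix.one_mulVec]
      show (x - B.mulVec (G x)) - (y - B.mulVec (G y)) = _
      rw [Matrix.mulVec_sub, Matrix.mulVec_sub, h1]
      abel
    have e' : T x i - T y i = (T x - T y) i := rfl
    rw [e', e, Pi.neg_apply, Ideal.neg_mem_iff]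
    exact mulVec_mem B (I ^ (k + 1)) _ (fun j => hG k x y hx hy hxy j) i
  obtain ⟨b, ⟨hbI, hb⟩, huniq⟩ := exists_unique_fixed_point I T hT hTc
  have hzero : ∀ x : ι → R, T x = x ↔ G x = 0 := by
    intro x
    constructor
    · intro h
      have h1 : B.mulVec (G x) = 0 := by
        have h2 : x - B.mulVec (G x) = x := h
        exact sub_eq_self.mp h2
      have h3 : J.mulVec (B.mulVec (G x)) = G x := by
        rw [Matrix.mulVec_mulVec, hJB, Matrix.one_mulVec]
      rw [← h3, h1, Matrix.mulVec_zero]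
    · intro h
      show x - B.mulVec (G x) = x
      rw [h, Matrix.mulVec_zero, sub_zero]
  refine ⟨b, ⟨hbI, (hzero b).mp hb⟩, ?_⟩
  rintro b' ⟨hb'I, hb'⟩
  exact huniq b' ⟨hb'I, (hzero b').mpr hb'⟩

/-- The square case of `exists_unique_zero`: the determinant of `J` is a unit. -/
theorem exists_unique_zero_of_isUnit_det (I : Ideal R) [IsAdicComplete I R]
    (G : (ι → R) → (ι → R)) (J : Matrix ι ι R) (hJ : IsUnit J.det) (h0 : ∀ j, G 0 j ∈ I)
    (hG : ∀ (k : ℕ) (x y : ι → R), (∀ i, x i ∈ I) → (∀ i, y i ∈ I) →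
      (∀ i, x i - y i ∈ I ^ k) → ∀ j, G x j - G y j - (J.mulVec (x - y)) j ∈ I ^ (k + 1)) :
    ∃! x : ι → R, (∀ i, x i ∈ I) ∧ G x = 0 :=
  exists_unique_zero I G J J⁻¹ (Matrix.nonsing_inv_mul J hJ) (Matrix.mul_nonsing_inv J hJ) h0 hG

end Zero

section PowerSeries

variable {K : Type*} [CommRing K] {ι κ : Type*} [Fintype ι] [Fintype κ] [DecidableEq ι]
  [DecidableEq κ]

/-- Membership in a power of `(X)` is divisibility by a power of `X`. -/
theorem mem_span_X_pow_iff (k : ℕ) (f : PowerSeries K) :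
    f ∈ (Ideal.span {PowerSeries.X} : Ideal (PowerSeries K)) ^ k ↔ PowerSeries.X ^ k ∣ f := by
  rw [Ideal.span_singleton_pow, Ideal.mem_span_singleton]

theorem mem_span_X_iff (f : PowerSeries K) :
    f ∈ (Ideal.span {PowerSeries.X} : Ideal (PowerSeries K)) ↔ PowerSeries.X ∣ f :=
  Ideal.mem_span_singleton

/-- `exists_unique_zero` over `PowerSeries K`, in divisibility form. -/
theorem exists_unique_zero_powerSeries
    (G : (ι → PowerSeries K) → (κ → PowerSeries K)) (J : Matrix κ ι (PowerSeries K))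
    (B : Matrix ι κ (PowerSeries K)) (hBJ : B * J = 1) (hJB : J * B = 1)
    (h0 : ∀ j, PowerSeries.X ∣ G 0 j)
    (hG : ∀ (k : ℕ) (x y : ι → PowerSeries K), (∀ i, PowerSeries.X ∣ x i) →
      (∀ i, PowerSeries.X ∣ y i) → (∀ i, PowerSeries.X ^ k ∣ x i - y i) →
      ∀ j, PowerSeries.X ^ (k + 1) ∣ G x j - G y j - (J.mulVec (x - y)) j) :
    ∃! x : ι → PowerSeries K, (∀ i, PowerSeries.X ∣ x i) ∧ G x = 0 := by
  have h := exists_unique_zero (Ideal.span {PowerSeries.X} : Ideal (PowerSeries K)) G J B hBJ hJB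
    (fun j => (mem_span_X_iff _).mpr (h0 j))
    (fun k x y hx hy hxy j => (mem_span_X_pow_iff _ _).mpr
      (hG k x y (fun i => (mem_span_X_iff _).mp (hx i)) (fun i => (mem_span_X_iff _).mp (hy i))
        (fun i => (mem_span_X_pow_iff _ _).mp (hxy i)) j))
  obtain ⟨b, ⟨hbI, hb⟩, huniq⟩ := h
  refine ⟨b, ⟨fun i => (mem_span_X_iff _).mp (hbI i), hb⟩, ?_⟩
  rintro b' ⟨hb'I, hb'⟩
  exact huniq b' ⟨fun i => (mem_span_X_iff _).mpr (hb'I i), hb'⟩

/-- The square case of `exists_unique_zero_powerSeries`. -/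
theorem exists_unique_zero_powerSeries_of_isUnit_det
    (G : (ι → PowerSeries K) → (ι → PowerSeries K)) (J : Matrix ι ι (PowerSeries K))
    (hJ : IsUnit J.det) (h0 : ∀ j, PowerSeries.X ∣ G 0 j)
    (hG : ∀ (k : ℕ) (x y : ι → PowerSeries K), (∀ i, PowerSeries.X ∣ x i) →
      (∀ i, PowerSeries.X ∣ y i) → (∀ i, PowerSeries.X ^ k ∣ x i - y i) →
      ∀ j, PowerSeries.X ^ (k + 1) ∣ G x j - G y j - (J.mulVec (x - y)) j) :
    ∃! x : ι → PowerSeries K, (∀ i, PowerSeries.X ∣ x i) ∧ G x = 0 :=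
  exists_unique_zero_powerSeries G J J⁻¹ (Matrix.nonsing_inv_mul J hJ)
    (Matrix.mul_nonsing_inv J hJ) h0 hG

end PowerSeries

end Fermat.Agent.S17.D.Contraction
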