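/-
S17 / strand D, leaf D2a (adapter, level-free): the landed `X`-adic Hensel step
`Fermat.Agent.S17.D.Contraction.exists_unique_zero_powerSeries` in the shape the formal division
system (D2b) produces.

* `X_pow_succ_dvd_of_mem`         : an element of `(X) * (δ i)_i` is divisible by `X ^ (d + 1)`
                                    once all `δ i` are divisible by `X ^ d`.
* `exists_unique_zero_const`      : the Jacobian `J` and its two-sided inverse are matrices over
                                    `K` (the Jacobian at the base point modulo `X`).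
* `exists_unique_zero_const_of_mem` : the same with the estimate in ideal form, no exponent:
                                    `G x - G y - J (x - y) ∈ (X) * (x i - y i)_i`.
* `exists_inverse_of_injective`   : over a field, a matrix `J : Matrix κ ι K` with
                                    `card ι = card κ` and trivial kernel has a two-sided inverse.
* `exists_unique_zero_of_injective'`, `exists_unique_zero_of_injective` : no inverse is asked,
                                    only `NONDEG`: `J v = 0 → v = 0` and `card ι = card κ`.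
-/
import Mathlib
import Fermat.Agent.S17.D.Contraction

set_option autoImplicit false

namespace Fermat.Agent.S17.D.ContractionConst

open PowerSeries

section Ideal

variable {K : Type*} [CommRing K] {ι : Type*}

/-- If all `δ i` are divisible by `X ^ d`, every element of `(X) * (δ i)_i` is divisible by
`X ^ (d + 1)`. -/
theorem X_pow_succ_dvd_of_mem {d : ℕ} {δ : ι → K⟦X⟧} (hδ : ∀ i, (X : K⟦X⟧) ^ d ∣ δ i)
    {y : K⟦X⟧} (hy : y ∈ Ideal.span {(X : K⟦X⟧)} * Ideal.span (Set.range δ)) :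
    (X : K⟦X⟧) ^ (d + 1) ∣ y := by
  have hle : Ideal.span {(X : K⟦X⟧)} * Ideal.span (Set.range δ)
      ≤ Ideal.span {(X : K⟦X⟧) ^ (d + 1)} := by
    have h2 : Ideal.span (Set.range δ) ≤ Ideal.span {(X : K⟦X⟧) ^ d} := by
      rw [Ideal.span_le]
      rintro _ ⟨i, rfl⟩
      exact Ideal.mem_span_singleton.mpr (hδ i)
    calc Ideal.span {(X : K⟦X⟧)} * Ideal.span (Set.range δ)
        ≤ Ideal.span {(X : K⟦X⟧)} * Ideal.span {(X : K⟦X⟧) ^ d} := Ideal.mul_mono_right h2
      _ = Ideal.span {(X : K⟦X⟧) ^ (d + 1)} := by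
          rw [Ideal.span_singleton_mul_span_singleton, pow_succ']
  exact Ideal.mem_span_singleton.mp (hle hy)

end Ideal

section Const

variable {K : Type*} [CommRing K] {ι κ : Type*} [Fintype ι] [Fintype κ] [DecidableEq ι]
  [DecidableEq κ]

omit [Fintype κ] [DecidableEq ι] [DecidableEq κ] in
theorem mulVec_map_C_apply (J : Matrix κ ι K) (v : ι → K⟦X⟧) (j : κ) :
    ((J.map (C : K →+* K⟦X⟧)).mulVec v) j = ∑ i, C (J j i) * v i := by
  simp only [Matrix.mulVec, dotProduct, Matrix.map_apply]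

/-- The `X`-adic Hensel step with a constant Jacobian `J` over `K` and a two-sided inverse `B`
over `K`: if `G 0 ≡ 0` modulo `X` and `x ≡ y mod X ^ k` implies
`G x - G y ≡ J (x - y) mod X ^ (k + 1)` on vectors divisible by `X`, then `G` has exactly one
zero divisible by `X`. -/
theorem exists_unique_zero_const
    (G : (ι → K⟦X⟧) → (κ → K⟦X⟧)) (J : Matrix κ ι K) (B : Matrix ι κ K)
    (hBJ : B * J = 1) (hJB : J * B = 1) (h0 : ∀ j, (X : K⟦X⟧) ∣ G 0 j)
    (hG : ∀ (k : ℕ) (x y : ι → K⟦X⟧), (∀ i, (X : K⟦X⟧) ∣ x i) → (∀ i, (X : K⟦X⟧) ∣ y i) →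
      (∀ i, (X : K⟦X⟧) ^ k ∣ x i - y i) →
      ∀ j, (X : K⟦X⟧) ^ (k + 1) ∣ G x j - G y j - ∑ i, C (J j i) * (x i - y i)) :
    ∃! x : ι → K⟦X⟧, (∀ i, (X : K⟦X⟧) ∣ x i) ∧ G x = 0 := by
  have e1 : (B.map (C : K →+* K⟦X⟧)) * (J.map (C : K →+* K⟦X⟧)) = 1 := by
    rw [← Matrix.map_mul, hBJ, Matrix.map_one _ (map_zero _) (map_one _)]
  have e2 : (J.map (C : K →+* K⟦X⟧)) * (B.map (C : K →+* K⟦X⟧)) = 1 := by
    rw [← Matrix.map_mul, hJB, Matrix.map_one _ (map_zero _) (map_one _)]
  refine Fermat.Agent.S17.D.Contraction.exists_unique_zero_powerSeries G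
    (J.map (C : K →+* K⟦X⟧)) (B.map (C : K →+* K⟦X⟧)) e1 e2 h0 ?_
  intro k x y hx hy hxy j
  rw [mulVec_map_C_apply]
  simpa only [Pi.sub_apply] using hG k x y hx hy hxy j

/-- `exists_unique_zero_const` with the estimate in ideal form (no exponent):
`G x - G y - J (x - y) ∈ (X) * (x i - y i)_i`. -/
theorem exists_unique_zero_const_of_mem
    (G : (ι → K⟦X⟧) → (κ → K⟦X⟧)) (J : Matrix κ ι K) (B : Matrix ι κ K)
    (hBJ : B * J = 1) (hJB : J * B = 1) (h0 : ∀ j, (X : K⟦X⟧) ∣ G 0 j)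
    (hG : ∀ (x y : ι → K⟦X⟧), (∀ i, (X : K⟦X⟧) ∣ x i) → (∀ i, (X : K⟦X⟧) ∣ y i) →
      ∀ j, G x j - G y j - ∑ i, C (J j i) * (x i - y i)
        ∈ Ideal.span {(X : K⟦X⟧)} * Ideal.span (Set.range fun i => x i - y i)) :
    ∃! x : ι → K⟦X⟧, (∀ i, (X : K⟦X⟧) ∣ x i) ∧ G x = 0 :=
  exists_unique_zero_const G J B hBJ hJB h0 fun _ x y hx hy hxy j =>
    X_pow_succ_dvd_of_mem hxy (hG x y hx hy j)

end Const

section Field

variable {K : Type*} [Field K] {ι κ : Type*} [Fintype ι] [Fintype κ] [DecidableEq ι]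
  [DecidableEq κ]

/-- Over a field, a matrix with as many rows as columns and trivial kernel has a two-sided
inverse. -/
theorem exists_inverse_of_injective (J : Matrix κ ι K)
    (hcard : Fintype.card ι = Fintype.card κ)
    (hinj : ∀ v : ι → K, J.mulVec v = 0 → v = 0) :
    ∃ B : Matrix ι κ K, B * J = 1 ∧ J * B = 1 := by
  have hf : Function.Injective (Matrix.toLin' J) := by
    rw [← LinearMap.ker_eq_bot, LinearMap.ker_eq_bot']
    intro v hv
    exact hinj v (by rwa [Matrix.toLin'_apply] at hv)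
  have hfr : Module.finrank K (ι → K) = Module.finrank K (κ → K) := by
    rw [Module.finrank_fintype_fun_eq_card, Module.finrank_fintype_fun_eq_card, hcard]
  let e : (ι → K) ≃ₗ[K] (κ → K) := LinearEquiv.ofInjectiveOfFinrankEq (Matrix.toLin' J) hf hfr
  have he : (e : (ι → K) →ₗ[K] (κ → K)) = Matrix.toLin' J :=
    LinearEquiv.coe_ofInjectiveOfFinrankEq _ hf hfr
  refine ⟨LinearMap.toMatrix' (e.symm : (κ → K) →ₗ[K] (ι → K)), ?_, ?_⟩
  · apply Matrix.toLin'.injective
    rw [Matrix.toLin'_mul, Matrix.toLin'_toMatrix', Matrix.toLin'_one, ← he]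
    exact LinearMap.ext fun v => by simp
  · apply Matrix.toLin'.injective
    rw [Matrix.toLin'_mul, Matrix.toLin'_toMatrix', Matrix.toLin'_one, ← he]
    exact LinearMap.ext fun v => by simp

/-- The `X`-adic Hensel step from `NONDEG` alone: the constant Jacobian `J` has as many rows as
columns and trivial kernel. Estimate in `X ^ k`-form. -/
theorem exists_unique_zero_of_injective'
    (G : (ι → K⟦X⟧) → (κ → K⟦X⟧)) (J : Matrix κ ι K)
    (hcard : Fintype.card ι = Fintype.card κ)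
    (hinj : ∀ v : ι → K, J.mulVec v = 0 → v = 0) (h0 : ∀ j, (X : K⟦X⟧) ∣ G 0 j)
    (hG : ∀ (k : ℕ) (x y : ι → K⟦X⟧), (∀ i, (X : K⟦X⟧) ∣ x i) → (∀ i, (X : K⟦X⟧) ∣ y i) →
      (∀ i, (X : K⟦X⟧) ^ k ∣ x i - y i) →
      ∀ j, (X : K⟦X⟧) ^ (k + 1) ∣ G x j - G y j - ∑ i, C (J j i) * (x i - y i)) :
    ∃! x : ι → K⟦X⟧, (∀ i, (X : K⟦X⟧) ∣ x i) ∧ G x = 0 := by
  obtain ⟨B, hBJ, hJB⟩ := exists_inverse_of_injective J hcard hinj
  exact exists_unique_zero_const G J B hBJ hJB h0 hG

/-- The `X`-adic Hensel step from `NONDEG` alone, estimate in ideal form: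
`G x - G y - J (x - y) ∈ (X) * (x i - y i)_i`. -/
theorem exists_unique_zero_of_injective
    (G : (ι → K⟦X⟧) → (κ → K⟦X⟧)) (J : Matrix κ ι K)
    (hcard : Fintype.card ι = Fintype.card κ)
    (hinj : ∀ v : ι → K, J.mulVec v = 0 → v = 0) (h0 : ∀ j, (X : K⟦X⟧) ∣ G 0 j)
    (hG : ∀ (x y : ι → K⟦X⟧), (∀ i, (X : K⟦X⟧) ∣ x i) → (∀ i, (X : K⟦X⟧) ∣ y i) →
      ∀ j, G x j - G y j - ∑ i, C (J j i) * (x i - y i)
        ∈ Ideal.span {(X : K⟦X⟧)} * Ideal.span (Set.range fun i => x i - y i)) :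
    ∃! x : ι → K⟦X⟧, (∀ i, (X : K⟦X⟧) ∣ x i) ∧ G x = 0 := by
  obtain ⟨B, hBJ, hJB⟩ := exists_inverse_of_injective J hcard hinj
  exact exists_unique_zero_const_of_mem G J B hBJ hJB h0 hG

end Field

end Fermat.Agent.S17.D.ContractionConst
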