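import Mathlib

/-!
# Program MW (statement S17), strand D: Hasse derivatives of power series and jets

* `hasse i φ` is the `i`-th Hasse derivative `∑ (m+i choose i) a_{m+i} X^m` of a power series
  over any commutative ring, with its Leibniz rule `hasse_mul` (Vandermonde on coefficients);
* `IsJet n Θ` says that the `K`-linear maps `Θ i`, `i < n`, form a jet of order `n`
  (a higher derivation of length `n`): `a ↦ ∑ Θ i a T^i` is a ring hom to `R[T]/(T^n)`;
* `isJet_hasse_subst` is the moving jet `φ ↦ (hasse i φ)(u)` at a point `u` with zero constant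
  coefficient.

Mathlib only.
-/

set_option autoImplicit false

namespace Fermat.Agent.S17.D

section Hasse

variable {K : Type*} [CommRing K]

/-- The `i`-th Hasse derivative of a power series: `∑ (m+i choose i) a_{m+i} X^m`. -/
noncomputable def hasse (i : ℕ) (φ : PowerSeries K) : PowerSeries K :=
  PowerSeries.mk fun m => ((m + i).choose i : K) * PowerSeries.coeff (m + i) φ

theorem coeff_hasse (i m : ℕ) (φ : PowerSeries K) :
    PowerSeries.coeff m (hasse i φ) = ((m + i).choose i : K) * PowerSeries.coeff (m + i) φ := by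
  rw [hasse, PowerSeries.coeff_mk]

theorem hasse_zero (φ : PowerSeries K) : hasse 0 φ = φ := by
  ext m
  rw [coeff_hasse]
  simp

theorem hasse_add (i : ℕ) (φ ψ : PowerSeries K) : hasse i (φ + ψ) = hasse i φ + hasse i ψ := by
  ext m
  rw [map_add, coeff_hasse, coeff_hasse, coeff_hasse, map_add, mul_add]

theorem hasse_smul (i : ℕ) (a : K) (φ : PowerSeries K) : hasse i (a • φ) = a • hasse i φ := by
  ext m
  rw [PowerSeries.coeff_smul, coeff_hasse, coeff_hasse, PowerSeries.coeff_smul, smul_eq_mul,
    smul_eq_mul]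
  ring

/-- Leibniz rule. -/
theorem hasse_mul (n : ℕ) (φ ψ : PowerSeries K) :
    hasse n (φ * ψ) = ∑ i ∈ Finset.range (n + 1), hasse i φ * hasse (n - i) ψ := by
  classical
  ext m
  let G : ℕ → ℕ → K := fun i k =>
    ((k.choose i : ℕ) : K) * (((m + n - k).choose (n - i) : ℕ) : K) *
      (PowerSeries.coeff k φ * PowerSeries.coeff (m + n - k) ψ)
  have hL : PowerSeries.coeff m (hasse n (φ * ψ)) =
      ∑ k ∈ Finset.range (m + n + 1), ∑ i ∈ Finset.range (n + 1), G i k := by
    rw [coeff_hasse, PowerSeries.coeff_mul, Finset.Nat.sum_antidiagonal_eq_sum_range_succ_mk,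
      Finset.mul_sum]
    refine Finset.sum_congr rfl fun k hk => ?_
    have hk' : k ≤ m + n := Nat.lt_succ_iff.mp (Finset.mem_range.mp hk)
    have h1 : (m + n).choose n =
        ∑ i ∈ Finset.range (n + 1), k.choose i * (m + n - k).choose (n - i) := by
      have h2 := Nat.add_choose_eq k (m + n - k) n
      rw [Nat.add_sub_cancel' hk'] at h2
      rw [h2, Finset.Nat.sum_antidiagonal_eq_sum_range_succ
        (fun i j => k.choose i * (m + n - k).choose j)]
    have hV : (((m + n).choose n : ℕ) : K) =
        ∑ i ∈ Finset.range (n + 1),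
          ((k.choose i : ℕ) : K) * (((m + n - k).choose (n - i) : ℕ) : K) := by
      rw [h1]
      push_cast
      rfl
    show (((m + n).choose n : ℕ) : K) * (PowerSeries.coeff k φ * PowerSeries.coeff (m + n - k) ψ)
      = ∑ i ∈ Finset.range (n + 1), G i k
    rw [hV, Finset.sum_mul]
  have hR : PowerSeries.coeff m (∑ i ∈ Finset.range (n + 1), hasse i φ * hasse (n - i) ψ) =
      ∑ i ∈ Finset.range (n + 1), ∑ k ∈ Finset.range (m + n + 1), G i k := by
    rw [map_sum]
    refine Finset.sum_congr rfl fun i hi => ?_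
    have hi' : i ≤ n := Nat.lt_succ_iff.mp (Finset.mem_range.mp hi)
    rw [PowerSeries.coeff_mul, Finset.Nat.sum_antidiagonal_eq_sum_range_succ_mk]
    have h1 : ∀ p ∈ Finset.range (m + 1),
        PowerSeries.coeff p (hasse i φ) * PowerSeries.coeff (m - p) (hasse (n - i) ψ)
          = G i (p + i) := by
      intro p hp
      have hp' : p ≤ m := Nat.lt_succ_iff.mp (Finset.mem_range.mp hp)
      rw [coeff_hasse, coeff_hasse]
      have e1 : m - p + (n - i) = m + n - (p + i) := by omega
      simp only [G, e1]
      ring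
    rw [show (∑ k ∈ Finset.range m.succ,
          PowerSeries.coeff (k, m - k).1 (hasse i φ) *
            PowerSeries.coeff (k, m - k).2 (hasse (n - i) ψ))
        = ∑ p ∈ Finset.range (m + 1), G i (p + i) from Finset.sum_congr rfl h1]
    rw [← Finset.sum_image (s := Finset.range (m + 1)) (g := fun p => p + i) (f := G i)
      (fun x _ y _ h => Nat.add_right_cancel h)]
    refine Finset.sum_subset ?_ ?_
    · intro k hk
      obtain ⟨p, hp, rfl⟩ := Finset.mem_image.mp hk
      have hp' : p ≤ m := Nat.lt_succ_iff.mp (Finset.mem_range.mp hp)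
      exact Finset.mem_range.mpr (by omega)
    · intro k hk hknot
      have hk' : k ≤ m + n := Nat.lt_succ_iff.mp (Finset.mem_range.mp hk)
      have hcases : k < i ∨ m + i < k := by
        by_contra hcon
        exact hknot (Finset.mem_image.mpr
          ⟨k - i, Finset.mem_range.mpr (by omega), by show k - i + i = k; omega⟩)
      rcases hcases with h | h
      · simp only [G]
        rw [Nat.choose_eq_zero_of_lt h]
        simp
      · simp only [G]
        rw [Nat.choose_eq_zero_of_lt (show m + n - k < n - i by omega)]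
        simp
  rw [hL, hR, Finset.sum_comm]

theorem hasse_one_X : hasse 1 (PowerSeries.X : PowerSeries K) = 1 := by
  ext m
  rw [coeff_hasse, PowerSeries.coeff_X, PowerSeries.coeff_one]
  rcases m with _ | m
  · simp
  · simp

theorem hasse_X_of_two_le {i : ℕ} (hi : 2 ≤ i) : hasse i (PowerSeries.X : PowerSeries K) = 0 := by
  ext m
  rw [coeff_hasse, PowerSeries.coeff_X, if_neg (by omega), mul_zero, map_zero]

theorem hasse_C_of_pos {i : ℕ} (hi : 0 < i) (a : K) : hasse i (PowerSeries.C a) = 0 := by
  ext m
  rw [coeff_hasse, PowerSeries.coeff_C, if_neg (by omega), mul_zero, map_zero]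

theorem constantCoeff_hasse (i : ℕ) (φ : PowerSeries K) :
    PowerSeries.constantCoeff (hasse i φ) = PowerSeries.coeff i φ := by
  rw [← PowerSeries.coeff_zero_eq_constantCoeff_apply, coeff_hasse]
  simp

/-- `d/dX hasse_i = (i+1) hasse_{i+1}`. -/
theorem hasse_one_hasse (i : ℕ) (φ : PowerSeries K) :
    hasse 1 (hasse i φ) = ((i + 1 : ℕ) : K) • hasse (i + 1) φ := by
  ext m
  rw [coeff_hasse, coeff_hasse, PowerSeries.coeff_smul, coeff_hasse, smul_eq_mul]
  have e : m + 1 + i = m + (i + 1) := by ring
  rw [e]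
  have hN : (m + 1).choose 1 * (m + (i + 1)).choose i
      = (i + 1) * (m + (i + 1)).choose (i + 1) := by
    rw [Nat.choose_one_right]
    have h := Nat.choose_succ_right_eq (m + (i + 1)) i
    have e2 : m + (i + 1) - i = m + 1 := by omega
    rw [e2] at h
    rw [mul_comm, ← h, mul_comm]
  have hK : (((m + 1).choose 1 : ℕ) : K) * (((m + (i + 1)).choose i : ℕ) : K)
      = ((i + 1 : ℕ) : K) * (((m + (i + 1)).choose (i + 1) : ℕ) : K) := by
    rw [← Nat.cast_mul, ← Nat.cast_mul, hN]
  rw [← mul_assoc, hK, mul_assoc]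

end Hasse

/-- A jet of order `n` on a `K`-algebra `A` with values in `R`: `K`-linear maps `Θ i`, `i < n`,
satisfying the Leibniz rule (so `a ↦ ∑ Θ i a T^i` is a ring hom `A → R[T]/(T^n)`). -/
structure IsJet {K A R : Type*} [CommRing K] [CommRing A] [Algebra K A] [CommRing R] [Algebra K R]
    (n : ℕ) (Θ : ℕ → A →ₗ[K] R) : Prop where
  map_one : Θ 0 1 = 1
  leibniz : ∀ m < n, ∀ a b : A, Θ m (a * b) = ∑ i ∈ Finset.range (m + 1), Θ i a * Θ (m - i) b

/-- The moving jet: `φ ↦ (hasse i φ)(u)`, for `u` with zero constant coefficient. -/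
theorem isJet_hasse_subst {K : Type*} [Field K] (u : PowerSeries K)
    (hu : PowerSeries.constantCoeff u = 0) (n : ℕ) :
    ∃ Θ : ℕ → PowerSeries K →ₗ[K] PowerSeries K,
      (∀ i φ, Θ i φ = (hasse i φ).subst u) ∧ IsJet n Θ := by
  have hs : PowerSeries.HasSubst u := PowerSeries.HasSubst.of_constantCoeff_zero' hu
  let hasseL : ℕ → PowerSeries K →ₗ[K] PowerSeries K := fun i =>
    { toFun := hasse i
      map_add' := hasse_add i
      map_smul' := fun a φ => hasse_smul i a φ }
  refine ⟨fun i => (PowerSeries.substAlgHom hs).toLinearMap.comp (hasseL i), ?_, ?_, ?_⟩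
  · intro i φ
    show PowerSeries.substAlgHom hs (hasse i φ) = (hasse i φ).subst u
    rw [PowerSeries.coe_substAlgHom]
  · show PowerSeries.substAlgHom hs (hasse 0 1) = 1
    rw [hasse_zero, map_one]
  · intro m _ a b
    show PowerSeries.substAlgHom hs (hasse m (a * b)) =
      ∑ i ∈ Finset.range (m + 1),
        PowerSeries.substAlgHom hs (hasse i a) * PowerSeries.substAlgHom hs (hasse (m - i) b)
    rw [hasse_mul, map_sum]
    refine Finset.sum_congr rfl fun i _ => ?_
    rw [map_mul]

end Fermat.Agent.S17.D
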