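import Mathlib
import Fermat.Agent.S17.D.Hasse

/-!
# Program MW (statement S17), strand D, leaf D2b: the formal division system (definitions)

Unknowns `x : Fin m ⊕ Fin g → K⟦X⟧`: the coefficients `c_1, …, c_m` (`Sum.inl`) and the moving
local coordinates `u_1, …, u_g` (`Sum.inr`); `c_0 = 1`.
Equations, indexed by `Unit ⊕ Fin g × Fin n`:

* `Sum.inl _`      : `∑ j, c j * γ j = 0`                                   (vanishing at the generic point);
* `Sum.inr (k, i)` : `∑ j, c j * (hasse i (β k j)).subst (u k) = 0`          (order `≥ n` at the `k`-th moving point).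

`J` is the Jacobian of the system at the base point `c = (1, 0, …, 0)`, `u = 0`, modulo `X`.
Mathlib + `D/Hasse` only.
-/

set_option autoImplicit false

namespace Fermat.Agent.S17.D.Formal

open PowerSeries

variable {K : Type*} [Field K]

/-- The coefficient vector `(1, x (inl 0), …, x (inl (m-1)))`. -/
noncomputable def cvec {g m : ℕ} (x : Fin m ⊕ Fin g → PowerSeries K) :
    Fin (m + 1) → PowerSeries K :=
  Fin.cons 1 (fun j => x (Sum.inl j))

@[simp]
theorem cvec_zero {g m : ℕ} (x : Fin m ⊕ Fin g → PowerSeries K) : cvec x 0 = 1 := rfl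

@[simp]
theorem cvec_succ {g m : ℕ} (x : Fin m ⊕ Fin g → PowerSeries K) (j : Fin m) :
    cvec x j.succ = x (Sum.inl j) := by
  simp [cvec]

/-- The formal division system. -/
noncomputable def G (n : ℕ) {g m : ℕ} (β : Fin g → Fin (m + 1) → PowerSeries K)
    (γ : Fin (m + 1) → PowerSeries K) (x : Fin m ⊕ Fin g → PowerSeries K) :
    Unit ⊕ Fin g × Fin n → PowerSeries K :=
  fun e => match e with
  | Sum.inl _ => ∑ j, cvec x j * γ j
  | Sum.inr (k, i) => ∑ j, cvec x j * (hasse (i : ℕ) (β k j)).subst (x (Sum.inr k))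

theorem G_inl (n : ℕ) {g m : ℕ} (β : Fin g → Fin (m + 1) → PowerSeries K)
    (γ : Fin (m + 1) → PowerSeries K) (x : Fin m ⊕ Fin g → PowerSeries K) (e : Unit) :
    G n β γ x (Sum.inl e) = ∑ j, cvec x j * γ j := rfl

theorem G_inr (n : ℕ) {g m : ℕ} (β : Fin g → Fin (m + 1) → PowerSeries K)
    (γ : Fin (m + 1) → PowerSeries K) (x : Fin m ⊕ Fin g → PowerSeries K) (k : Fin g)
    (i : Fin n) :
    G n β γ x (Sum.inr (k, i)) =
      ∑ j, cvec x j * (hasse (i : ℕ) (β k j)).subst (x (Sum.inr k)) := rfl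

/-- The Jacobian of the system at the base point, modulo `X`. -/
noncomputable def J (n : ℕ) {g m : ℕ} (β : Fin g → Fin (m + 1) → PowerSeries K)
    (γ : Fin (m + 1) → PowerSeries K) : Matrix (Unit ⊕ Fin g × Fin n) (Fin m ⊕ Fin g) K :=
  Matrix.of fun e v => match e, v with
  | Sum.inl _, Sum.inl j => constantCoeff (γ j.succ)
  | Sum.inl _, Sum.inr _ => 0
  | Sum.inr (k, i), Sum.inl j => coeff (i : ℕ) (β k j.succ)
  | Sum.inr (k, i), Sum.inr k' =>
      if k' = k then (((i : ℕ) + 1 : ℕ) : K) * coeff ((i : ℕ) + 1) (β k 0) else 0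

theorem J_inl_inl (n : ℕ) {g m : ℕ} (β : Fin g → Fin (m + 1) → PowerSeries K)
    (γ : Fin (m + 1) → PowerSeries K) (e : Unit) (j : Fin m) :
    J n β γ (Sum.inl e) (Sum.inl j) = constantCoeff (γ j.succ) := rfl

theorem J_inl_inr (n : ℕ) {g m : ℕ} (β : Fin g → Fin (m + 1) → PowerSeries K)
    (γ : Fin (m + 1) → PowerSeries K) (e : Unit) (k' : Fin g) :
    J n β γ (Sum.inl e) (Sum.inr k') = 0 := rfl

theorem J_inr_inl (n : ℕ) {g m : ℕ} (β : Fin g → Fin (m + 1) → PowerSeries K)
    (γ : Fin (m + 1) → PowerSeries K) (k : Fin g) (i : Fin n) (j : Fin m) :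
    J n β γ (Sum.inr (k, i)) (Sum.inl j) = coeff (i : ℕ) (β k j.succ) := rfl

theorem J_inr_inr (n : ℕ) {g m : ℕ} (β : Fin g → Fin (m + 1) → PowerSeries K)
    (γ : Fin (m + 1) → PowerSeries K) (k : Fin g) (i : Fin n) (k' : Fin g) :
    J n β γ (Sum.inr (k, i)) (Sum.inr k') =
      if k' = k then (((i : ℕ) + 1 : ℕ) : K) * coeff ((i : ℕ) + 1) (β k 0) else 0 := rfl

end Fermat.Agent.S17.D.Formal
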