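import Mathlib
import Fermat.Agent.S17.D.FormalDefs
import Fermat.Agent.S17.D.ContractionConst

/-!
# Program MW (statement S17), strand D, leaf D2b: the formal division system (solution)

* `card_eq` : the system of `D/FormalDefs` is square (`m = (n - 1) g + 1`, `n ≥ 1`);
* `J_injective` : its Jacobian at the base point is injective, from the non-degeneracy
  hypothesis NONDEG (`V ∩ L(E₀) = K`), `coeff n (β k 0) ≠ 0` and `(n : K) ≠ 0`;
* `exists_formal_solution_of_estimates` : the formal solution, from the two estimates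
  (`X ∣ G 0 j` and the first-order estimate for `G`) as hypotheses, through the `X`-adic
  contraction principle `ContractionConst.exists_unique_zero_of_injective'`.
-/

set_option autoImplicit false

namespace Fermat.Agent.S17.D.Formal

open PowerSeries

variable {K : Type*} [Field K]

/-- The system is square. -/
theorem card_eq (n g m : ℕ) (hn : 0 < n) (hm : m = (n - 1) * g + 1) :
    Fintype.card (Fin m ⊕ Fin g) = Fintype.card (Unit ⊕ Fin g × Fin n) := by
  simp only [Fintype.card_sum, Fintype.card_fin, Fintype.card_unit, Fintype.card_prod]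
  obtain ⟨n', rfl⟩ : ∃ n', n = n' + 1 := ⟨n - 1, by omega⟩
  subst hm
  simp only [Nat.add_sub_cancel]
  ring

/-- The Jacobian at the base point is injective. -/
theorem J_injective (n g m : ℕ) (hn : 0 < n) (hnK : (n : K) ≠ 0)
    (β : Fin g → Fin (m + 1) → PowerSeries K) (γ : Fin (m + 1) → PowerSeries K)
    (hβ0 : ∀ k, ∀ i < n, coeff i (β k 0) = 0)
    (hβn : ∀ k, coeff n (β k 0) ≠ 0)
    (hnd : ∀ x : Fin (m + 1) → K, x 0 = 0 →
      (∀ k, ∀ i, i + 1 < n → coeff i (∑ j, x j • β k j) = 0) →
      constantCoeff (∑ j, x j • γ j) = 0 → x = 0)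
    (v : Fin m ⊕ Fin g → K) (hv : (J n β γ).mulVec v = 0) : v = 0 := by
  classical
  have hrow0 : ∑ j : Fin m, constantCoeff (γ j.succ) * v (Sum.inl j) = 0 := by
    have h := congrFun hv (Sum.inl ())
    simp only [Matrix.mulVec, dotProduct, Fintype.sum_sum_type, J_inl_inl, J_inl_inr, zero_mul,
      Finset.sum_const_zero, add_zero, Pi.zero_apply] at h
    exact h
  have hrow : ∀ (k : Fin g) (i : Fin n),
      ∑ j : Fin m, coeff (i : ℕ) (β k j.succ) * v (Sum.inl j)
        + (((i : ℕ) + 1 : ℕ) : K) * coeff ((i : ℕ) + 1) (β k 0) * v (Sum.inr k) = 0 := by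
    intro k i
    have h := congrFun hv (Sum.inr (k, i))
    simp only [Matrix.mulVec, dotProduct, Fintype.sum_sum_type, J_inr_inl, J_inr_inr,
      Pi.zero_apply] at h
    rw [← h]
    congr 1
    rw [Finset.sum_eq_single k]
    · rw [if_pos rfl]
    · intro k' _ hk'
      rw [if_neg hk', zero_mul]
    · intro hk
      exact absurd (Finset.mem_univ k) hk
  set x : Fin (m + 1) → K := Fin.cons 0 (fun j => v (Sum.inl j)) with hx
  have hx0 : x 0 = 0 := rfl
  have hxs : ∀ j : Fin m, x j.succ = v (Sum.inl j) := fun j => by simp [hx]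
  have h1 : ∀ k, ∀ i, i + 1 < n → coeff i (∑ j, x j • β k j) = 0 := by
    intro k i hi
    rw [map_sum, Fin.sum_univ_succ, hx0, zero_smul, map_zero, zero_add]
    have h := hrow k ⟨i, by omega⟩
    simp only at h
    rw [hβ0 k (i + 1) hi, mul_zero, zero_mul, add_zero] at h
    rw [← h]
    refine Finset.sum_congr rfl fun j _ => ?_
    rw [hxs, coeff_smul, smul_eq_mul, mul_comm]
  have h2 : constantCoeff (∑ j, x j • γ j) = 0 := by
    rw [map_sum, Fin.sum_univ_succ, hx0, zero_smul, map_zero, zero_add, ← hrow0]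
    refine Finset.sum_congr rfl fun j _ => ?_
    rw [hxs, ← coeff_zero_eq_constantCoeff_apply, ← coeff_zero_eq_constantCoeff_apply, coeff_smul,
      smul_eq_mul, mul_comm]
  have hxz := hnd x hx0 h1 h2
  have hinl : ∀ j, v (Sum.inl j) = 0 := fun j => by
    rw [← hxs, hxz]
    rfl
  have hinr : ∀ k, v (Sum.inr k) = 0 := by
    intro k
    have h := hrow k ⟨n - 1, by omega⟩
    simp only [hinl, mul_zero, Finset.sum_const_zero, zero_add] at h
    have e : n - 1 + 1 = n := by omega
    rw [e] at h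
    rcases mul_eq_zero.mp h with h | h
    · rcases mul_eq_zero.mp h with h | h
      · exact absurd h hnK
      · exact absurd h (hβn k)
    · exact h
  funext a
  rcases a with j | k
  · exact hinl j
  · exact hinr k

/-- **The formal solution**, from the two estimates for `G` as hypotheses. -/
theorem exists_formal_solution_of_estimates (n g m : ℕ) (hn : 0 < n)
    (hnK : (n : K) ≠ 0) (hm : m = (n - 1) * g + 1)
    (β : Fin g → Fin (m + 1) → PowerSeries K) (γ : Fin (m + 1) → PowerSeries K)
    (hβ0 : ∀ k, ∀ i < n, coeff i (β k 0) = 0)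
    (hβn : ∀ k, coeff n (β k 0) ≠ 0)
    (hnd : ∀ x : Fin (m + 1) → K, x 0 = 0 →
      (∀ k, ∀ i, i + 1 < n → coeff i (∑ j, x j • β k j) = 0) →
      constantCoeff (∑ j, x j • γ j) = 0 → x = 0)
    (h0 : ∀ j, (X : PowerSeries K) ∣ G n β γ 0 j)
    (hG : ∀ (k : ℕ) (x y : Fin m ⊕ Fin g → PowerSeries K), (∀ i, (X : PowerSeries K) ∣ x i) →
      (∀ i, (X : PowerSeries K) ∣ y i) → (∀ i, (X : PowerSeries K) ^ k ∣ x i - y i) →
      ∀ j, (X : PowerSeries K) ^ (k + 1) ∣
        G n β γ x j - G n β γ y j - ∑ i, C (J n β γ j i) * (x i - y i)) :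
    ∃ (c : Fin (m + 1) → PowerSeries K) (u : Fin g → PowerSeries K),
      c 0 = 1 ∧ (∀ k, constantCoeff (u k) = 0) ∧
      ∑ j, c j * γ j = 0 ∧
      ∀ k, ∀ i < n, ∑ j, c j * (hasse i (β k j)).subst (u k) = 0 := by
  classical
  obtain ⟨x, ⟨hxX, hx⟩, -⟩ := ContractionConst.exists_unique_zero_of_injective' (G n β γ)
    (J n β γ) (card_eq n g m hn hm) (J_injective n g m hn hnK β γ hβ0 hβn hnd) h0 hG
  refine ⟨cvec x, fun k => x (Sum.inr k), cvec_zero x, fun k => X_dvd_iff.mp (hxX _), ?_, ?_⟩
  · have h := congrFun hx (Sum.inl ())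
    rwa [G_inl] at h
  · intro k i hi
    have h := congrFun hx (Sum.inr (k, ⟨i, hi⟩))
    rwa [G_inr] at h

end Fermat.Agent.S17.D.Formal
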