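import Mathlib

/-!
# Program MW, strand D: first-order estimates for substitution of power series

`f, u, u' : K⟦X⟧` with `X ∣ u`, `X ∣ u'` (so `f.subst u`, `f.subst u'` make sense).

* `dvd_subst_sub_subst`     : `X ^ k ∣ u - u' → X ^ k ∣ f.subst u - f.subst u'`;
* `dvd_subst_sub_subst_sub` : `X ^ k ∣ u - u' →
    X ^ (k + 1) ∣ f.subst u - f.subst u' - C (coeff 1 f) * (u - u')`;
* `dvd_subst_sub_C`         : `X ∣ f.subst u - C (constantCoeff f)`.

These are the three facts needed to feed the substitution terms of the formal division system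
(leaf D2b) into the contraction principle (leaf D2a).  Level-free: Mathlib only.
-/

set_option autoImplicit false

namespace Fermat.Agent.S17.D.SubstEst

open PowerSeries

variable {K : Type*} [CommRing K]

theorem hasSubst_of_X_dvd {u : PowerSeries K} (hu : (X : PowerSeries K) ∣ u) : HasSubst u :=
  HasSubst.of_constantCoeff_zero' (X_dvd_iff.mp hu)

/-- `X ^ k ∣ u - u'` implies `X ^ k ∣ u ^ d - u' ^ d`. -/
theorem dvd_pow_sub_pow {u u' : PowerSeries K} (k d : ℕ)
    (h : (X : PowerSeries K) ^ k ∣ u - u') : (X : PowerSeries K) ^ k ∣ u ^ d - u' ^ d :=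
  dvd_trans h (sub_dvd_pow_sub_pow u u' d)

/-- For `d ≥ 2`, `X ∣ u`, `X ∣ u'`: `X ^ k ∣ u - u'` implies `X ^ (k + 1) ∣ u ^ d - u' ^ d`. -/
theorem dvd_pow_sub_pow_succ {u u' : PowerSeries K} (hu : (X : PowerSeries K) ∣ u)
    (hu' : (X : PowerSeries K) ∣ u') (k d : ℕ) (hd : 2 ≤ d)
    (h : (X : PowerSeries K) ^ k ∣ u - u') : (X : PowerSeries K) ^ (k + 1) ∣ u ^ d - u' ^ d := by
  have e : u ^ d - u' ^ d = (u - u') * ∑ i ∈ Finset.range d, u ^ i * u' ^ (d - 1 - i) := by
    rw [← geom_sum₂_mul u u' d, mul_comm]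
  rw [e, pow_succ]
  refine mul_dvd_mul h ?_
  refine Finset.dvd_sum fun i hi => ?_
  rw [Finset.mem_range] at hi
  by_cases hi0 : i = 0
  · have h1 : d - 1 - i ≠ 0 := by omega
    exact Dvd.dvd.mul_left (dvd_trans hu' (dvd_pow_self u' h1)) _
  · exact Dvd.dvd.mul_right (dvd_trans hu (dvd_pow_self u hi0)) _

/-- **(S1)** substitution preserves congruences modulo `X ^ k`. -/
theorem dvd_subst_sub_subst (f : PowerSeries K) {u u' : PowerSeries K}
    (hu : (X : PowerSeries K) ∣ u) (hu' : (X : PowerSeries K) ∣ u') (k : ℕ)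
    (h : (X : PowerSeries K) ^ k ∣ u - u') :
    (X : PowerSeries K) ^ k ∣ f.subst u - f.subst u' := by
  rw [X_pow_dvd_iff]
  intro e he
  rw [map_sub, coeff_subst' (hasSubst_of_X_dvd hu), coeff_subst' (hasSubst_of_X_dvd hu'),
    sub_eq_zero]
  refine finsum_congr fun d => ?_
  have h1 := X_pow_dvd_iff.mp (dvd_pow_sub_pow k d h) e he
  rw [map_sub, sub_eq_zero] at h1
  rw [h1]

/-- The same with one more power of `X` when the linear coefficient of `f` vanishes. -/
theorem dvd_subst_sub_subst_of_coeff_one_eq_zero (f : PowerSeries K) (hf : coeff 1 f = 0)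
    {u u' : PowerSeries K} (hu : (X : PowerSeries K) ∣ u) (hu' : (X : PowerSeries K) ∣ u')
    (k : ℕ) (h : (X : PowerSeries K) ^ k ∣ u - u') :
    (X : PowerSeries K) ^ (k + 1) ∣ f.subst u - f.subst u' := by
  rw [X_pow_dvd_iff]
  intro e he
  rw [map_sub, coeff_subst' (hasSubst_of_X_dvd hu), coeff_subst' (hasSubst_of_X_dvd hu'),
    sub_eq_zero]
  refine finsum_congr fun d => ?_
  rcases Nat.lt_or_ge d 2 with hd | hd
  · interval_cases d
    · simp
    · rw [hf, zero_smul, zero_smul]
  · have h1 := X_pow_dvd_iff.mp (dvd_pow_sub_pow_succ hu hu' k d hd h) e he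
    rw [map_sub, sub_eq_zero] at h1
    rw [h1]

/-- **(S2)** first-order Taylor estimate for substitution. -/
theorem dvd_subst_sub_subst_sub (f : PowerSeries K) {u u' : PowerSeries K}
    (hu : (X : PowerSeries K) ∣ u) (hu' : (X : PowerSeries K) ∣ u') (k : ℕ)
    (h : (X : PowerSeries K) ^ k ∣ u - u') :
    (X : PowerSeries K) ^ (k + 1) ∣ f.subst u - f.subst u' - C (coeff 1 f) * (u - u') := by
  set a : K := coeff 1 f with ha
  set f₂ : PowerSeries K := f - a • X with hf₂
  have hf : f = f₂ + a • X := by rw [hf₂]; ring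
  have h1 : coeff 1 f₂ = 0 := by
    rw [hf₂, map_sub, coeff_smul, coeff_one_X, smul_eq_mul, mul_one, ha, sub_self]
  have e : ∀ w : PowerSeries K, (X : PowerSeries K) ∣ w → f.subst w = f₂.subst w + C a * w := by
    intro w hw
    have hs := hasSubst_of_X_dvd hw
    conv_lhs => rw [hf]
    rw [subst_add hs, subst_smul hs, subst_X hs, smul_eq_C_mul]
  have e2 : f.subst u - f.subst u' - C a * (u - u') = f₂.subst u - f₂.subst u' := by
    rw [e u hu, e u' hu']
    ring
  rw [e2]
  exact dvd_subst_sub_subst_of_coeff_one_eq_zero f₂ h1 hu hu' k h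

/-- **(S3)** `f (u) ≡ f (0)` modulo `X`. -/
theorem dvd_subst_sub_C (f : PowerSeries K) {u : PowerSeries K}
    (hu : (X : PowerSeries K) ∣ u) : (X : PowerSeries K) ∣ f.subst u - C (constantCoeff f) := by
  rw [X_dvd_iff, map_sub, constantCoeff_C, sub_eq_zero, ← coeff_zero_eq_constantCoeff_apply,
    coeff_subst' (hasSubst_of_X_dvd hu)]
  rw [finsum_eq_single _ 0]
  · simp
  · intro d hd
    have h1 : coeff 0 (u ^ d) = 0 := by
      have h2 : (X : PowerSeries K) ∣ u ^ d := dvd_trans hu (dvd_pow_self u hd)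
      rw [coeff_zero_eq_constantCoeff_apply]
      exact X_dvd_iff.mp h2
    rw [h1, smul_zero]

/-- `X ∣ f.subst u` when `f` has zero constant coefficient. -/
theorem dvd_subst_of_constantCoeff_eq_zero (f : PowerSeries K) (hf : constantCoeff f = 0)
    {u : PowerSeries K} (hu : (X : PowerSeries K) ∣ u) : (X : PowerSeries K) ∣ f.subst u := by
  have h := dvd_subst_sub_C f hu
  rwa [hf, map_zero, sub_zero] at h

end Fermat.Agent.S17.D.SubstEst
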