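import Mathlib
import Fermat.Agent.S17.D.Hasse
import Fermat.Agent.S17.D.FormalDefs
import Fermat.Agent.S17.D.SubstEst

/-!
# Program MW (statement S17), strand D, leaf D2b: the Newton estimate for the formal system

For the system `G n β γ` of `Fermat.Agent.S17.D.Formal` (unknowns `c_1, …, c_m`, `u_1, …, u_g`
without constant term; equations `∑ c_j γ_j = 0` and `∑ c_j (hasse i (β k j))(u_k) = 0`) and its
constant Jacobian `J n β γ`:

* `G_zero_dvd`: `X ∣ G 0 j` for all `j`, when `γ 0` has no constant term and `β k 0` vanishes to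
  order `n`;
* `G_estimate`: `X ^ (k + 1) ∣ G x j - G y j - ∑ i, C (J j i) * (x i - y i)` whenever
  `X ∣ x i`, `X ∣ y i` and `X ^ k ∣ x i - y i` for all `i` (no hypothesis on `β`, `γ`).

These are the hypotheses `h0` and `hG` of
`Fermat.Agent.S17.D.ContractionConst.exists_unique_zero_of_injective'`.
-/

set_option autoImplicit false

namespace Fermat.Agent.S17.D.Formal

open PowerSeries

variable {K : Type*} [Field K]

/-- `X ∣ φ - C φ(0)`. -/
theorem X_dvd_sub_C_constantCoeff (φ : K⟦X⟧) : (X : K⟦X⟧) ∣ φ - C (constantCoeff φ) := by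
  rw [PowerSeries.X_dvd_iff, map_sub, PowerSeries.constantCoeff_C, sub_self]

/-- `X ^ k ∣ a` and `X ∣ b` give `X ^ (k + 1) ∣ a * b`. -/
theorem X_pow_succ_dvd_mul {a b : K⟦X⟧} {k : ℕ} (ha : (X : K⟦X⟧) ^ k ∣ a) (hb : (X : K⟦X⟧) ∣ b) :
    (X : K⟦X⟧) ^ (k + 1) ∣ a * b := by
  rw [pow_succ]
  exact mul_dvd_mul ha hb

/-- `X ∣ a` and `X ^ k ∣ b` give `X ^ (k + 1) ∣ a * b`. -/
theorem X_pow_succ_dvd_mul' {a b : K⟦X⟧} {k : ℕ} (ha : (X : K⟦X⟧) ∣ a) (hb : (X : K⟦X⟧) ^ k ∣ b) :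
    (X : K⟦X⟧) ^ (k + 1) ∣ a * b := by
  rw [mul_comm]
  exact X_pow_succ_dvd_mul hb ha

/-- The linear row: `(x - y) * (φ - C φ(0))`. -/
theorem linear_term_estimate (φ a b : K⟦X⟧) (k : ℕ) (hab : (X : K⟦X⟧) ^ k ∣ a - b) :
    (X : K⟦X⟧) ^ (k + 1) ∣ a * φ - b * φ - C (constantCoeff φ) * (a - b) := by
  have h : a * φ - b * φ - C (constantCoeff φ) * (a - b) = (a - b) * (φ - C (constantCoeff φ)) := by
    ring
  rw [h]
  exact X_pow_succ_dvd_mul hab (X_dvd_sub_C_constantCoeff φ)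

/-- The mixed term `c_j φ(u)`, `j ≥ 1`: first-order estimate in `(c_j, u)` at a point with
`X ∣ c_j`; only the `c_j`-derivative `φ(0)` survives. -/
theorem mixed_term_estimate (φ a b u u' : K⟦X⟧) (k : ℕ) (hb : (X : K⟦X⟧) ∣ b)
    (hu : (X : K⟦X⟧) ∣ u) (hu' : (X : K⟦X⟧) ∣ u') (hab : (X : K⟦X⟧) ^ k ∣ a - b)
    (huu : (X : K⟦X⟧) ^ k ∣ u - u') :
    (X : K⟦X⟧) ^ (k + 1) ∣ a * φ.subst u - b * φ.subst u' - C (constantCoeff φ) * (a - b) := by
  have h : a * φ.subst u - b * φ.subst u' - C (constantCoeff φ) * (a - b)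
      = (a - b) * (φ.subst u - C (constantCoeff φ)) + b * (φ.subst u - φ.subst u') := by
    ring
  rw [h]
  exact dvd_add (X_pow_succ_dvd_mul hab (SubstEst.dvd_subst_sub_C φ hu))
    (X_pow_succ_dvd_mul' hb (SubstEst.dvd_subst_sub_subst φ hu hu' k huu))

variable (n : ℕ) {g m : ℕ} (β : Fin g → Fin (m + 1) → K⟦X⟧) (γ : Fin (m + 1) → K⟦X⟧)

theorem G_inl_eq (x : Fin m ⊕ Fin g → K⟦X⟧) (a : Unit) :
    G n β γ x (Sum.inl a) = γ 0 + ∑ j : Fin m, x (Sum.inl j) * γ j.succ := by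
  rw [G_inl, Fin.sum_univ_succ, cvec_zero, one_mul]
  simp only [cvec_succ]

theorem G_inr_eq (x : Fin m ⊕ Fin g → K⟦X⟧) (k : Fin g) (i : Fin n) :
    G n β γ x (Sum.inr (k, i)) = (hasse (i : ℕ) (β k 0)).subst (x (Sum.inr k))
      + ∑ j : Fin m, x (Sum.inl j) * (hasse (i : ℕ) (β k j.succ)).subst (x (Sum.inr k)) := by
  rw [G_inr, Fin.sum_univ_succ, cvec_zero, one_mul]
  simp only [cvec_succ]

theorem sum_J_inl (z : Fin m ⊕ Fin g → K⟦X⟧) (a : Unit) :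
    ∑ i, C (J n β γ (Sum.inl a) i) * z i
      = ∑ j : Fin m, C (constantCoeff (γ j.succ)) * z (Sum.inl j) := by
  rw [Fintype.sum_sum_type]
  have h2 : ∑ k' : Fin g, C (J n β γ (Sum.inl a) (Sum.inr k')) * z (Sum.inr k') = 0 := by
    refine Finset.sum_eq_zero fun k' _ => ?_
    rw [J_inl_inr, map_zero, zero_mul]
  rw [h2, add_zero]
  simp only [J_inl_inl]

theorem sum_J_inr (z : Fin m ⊕ Fin g → K⟦X⟧) (k : Fin g) (i : Fin n) :
    ∑ i', C (J n β γ (Sum.inr (k, i)) i') * z i'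
      = C ((((i : ℕ) + 1 : ℕ) : K) * coeff ((i : ℕ) + 1) (β k 0)) * z (Sum.inr k)
        + ∑ j : Fin m, C (coeff (i : ℕ) (β k j.succ)) * z (Sum.inl j) := by
  rw [Fintype.sum_sum_type]
  have h2 : ∑ k' : Fin g, C (J n β γ (Sum.inr (k, i)) (Sum.inr k')) * z (Sum.inr k')
      = C ((((i : ℕ) + 1 : ℕ) : K) * coeff ((i : ℕ) + 1) (β k 0)) * z (Sum.inr k) := by
    rw [Finset.sum_eq_single k]
    · rw [J_inr_inr, if_pos rfl]
    · intro k' _ hk'
      rw [J_inr_inr, if_neg hk', map_zero, zero_mul]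
    · intro h
      exact absurd (Finset.mem_univ k) h
  rw [h2, add_comm]
  simp only [J_inr_inl]

theorem coeff_one_hasse (i : ℕ) (φ : K⟦X⟧) :
    coeff 1 (hasse i φ) = ((i + 1 : ℕ) : K) * coeff (i + 1) φ := by
  rw [coeff_hasse, add_comm 1 i, Nat.choose_succ_self_right]

/-- `X ∣ G 0 j`. -/
theorem G_zero_dvd (hβ0 : ∀ k, ∀ i < n, coeff i (β k 0) = 0) (hγ0 : constantCoeff (γ 0) = 0) :
    ∀ j, (X : K⟦X⟧) ∣ G n β γ 0 j := by
  rintro (a | ⟨k, i⟩)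
  · rw [G_inl_eq]
    refine dvd_add (PowerSeries.X_dvd_iff.mpr hγ0) (Finset.dvd_sum fun j _ => ?_)
    rw [Pi.zero_apply, zero_mul]
    exact dvd_zero _
  · rw [G_inr_eq]
    refine dvd_add ?_ (Finset.dvd_sum fun j _ => ?_)
    · refine SubstEst.dvd_subst_of_constantCoeff_eq_zero _ ?_ (dvd_zero _)
      rw [constantCoeff_hasse]
      exact hβ0 k i i.isLt
    · rw [Pi.zero_apply, zero_mul]
      exact dvd_zero _

/-- The first-order estimate for `G` with the constant Jacobian `J`. -/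
theorem G_estimate : ∀ (k : ℕ) (x y : Fin m ⊕ Fin g → K⟦X⟧), (∀ i, (X : K⟦X⟧) ∣ x i) →
    (∀ i, (X : K⟦X⟧) ∣ y i) → (∀ i, (X : K⟦X⟧) ^ k ∣ x i - y i) →
    ∀ j, (X : K⟦X⟧) ^ (k + 1) ∣
      G n β γ x j - G n β γ y j - ∑ i, C (J n β γ j i) * (x i - y i) := by
  intro k x y hx hy hxy
  rintro (a | ⟨k₀, i⟩)
  · rw [G_inl_eq, G_inl_eq, sum_J_inl n β γ (fun i => x i - y i) a]
    have h : γ 0 + ∑ j : Fin m, x (Sum.inl j) * γ j.succ
        - (γ 0 + ∑ j : Fin m, y (Sum.inl j) * γ j.succ)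
        - ∑ j : Fin m, C (constantCoeff (γ j.succ)) * (x (Sum.inl j) - y (Sum.inl j))
        = ∑ j : Fin m, (x (Sum.inl j) * γ j.succ - y (Sum.inl j) * γ j.succ
            - C (constantCoeff (γ j.succ)) * (x (Sum.inl j) - y (Sum.inl j))) := by
      rw [Finset.sum_sub_distrib, Finset.sum_sub_distrib]
      ring
    rw [h]
    exact Finset.dvd_sum fun j _ => linear_term_estimate _ _ _ k (hxy (Sum.inl j))
  · rw [G_inr_eq, G_inr_eq, sum_J_inr n β γ (fun i => x i - y i) k₀ i]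
    have h : (hasse (i : ℕ) (β k₀ 0)).subst (x (Sum.inr k₀))
          + ∑ j : Fin m, x (Sum.inl j) * (hasse (i : ℕ) (β k₀ j.succ)).subst (x (Sum.inr k₀))
        - ((hasse (i : ℕ) (β k₀ 0)).subst (y (Sum.inr k₀))
          + ∑ j : Fin m, y (Sum.inl j) * (hasse (i : ℕ) (β k₀ j.succ)).subst (y (Sum.inr k₀)))
        - (C ((((i : ℕ) + 1 : ℕ) : K) * coeff ((i : ℕ) + 1) (β k₀ 0))
            * (x (Sum.inr k₀) - y (Sum.inr k₀))
          + ∑ j : Fin m, C (coeff (i : ℕ) (β k₀ j.succ)) * (x (Sum.inl j) - y (Sum.inl j)))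
        = ((hasse (i : ℕ) (β k₀ 0)).subst (x (Sum.inr k₀))
            - (hasse (i : ℕ) (β k₀ 0)).subst (y (Sum.inr k₀))
            - C (coeff 1 (hasse (i : ℕ) (β k₀ 0))) * (x (Sum.inr k₀) - y (Sum.inr k₀)))
          + ∑ j : Fin m, (x (Sum.inl j) * (hasse (i : ℕ) (β k₀ j.succ)).subst (x (Sum.inr k₀))
            - y (Sum.inl j) * (hasse (i : ℕ) (β k₀ j.succ)).subst (y (Sum.inr k₀))
            - C (constantCoeff (hasse (i : ℕ) (β k₀ j.succ)))
              * (x (Sum.inl j) - y (Sum.inl j))) := by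
      rw [Finset.sum_sub_distrib, Finset.sum_sub_distrib, coeff_one_hasse]
      simp only [constantCoeff_hasse]
      ring
    rw [h]
    refine dvd_add ?_ (Finset.dvd_sum fun j _ => ?_)
    · exact SubstEst.dvd_subst_sub_subst_sub _ (hx (Sum.inr k₀)) (hy (Sum.inr k₀)) k
        (hxy (Sum.inr k₀))
    · exact mixed_term_estimate _ _ _ _ _ k (hy (Sum.inl j)) (hx (Sum.inr k₀)) (hy (Sum.inr k₀))
        (hxy (Sum.inl j)) (hxy (Sum.inr k₀))

end Fermat.Agent.S17.D.Formal
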