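import Mathlib
import Fermat.Agent.S17.D.Formal
import Fermat.Agent.S17.D.FormalEst

/-!
# Program MW (statement S17), strand D, leaf D2 : the formal solution of the division system

`exists_formal_solution` : for power series `β k j` (expansions of a basis `r_j` of the space `V`
at the `k`-th base point) and `γ j` (expansions at the generic point), under the non-degeneracy
hypothesis `hnd` (`V ∩ L(E₀) = K`), there are `c_j ∈ K⟦X⟧` with `c_0 = 1` and moving local
coordinates `u_k ∈ X K⟦X⟧` such that `Ψ = ∑ c_j r_j` vanishes at the generic point and to order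
`≥ n` at each moving point.

This is the closing file of leaf D2 : `Formal.exists_formal_solution_of_estimates`
(contraction principle, `D/Formal`) fed with the two estimates of `D/FormalEst`.
-/

set_option autoImplicit false

namespace Fermat.Agent.S17.D

/-- **D2, the formal solution (the Hensel step).** -/
theorem exists_formal_solution {K : Type*} [Field K] (n g m : ℕ) (hn : 0 < n)
    (hnK : (n : K) ≠ 0) (hm : m = (n - 1) * g + 1)
    (β : Fin g → Fin (m + 1) → PowerSeries K) (γ : Fin (m + 1) → PowerSeries K)
    (hβ0 : ∀ k, ∀ i < n, PowerSeries.coeff i (β k 0) = 0)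
    (hβn : ∀ k, PowerSeries.coeff n (β k 0) ≠ 0)
    (hγ0 : PowerSeries.constantCoeff (γ 0) = 0)
    (hnd : ∀ x : Fin (m + 1) → K, x 0 = 0 →
      (∀ k, ∀ i, i + 1 < n → PowerSeries.coeff i (∑ j, x j • β k j) = 0) →
      PowerSeries.constantCoeff (∑ j, x j • γ j) = 0 → x = 0) :
    ∃ (c : Fin (m + 1) → PowerSeries K) (u : Fin g → PowerSeries K),
      c 0 = 1 ∧ (∀ k, PowerSeries.constantCoeff (u k) = 0) ∧
      ∑ j, c j * γ j = 0 ∧
      ∀ k, ∀ i < n, ∑ j, c j * (hasse i (β k j)).subst (u k) = 0 :=
  Formal.exists_formal_solution_of_estimates n g m hn hnK hm β γ hβ0 hβn hnd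
    (Formal.G_zero_dvd n β γ hβ0 hγ0) (Formal.G_estimate n β γ)

end Fermat.Agent.S17.D
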