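import Mathlib
import Fermat.Agent.S24.FF.Dedekind

/-!
# S17 strand D, leaf ModelAux (M5 - M8)

Auxiliary facts on an abstract Dedekind model `R` of a function field `F / K`
(`IsFractionRing R F`, `K`-algebra): powers of a height-one prime versus the order at its
place (M5), elements with prescribed exact orders at finitely many primes (M6), an element
separating finitely many `K`-points (M7), and "regular at every prime of the model" implies
"in the model" (M8).  Mathlib + `S24/FF/Dedekind` (`ord_ofHeightOneSpectrum`) only.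
-/

set_option autoImplicit false
set_option linter.unusedSectionVars false
set_option linter.unusedVariables false

open AlgebraicCurve IsDedekindDomain

namespace Fermat.Agent.S17.D.Model

variable {K F : Type*} [Field K] [Field F] [Algebra K F]
variable [IsAlgClosed K] [CharZero K] [Algebra.EssFiniteType K F]

section Abstract

variable {R : Type*} [CommRing R] [IsDedekindDomain R] [Algebra R F] [IsFractionRing R F]
  [Algebra K R] [IsScalarTower K R F]

/-- The order of a non-zero element of the model at the place of a height-one prime, through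
the integral adic valuation. -/
theorem ord_algebraMap_eq_neg_log (w : HeightOneSpectrum R) {b : R} (hb : b ≠ 0) :
    (Place.ofHeightOneSpectrum (K := K) (F := F) w).ord (algebraMap R F b) =
      -WithZero.log (w.intValuation b) := by
  have hb' : algebraMap R F b ≠ 0 := by
    simpa using (IsFractionRing.injective R F).ne hb
  rw [Fermat.Agent.S24.FF.ord_ofHeightOneSpectrum (K := K) w hb',
    HeightOneSpectrum.valuation_of_algebraMap]

/-- (M5) powers of a height-one prime and the order at its place. -/
theorem mem_pow_iff_le_ord (w : HeightOneSpectrum R) (n : ℕ) (b : R) :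
    b ∈ w.asIdeal ^ n ↔ b = 0 ∨
      (n : ℤ) ≤ (Place.ofHeightOneSpectrum (K := K) (F := F) w).ord (algebraMap R F b) := by
  rcases eq_or_ne b 0 with rfl | hb
  · simp
  have h0 : w.intValuation b ≠ 0 := w.intValuation_ne_zero b hb
  rw [← HeightOneSpectrum.intValuation_le_pow_iff_mem,
    ord_algebraMap_eq_neg_log (K := K) (F := F) w hb, ← WithZero.log_le_iff_le_exp h0]
  constructor
  · intro h
    right
    omega
  · rintro (h | h)
    · exact absurd h hb
    · omega

/-- (M6) elements of the model with prescribed exact orders at finitely many primes. -/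
theorem exists_ord_eq (E : Finset (HeightOneSpectrum R)) (a : HeightOneSpectrum R → ℕ) :
    ∃ b : R, b ≠ 0 ∧ ∀ w ∈ E,
      (Place.ofHeightOneSpectrum (K := K) (F := F) w).ord (algebraMap R F b) = a w := by
  classical
  rcases E.eq_empty_or_nonempty with rfl | hE
  · exact ⟨1, one_ne_zero, by simp⟩
  choose ϖ hϖ using fun w : HeightOneSpectrum R => w.intValuation_exists_uniformizer
  obtain ⟨b, hb⟩ := IsDedekindDomain.exists_forall_sub_mem_ideal (s := E)
    (fun w : HeightOneSpectrum R => w.asIdeal) (fun w => a w + 1)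
    (fun w _ => w.prime) (fun w _ w' _ hne h => hne (HeightOneSpectrum.ext h))
    (fun w => ϖ w.1 ^ a w.1)
  have key : ∀ w ∈ E, w.intValuation b = WithZero.exp (-(a w : ℤ)) := by
    intro w hw
    have h1 : w.intValuation (b - ϖ w ^ a w) ≤ WithZero.exp (-((a w + 1 : ℕ) : ℤ)) :=
      (w.intValuation_le_pow_iff_mem _ _).mpr (hb w hw)
    have h2 : w.intValuation (ϖ w ^ a w) = WithZero.exp (-(a w : ℤ)) := by
      rw [map_pow, hϖ w, ← WithZero.exp_nsmul]
      simp
    have h3 : w.intValuation (b - ϖ w ^ a w) < w.intValuation (ϖ w ^ a w) := by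
      rw [h2]
      refine lt_of_le_of_lt h1 ?_
      rw [WithZero.exp_lt_exp]
      push_cast
      omega
    have h4 : b = (b - ϖ w ^ a w) + ϖ w ^ a w := by ring
    rw [h4, Valuation.map_add_eq_of_lt_right _ h3, h2]
  obtain ⟨w₀, hw₀⟩ := hE
  have hb0 : b ≠ 0 := by
    rintro rfl
    have h := key w₀ hw₀
    rw [map_zero] at h
    exact WithZero.exp_ne_zero h.symm
  refine ⟨b, hb0, fun w hw => ?_⟩
  rw [ord_algebraMap_eq_neg_log (K := K) (F := F) w hb0, key w hw, WithZero.log_exp]
  simp

/-- (M7) an element of the model separating finitely many `K`-points. -/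
theorem exists_separating (htr : Algebra.trdeg K F = 1) (E : Finset (HeightOneSpectrum R)) :
    ∃ z : R, ∀ χ χ' : R →ₐ[K] K, ∀ w ∈ E, ∀ w' ∈ E, w ≠ w' →
      (∀ b, χ b = 0 ↔ b ∈ w.asIdeal) → (∀ b, χ' b = 0 ↔ b ∈ w'.asIdeal) → χ z ≠ χ' z := by
  classical
  -- pairwise distinct constants attached to the primes of `E`
  let c : HeightOneSpectrum R → K := fun w =>
    if hw : w ∈ E then (((E.equivFin ⟨w, hw⟩ : Fin E.card) : ℕ) : K) else 0
  have hc : ∀ w ∈ E, ∀ w' ∈ E, c w = c w' → w = w' := by
    intro w hw w' hw' h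
    simp only [c, dif_pos hw, dif_pos hw'] at h
    have h1 : ((E.equivFin ⟨w, hw⟩ : Fin E.card) : ℕ) = ((E.equivFin ⟨w', hw'⟩ : Fin E.card) : ℕ) :=
      Nat.cast_injective h
    have h2 := E.equivFin.injective (Fin.ext h1)
    exact congrArg Subtype.val h2
  obtain ⟨z, hz⟩ := IsDedekindDomain.exists_forall_sub_mem_ideal (s := E)
    (fun w : HeightOneSpectrum R => w.asIdeal) (fun _ => 1)
    (fun w _ => w.prime) (fun w _ w' _ hne h => hne (HeightOneSpectrum.ext h))
    (fun w => algebraMap K R (c w.1))
  have hval : ∀ (χ : R →ₐ[K] K) (w : HeightOneSpectrum R), w ∈ E →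
      (∀ b, χ b = 0 ↔ b ∈ w.asIdeal) → χ z = c w := by
    intro χ w hw hχ
    have h1 := hz w hw
    rw [pow_one] at h1
    have h2 := (hχ _).mpr h1
    rw [map_sub, AlgHom.commutes, sub_eq_zero] at h2
    simpa using h2
  refine ⟨z, fun χ χ' w hw w' hw' hne hχ hχ' h => hne ?_⟩
  rw [hval χ w hw hχ, hval χ' w' hw' hχ'] at h
  exact hc w hw w' hw' h

/-- (M8) a function regular at every place of the model lies in the model. -/
theorem exists_eq_algebraMap_of_ord_nonneg (f : F)
    (hf : ∀ w : HeightOneSpectrum R,
      0 ≤ (Place.ofHeightOneSpectrum (K := K) (F := F) w).ord f) :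
    ∃ b : R, algebraMap R F b = f := by
  rcases eq_or_ne f 0 with rfl | hf0
  · exact ⟨0, map_zero _⟩
  have h : ∀ w : HeightOneSpectrum R, w.valuation F f ≤ 1 := by
    intro w
    have h1 := hf w
    rw [Fermat.Agent.S24.FF.ord_ofHeightOneSpectrum (K := K) w hf0] at h1
    have h0 : w.valuation F f ≠ 0 := (Valuation.ne_zero_iff _).mpr hf0
    have h2 : WithZero.log (w.valuation F f) ≤ 0 := by omega
    rw [WithZero.log_le_iff_le_exp h0, WithZero.exp_zero] at h2
    exact h2
  obtain ⟨b, hb⟩ := HeightOneSpectrum.mem_integers_of_valuation_le_one F f h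
  exact ⟨b, hb⟩

end Abstract

end Fermat.Agent.S17.D.Model
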