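import Mathlib
import Fermat.Prelude.Def_AlgebraicCurve_Repartitions
import Fermat.Prelude.Def_AlgebraicCurve_IsCurveOver
import Fermat.Agent.S17.D.Hasse

/-!
# Program MW (statement S17), strand D: the setup structure

`Setup R n Q₀ E₀` packages everything that strand D produces before the specialisation step, for a
model `R` (a Dedekind domain with fraction field `F` whose places are the places `≠ Q₀`), the base
point `Q₀` and the non-special divisor `E₀`: the primes `w k` of the points of `E₀`, a linearly
independent family `v j` in `L(n E₀ + Q₀)` with `v 0 = 1`, the multiplier `b₁` with the numerators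
`r j = b₁ * v j` in `R`, the Taylor maps `τ k` at the points of `E₀`, the Laurent expansion `τL`
at `Q₀`, and the formal solution `(c, u)`: the generic function `∑ c j • v j` vanishes at the
generic point (`generic`) and to order `n` along the moving jets (`jets`).

The bytes of the structure are those of the interface of record (D WORD #3).  The existence
theorem `nonempty_setup` is in `Setup.lean`.
-/

set_option autoImplicit false

open AlgebraicCurve IsDedekindDomain

namespace Fermat.Agent.S17.D

section Setup

variable {K F : Type*} [Field K] [Field F] [Algebra K F]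

/-- The data produced by D0, D1, D2 for the model `R`, the base point `Q₀` and the non-special
divisor `E₀`: auxiliary functions, Taylor maps and the formal solution `(c, u)`. -/
structure Setup (R : Type*) [CommRing R] [IsDedekindDomain R] [Algebra R F] [IsFractionRing R F]
    [Algebra K R] [IsScalarTower K R F] (n : ℕ) (Q₀ : Place K F) (E₀ : Finset (Place K F)) where
  g : ℕ
  m : ℕ
  w : Fin g → HeightOneSpectrum R
  w_inj : Function.Injective w
  mem_E₀ : ∀ v : Place K F, v ∈ E₀ ↔ ∃ k, Place.ofHeightOneSpectrum (K := K) (F := F) (w k) = v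
  v : Fin (m + 1) → F
  v_zero : v 0 = 1
  v_indep : LinearIndependent K v
  v_mem : ∀ j, v j ∈ riemannRochSpace ((n : ℤ) • ∑ P ∈ E₀, Finsupp.single P (1 : ℤ) +
    Finsupp.single Q₀ 1)
  b₁ : R
  b₁_ne : b₁ ≠ 0
  ord_b₁ : ∀ k, (Place.ofHeightOneSpectrum (K := K) (F := F) (w k)).ord (algebraMap R F b₁) = n
  r : Fin (m + 1) → R
  r_spec : ∀ j, algebraMap R F (r j) = algebraMap R F b₁ * v j
  π : Fin g → R
  τ : Fin g → (R →ₐ[K] PowerSeries K)
  τ_π : ∀ k, τ k (π k) = PowerSeries.X
  τ_dvd : ∀ k (b : R) (d : ℕ), b ≠ 0 → (PowerSeries.X ^ d ∣ τ k b ↔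
    (d : ℤ) ≤ (Place.ofHeightOneSpectrum (K := K) (F := F) (w k)).ord (algebraMap R F b))
  τL : F →ₐ[K] LaurentSeries K
  order_τL : ∀ f : F, f ≠ 0 → (τL f).order = Q₀.ord f
  c : Fin (m + 1) → PowerSeries K
  c_zero : c 0 = 1
  u : Fin g → PowerSeries K
  u_zero : ∀ k, PowerSeries.constantCoeff (u k) = 0
  generic : ∑ j, (HahnSeries.ofPowerSeries ℤ K (c j)) * τL (v j) = 0
  jets : ∀ k, ∀ i < n, ∑ j, c j * (hasse i (τ k (r j))).subst (u k) = 0

end Setup

end Fermat.Agent.S17.D
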