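/-
MW strand D, leaf D1 (row S17.D.1): Taylor expansion at a place.

For a place `v` of a function field `F / K` of one variable over an algebraically closed field
and a uniformiser `π`, the local ring `O_v` embeds `K`-algebraically into `K⟦X⟧`, with `π ↦ X`,
and the order of the expansion is the order at the place.

The expansion `s` of `a` is characterised by `π ^ n ∣ a - ∑_{i<n} s_i π ^ i` for all `n`;
existence is the residue / shift recursion, uniqueness is a kernel lemma for `aeval π`, and
uniqueness makes the expansion additive and multiplicative.  No completion, no topology.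
-/
import Mathlib
import Fermat.Agent.S24.FF.Residue

set_option autoImplicit false

namespace Fermat.Agent.S17.D

namespace Taylor

/-! ### The abstract expansion -/

section Abstract

variable {K O : Type*} [Field K] [CommRing O] [Algebra K O] (π : O)

/-- `s` is a `π`-adic expansion of `a`. -/
def IsExp (a : O) (s : PowerSeries K) : Prop :=
  ∀ n : ℕ, π ^ n ∣ a - Polynomial.aeval π (PowerSeries.trunc n s)

/-- Kernel lemma: a polynomial whose value at `π` is divisible by `π ^ n` is divisible by
`X ^ n`. -/
theorem X_pow_dvd_of_pow_dvd_aeval [IsDomain O] (hπ : π ≠ 0)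
    (hunit : ∀ c : K, π ∣ algebraMap K O c → c = 0) :
    ∀ (n : ℕ) (p : Polynomial K), π ^ n ∣ Polynomial.aeval π p →
      (Polynomial.X : Polynomial K) ^ n ∣ p := by
  intro n
  induction n with
  | zero => intro p _; simp
  | succ n ih =>
    intro p hp
    have hdec : Polynomial.aeval π p
        = Polynomial.aeval π p.divX * π + algebraMap K O (p.coeff 0) := by
      conv_lhs => rw [← Polynomial.divX_mul_X_add p]
      simp
    have h1 : π ∣ Polynomial.aeval π p :=
      Dvd.dvd.trans (dvd_pow_self π (Nat.succ_ne_zero n)) hp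
    have h2 : π ∣ algebraMap K O (p.coeff 0) := by
      rw [hdec] at h1
      exact (dvd_add_right (dvd_mul_left π _)).mp h1
    have h3 : p.coeff 0 = 0 := hunit _ h2
    rw [hdec, h3, map_zero, add_zero, pow_succ] at hp
    have h4 : π ^ n ∣ Polynomial.aeval π p.divX := (mul_dvd_mul_iff_right hπ).mp hp
    have h5 := ih p.divX h4
    have h6 : p = p.divX * Polynomial.X := by
      conv_lhs => rw [← Polynomial.divX_mul_X_add p, h3, map_zero, add_zero]
    rw [h6, pow_succ]
    exact mul_dvd_mul_right h5 _

/-- A polynomial and its truncation have the same value at `π` modulo `π ^ n`. -/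
theorem pow_dvd_aeval_sub_aeval_trunc (n : ℕ) (p : Polynomial K) :
    π ^ n ∣ Polynomial.aeval π p
      - Polynomial.aeval π (PowerSeries.trunc n (p : PowerSeries K)) := by
  have h : (Polynomial.X : Polynomial K) ^ n ∣ p - PowerSeries.trunc n (p : PowerSeries K) := by
    rw [Polynomial.X_pow_dvd_iff]
    intro d hd
    rw [Polynomial.coeff_sub, PowerSeries.coeff_trunc, if_pos hd, Polynomial.coeff_coe, sub_self]
  have h' := map_dvd (Polynomial.aeval π) h
  simpa using h'

theorem IsExp.unique [IsDomain O] (hπ : π ≠ 0) (hunit : ∀ c : K, π ∣ algebraMap K O c → c = 0)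
    {a : O} {s t : PowerSeries K} (hs : IsExp π a s) (ht : IsExp π a t) : s = t := by
  ext i
  have h1 := hs (i + 1)
  have h2 := ht (i + 1)
  have h3 : π ^ (i + 1) ∣ Polynomial.aeval π
      (PowerSeries.trunc (i + 1) s - PowerSeries.trunc (i + 1) t) := by
    have h := dvd_sub h2 h1
    have e : (a - Polynomial.aeval π (PowerSeries.trunc (i + 1) t))
        - (a - Polynomial.aeval π (PowerSeries.trunc (i + 1) s))
        = Polynomial.aeval π (PowerSeries.trunc (i + 1) s - PowerSeries.trunc (i + 1) t) := by
      rw [map_sub]; ring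
    rwa [e] at h
  have h4 := X_pow_dvd_of_pow_dvd_aeval π hπ hunit _ _ h3
  have h5 := Polynomial.X_pow_dvd_iff.mp h4 i (Nat.lt_succ_self i)
  rw [Polynomial.coeff_sub, PowerSeries.coeff_trunc, PowerSeries.coeff_trunc,
    if_pos (Nat.lt_succ_self i), if_pos (Nat.lt_succ_self i), sub_eq_zero] at h5
  exact h5

theorem IsExp.add {a b : O} {s t : PowerSeries K} (hs : IsExp π a s) (ht : IsExp π b t) :
    IsExp π (a + b) (s + t) := by
  intro n
  have e : a + b - Polynomial.aeval π (PowerSeries.trunc n (s + t))
      = (a - Polynomial.aeval π (PowerSeries.trunc n s))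
        + (b - Polynomial.aeval π (PowerSeries.trunc n t)) := by
    rw [map_add, map_add]; ring
  rw [e]
  exact dvd_add (hs n) (ht n)

theorem IsExp.mul {a b : O} {s t : PowerSeries K} (hs : IsExp π a s) (ht : IsExp π b t) :
    IsExp π (a * b) (s * t) := by
  intro n
  have h1 := pow_dvd_aeval_sub_aeval_trunc π n (PowerSeries.trunc n s * PowerSeries.trunc n t)
  rw [Polynomial.coe_mul, PowerSeries.trunc_trunc_mul_trunc] at h1
  have h2 : π ^ n ∣ a * b
      - Polynomial.aeval π (PowerSeries.trunc n s * PowerSeries.trunc n t) := by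
    have e : a * b - Polynomial.aeval π (PowerSeries.trunc n s * PowerSeries.trunc n t)
        = a * (b - Polynomial.aeval π (PowerSeries.trunc n t))
          + (a - Polynomial.aeval π (PowerSeries.trunc n s))
            * Polynomial.aeval π (PowerSeries.trunc n t) := by
      rw [map_mul]; ring
    rw [e]
    exact dvd_add (Dvd.dvd.mul_left (ht n) _) (Dvd.dvd.mul_right (hs n) _)
  have e : a * b - Polynomial.aeval π (PowerSeries.trunc n (s * t))
      = (a * b - Polynomial.aeval π (PowerSeries.trunc n s * PowerSeries.trunc n t))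
        + (Polynomial.aeval π (PowerSeries.trunc n s * PowerSeries.trunc n t)
          - Polynomial.aeval π (PowerSeries.trunc n (s * t))) := by
    ring
  rw [e]
  exact dvd_add h2 h1

theorem isExp_algebraMap (c : K) : IsExp π (algebraMap K O c) (PowerSeries.C c) := by
  intro n
  have h := pow_dvd_aeval_sub_aeval_trunc π n (Polynomial.C c)
  rwa [Polynomial.coe_C, Polynomial.aeval_C] at h

theorem isExp_X : IsExp π π (PowerSeries.X : PowerSeries K) := by
  intro n
  have h := pow_dvd_aeval_sub_aeval_trunc π n (Polynomial.X : Polynomial K)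
  rwa [Polynomial.coe_X, Polynomial.aeval_X] at h

theorem isExp_zero : IsExp π (0 : O) (0 : PowerSeries K) := by
  have h := isExp_algebraMap (O := O) π (0 : K)
  simpa using h

theorem isExp_one : IsExp π (1 : O) (1 : PowerSeries K) := by
  have h := isExp_algebraMap (O := O) π (1 : K)
  simpa using h

/-- Existence of the expansion: the residue / shift recursion. -/
theorem exists_isExp (hres : ∀ a : O, ∃ c : K, ∃ b : O, a = algebraMap K O c + π * b)
    (a : O) : ∃ s : PowerSeries K, IsExp π a s := by
  choose res sh hrs using hres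
  refine ⟨PowerSeries.mk fun n => res (sh^[n] a), ?_⟩
  have key : ∀ n : ℕ,
      a - Polynomial.aeval π (PowerSeries.trunc n (PowerSeries.mk fun n => res (sh^[n] a)))
        = π ^ n * sh^[n] a := by
    intro n
    induction n with
    | zero => simp
    | succ n ih =>
      rw [PowerSeries.trunc_succ, map_add, ← sub_sub, ih, PowerSeries.coeff_mk,
        Polynomial.aeval_monomial, Function.iterate_succ_apply', pow_succ]
      have h := hrs (sh^[n] a)
      linear_combination (π ^ n) * h
  intro n
  rw [key n]
  exact dvd_mul_right _ _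

/-- The expansion of `a`. -/
noncomputable def expand (hres : ∀ a : O, ∃ c : K, ∃ b : O, a = algebraMap K O c + π * b)
    (a : O) : PowerSeries K :=
  Classical.choose (exists_isExp π hres a)

theorem isExp_expand (hres : ∀ a : O, ∃ c : K, ∃ b : O, a = algebraMap K O c + π * b)
    (a : O) : IsExp π a (expand π hres a) :=
  Classical.choose_spec (exists_isExp π hres a)

/-- The expansion as a `K`-algebra homomorphism. -/
noncomputable def expandHom [IsDomain O] (hπ : π ≠ 0) (hunit : ∀ c : K, π ∣ algebraMap K O c → c = 0)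
    (hres : ∀ a : O, ∃ c : K, ∃ b : O, a = algebraMap K O c + π * b) :
    O →ₐ[K] PowerSeries K where
  toFun := expand π hres
  map_one' := (isExp_expand π hres 1).unique π hπ hunit (isExp_one π)
  map_mul' a b := (isExp_expand π hres (a * b)).unique π hπ hunit
    ((isExp_expand π hres a).mul π (isExp_expand π hres b))
  map_zero' := (isExp_expand π hres 0).unique π hπ hunit (isExp_zero π)
  map_add' a b := (isExp_expand π hres (a + b)).unique π hπ hunit
    ((isExp_expand π hres a).add π (isExp_expand π hres b))
  commutes' c := (isExp_expand π hres (algebraMap K O c)).unique π hπ hunit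
    (isExp_algebraMap π c)

theorem expandHom_apply [IsDomain O] (hπ : π ≠ 0) (hunit : ∀ c : K, π ∣ algebraMap K O c → c = 0)
    (hres : ∀ a : O, ∃ c : K, ∃ b : O, a = algebraMap K O c + π * b) (a : O) :
    expandHom π hπ hunit hres a = expand π hres a := rfl

theorem expandHom_unif [IsDomain O] (hπ : π ≠ 0) (hunit : ∀ c : K, π ∣ algebraMap K O c → c = 0)
    (hres : ∀ a : O, ∃ c : K, ∃ b : O, a = algebraMap K O c + π * b) :
    expandHom π hπ hunit hres π = PowerSeries.X :=
  (isExp_expand π hres π).unique π hπ hunit (isExp_X π)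

/-- The first `n` coefficients of the expansion vanish iff `π ^ n` divides the element. -/
theorem coeff_expandHom_eq_zero_iff [IsDomain O] (hπ : π ≠ 0)
    (hunit : ∀ c : K, π ∣ algebraMap K O c → c = 0)
    (hres : ∀ a : O, ∃ c : K, ∃ b : O, a = algebraMap K O c + π * b) (a : O) (n : ℕ) :
    (∀ i < n, PowerSeries.coeff i (expandHom π hπ hunit hres a) = 0) ↔ π ^ n ∣ a := by
  have hs := isExp_expand π hres a n
  rw [expandHom_apply]
  constructor
  · intro h
    have ht : PowerSeries.trunc n (expand π hres a) = 0 := by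
      ext i
      rw [PowerSeries.coeff_trunc]
      split_ifs with hi
      · simpa using h i hi
      · simp
    rwa [ht, map_zero, sub_zero] at hs
  · intro h i hi
    have h3 : π ^ n ∣ Polynomial.aeval π (PowerSeries.trunc n (expand π hres a)) := by
      have h' := dvd_sub h hs
      rwa [sub_sub_cancel] at h'
    have h4 := X_pow_dvd_of_pow_dvd_aeval π hπ hunit _ _ h3
    have h5 := Polynomial.X_pow_dvd_iff.mp h4 i hi
    rwa [PowerSeries.coeff_trunc, if_pos hi] at h5

/-- The constant coefficient of the expansion is the residue. -/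
theorem constantCoeff_expandHom_eq_iff [IsDomain O] (hπ : π ≠ 0)
    (hunit : ∀ c : K, π ∣ algebraMap K O c → c = 0)
    (hres : ∀ a : O, ∃ c : K, ∃ b : O, a = algebraMap K O c + π * b) (a : O) (c : K) :
    PowerSeries.constantCoeff (expandHom π hπ hunit hres a) = c ↔
      π ∣ a - algebraMap K O c := by
  have h := coeff_expandHom_eq_zero_iff π hπ hunit hres (a - algebraMap K O c) 1
  rw [pow_one] at h
  rw [← h]
  constructor
  · intro hc i hi
    have hi0 : i = 0 := by omega
    subst hi0
    rw [map_sub, AlgHom.commutes, PowerSeries.algebraMap_eq, map_sub,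
      PowerSeries.coeff_zero_eq_constantCoeff_apply, PowerSeries.coeff_zero_eq_constantCoeff_apply,
      PowerSeries.constantCoeff_C, hc, sub_self]
  · intro hc
    have h0 := hc 0 Nat.zero_lt_one
    rw [map_sub, AlgHom.commutes, PowerSeries.algebraMap_eq, map_sub,
      PowerSeries.coeff_zero_eq_constantCoeff_apply, PowerSeries.coeff_zero_eq_constantCoeff_apply,
      PowerSeries.constantCoeff_C, sub_eq_zero] at h0
    exact h0

end Abstract

/-! ### The hypotheses at a place -/

section AtPlace

open AlgebraicCurve Fermat.Agent.S24.FF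

variable {K F : Type*} [Field K] [Field F] [Algebra K F]

theorem unif_mem (v : Place K F) {π : F} (hπ : v.ord π = 1) : π ∈ v.toValuationSubring :=
  mem_of_ord_pos v (by rw [hπ]; exact one_pos)

theorem unif_ne_zero (v : Place K F) {π : F} (hπ : v.ord π = 1) : π ≠ 0 := by
  rintro rfl
  rw [Place.ord_zero] at hπ
  exact zero_ne_one hπ

theorem unif_ne_zero' (v : Place K F) {π : F} (hπ : v.ord π = 1) :
    (⟨π, unif_mem v hπ⟩ : v.toValuationSubring) ≠ 0 := fun h =>
  unif_ne_zero v hπ (congrArg Subtype.val h)

theorem ord_unif_pow (v : Place K F) {π : F} (hπ : v.ord π = 1) (n : ℕ) :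
    v.ord (π ^ n) = n := by
  have h := v.ord_zpow π (n : ℤ)
  rw [zpow_natCast, hπ, mul_one] at h
  exact h

/-- `π ^ n` divides `a` in `O_v` iff `a = 0` or `n ≤ ord a`. -/
theorem unif_pow_dvd_iff (v : Place K F) {π : F} (hπ : v.ord π = 1)
    (a : v.toValuationSubring) (n : ℕ) :
    (⟨π, unif_mem v hπ⟩ : v.toValuationSubring) ^ n ∣ a ↔
      ((a : F) = 0 ∨ (n : ℤ) ≤ v.ord (a : F)) := by
  have hπ0 := unif_ne_zero v hπ
  have hpow := ord_unif_pow v hπ n
  constructor
  · rintro ⟨b, rfl⟩
    have hcoe : (((⟨π, unif_mem v hπ⟩ : v.toValuationSubring) ^ n * b : v.toValuationSubring) : F)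
        = π ^ n * (b : F) := by
      push_cast
      rfl
    by_cases hb : (b : F) = 0
    · left
      rw [hcoe, hb, mul_zero]
    · right
      rw [hcoe, v.ord_mul (pow_ne_zero n hπ0) hb, hpow]
      have hb0 := ord_nonneg_of_mem v b.2
      omega
  · rintro (h | h)
    · have h0 : a = 0 := Subtype.ext h
      rw [h0]
      exact dvd_zero _
    · by_cases ha : (a : F) = 0
      · have h0 : a = 0 := Subtype.ext ha
        rw [h0]
        exact dvd_zero _
      · have hinv : (π ^ n)⁻¹ ≠ 0 := inv_ne_zero (pow_ne_zero n hπ0)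
        have hq0 : (a : F) * (π ^ n)⁻¹ ≠ 0 := mul_ne_zero ha hinv
        have hq : v.ord ((a : F) * (π ^ n)⁻¹) = v.ord (a : F) - n := by
          rw [v.ord_mul ha hinv, v.ord_inv, hpow]
          ring
        have hmem : (a : F) * (π ^ n)⁻¹ ∈ v.toValuationSubring :=
          (ord_nonneg_iff v hq0).mp (by rw [hq]; omega)
        refine ⟨⟨_, hmem⟩, Subtype.ext ?_⟩
        have hcoe : (((⟨π, unif_mem v hπ⟩ : v.toValuationSubring) ^ n
            * (⟨_, hmem⟩ : v.toValuationSubring) : v.toValuationSubring) : F)
            = π ^ n * ((a : F) * (π ^ n)⁻¹) := by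
          push_cast
          rfl
        rw [hcoe]
        field_simp

theorem unif_hunit (v : Place K F) {π : F} (hπ : v.ord π = 1) :
    ∀ c : K, (⟨π, unif_mem v hπ⟩ : v.toValuationSubring)
      ∣ algebraMap K v.toValuationSubring c → c = 0 := by
  intro c hc
  have h := (unif_pow_dvd_iff v hπ (algebraMap K v.toValuationSubring c) 1).mp
    (by rwa [pow_one])
  rw [v.coe_algebraMap] at h
  rcases h with h | h
  · exact (map_eq_zero (algebraMap K F)).mp h
  · rw [ord_algebraMap v c] at h
    norm_num at h

theorem unif_hres [IsAlgClosed K] (htr : Algebra.trdeg K F = 1) (v : Place K F) {π : F}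
    (hπ : v.ord π = 1) :
    ∀ a : v.toValuationSubring, ∃ c : K, ∃ b : v.toValuationSubring,
      a = algebraMap K v.toValuationSubring c
        + (⟨π, unif_mem v hπ⟩ : v.toValuationSubring) * b := by
  intro a
  obtain ⟨c, hc⟩ := exists_residue_sub_mem htr v a
  have hdvd : (⟨π, unif_mem v hπ⟩ : v.toValuationSubring)
      ∣ a - algebraMap K v.toValuationSubring c := by
    have h := unif_pow_dvd_iff v hπ (a - algebraMap K v.toValuationSubring c) 1
    rw [pow_one] at h
    rw [h]
    by_cases h0 : ((a - algebraMap K v.toValuationSubring c : v.toValuationSubring) : F) = 0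
    · exact Or.inl h0
    · right
      have h1 := (mem_maximalIdeal_iff_ord_pos v _ h0).mp hc
      have h2 : ((1 : ℕ) : ℤ) = 1 := rfl
      omega
  obtain ⟨b, hb⟩ := hdvd
  exact ⟨c, b, by rw [← hb]; ring⟩

end AtPlace

/-! ### The Taylor homomorphism at a place -/

section Exits

open AlgebraicCurve

variable {K F : Type*} [Field K] [Field F] [Algebra K F] [IsAlgClosed K]

/-- Taylor expansion at a place `v` with respect to a uniformiser `π`. -/
noncomputable def taylor (htr : Algebra.trdeg K F = 1) (v : Place K F) (π : F)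
    (hπ : v.ord π = 1) : ↥v.toValuationSubring →ₐ[K] PowerSeries K :=
  expandHom (⟨π, unif_mem v hπ⟩ : v.toValuationSubring)
    (unif_ne_zero' v hπ) (unif_hunit v hπ) (unif_hres htr v hπ)

theorem taylor_unif (htr : Algebra.trdeg K F = 1) (v : Place K F) (π : F) (hπ : v.ord π = 1)
    (hmem : π ∈ v.toValuationSubring) : taylor htr v π hπ ⟨π, hmem⟩ = PowerSeries.X :=
  expandHom_unif (⟨π, unif_mem v hπ⟩ : v.toValuationSubring)
    (unif_ne_zero' v hπ) (unif_hunit v hπ) (unif_hres htr v hπ)

/-- The order of the expansion is the order at the place. -/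
theorem coeff_taylor_eq_zero_iff (htr : Algebra.trdeg K F = 1) (v : Place K F) (π : F)
    (hπ : v.ord π = 1) (f : ↥v.toValuationSubring) (n : ℕ) :
    (∀ i < n, PowerSeries.coeff i (taylor htr v π hπ f) = 0) ↔
      ((f : F) = 0 ∨ (n : ℤ) ≤ v.ord (f : F)) :=
  (coeff_expandHom_eq_zero_iff (⟨π, unif_mem v hπ⟩ : v.toValuationSubring)
    (unif_ne_zero' v hπ) (unif_hunit v hπ) (unif_hres htr v hπ)
    f n).trans (unif_pow_dvd_iff v hπ f n)

theorem taylor_injective (htr : Algebra.trdeg K F = 1) (v : Place K F) (π : F)
    (hπ : v.ord π = 1) : Function.Injective (taylor htr v π hπ) := by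
  rw [injective_iff_map_eq_zero]
  intro a ha
  by_contra h0
  have hF : (a : F) ≠ 0 := fun h => h0 (Subtype.ext h)
  have hn := Fermat.Agent.S24.FF.ord_nonneg_of_mem v a.2
  have h := (coeff_taylor_eq_zero_iff htr v π hπ a ((v.ord (a : F)).toNat + 1)).mp
    (fun i _ => by rw [ha]; simp)
  rcases h with h | h
  · exact hF h
  · push_cast at h
    omega

/-- The constant coefficient is the value at the place. -/
theorem constantCoeff_taylor_eq_iff (htr : Algebra.trdeg K F = 1) (v : Place K F) (π : F)
    (hπ : v.ord π = 1) (f : ↥v.toValuationSubring) (c : K) :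
    PowerSeries.constantCoeff (taylor htr v π hπ f) = c ↔
      ((f : F) = algebraMap K F c ∨ 0 < v.ord ((f : F) - algebraMap K F c)) := by
  have h1 := constantCoeff_expandHom_eq_iff
    (⟨π, unif_mem v hπ⟩ : v.toValuationSubring)
    (unif_ne_zero' v hπ) (unif_hunit v hπ) (unif_hres htr v hπ) f c
  have h2 := unif_pow_dvd_iff v hπ (f - algebraMap K v.toValuationSubring c) 1
  rw [pow_one] at h2
  have hcoe : ((f - algebraMap K v.toValuationSubring c : v.toValuationSubring) : F)
      = (f : F) - algebraMap K F c := rfl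
  rw [hcoe, sub_eq_zero] at h2
  unfold taylor
  rw [h1, h2]
  have h3 : ((1 : ℕ) : ℤ) = 1 := rfl
  constructor
  · rintro (h | h)
    · exact Or.inl h
    · right; omega
  · rintro (h | h)
    · exact Or.inl h
    · right; omega

/-- Divisibility form of the order statement. -/
theorem X_pow_dvd_taylor_iff (htr : Algebra.trdeg K F = 1) (v : Place K F) (π : F)
    (hπ : v.ord π = 1) (f : ↥v.toValuationSubring) (n : ℕ) :
    PowerSeries.X ^ n ∣ taylor htr v π hπ f ↔ ((f : F) = 0 ∨ (n : ℤ) ≤ v.ord (f : F)) := by
  rw [PowerSeries.X_pow_dvd_iff]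
  exact coeff_taylor_eq_zero_iff htr v π hπ f n

end Exits

end Taylor

/-! ### The literal of record (helper111's D stub, D1) -/

section Taylor

open AlgebraicCurve

set_option linter.unusedSectionVars false

variable {K F : Type*} [Field K] [Field F] [Algebra K F]
variable [IsAlgClosed K] [CharZero K] [Algebra.EssFiniteType K F]

theorem exists_taylor (htr : Algebra.trdeg K F = 1) (v : Place K F)
    (π : v.toValuationSubring) (hπ : v.ord (π : F) = 1) :
    ∃ τ : v.toValuationSubring →ₐ[K] PowerSeries K,
      τ π = PowerSeries.X ∧ Function.Injective τ ∧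
      ∀ (f : v.toValuationSubring) (d : ℕ), (f : F) ≠ 0 →
        (PowerSeries.X ^ d ∣ τ f ↔ (d : ℤ) ≤ v.ord (f : F)) := by
  refine ⟨Taylor.taylor htr v (π : F) hπ, Taylor.taylor_unif htr v (π : F) hπ π.2,
    Taylor.taylor_injective htr v (π : F) hπ, fun f d hf => ?_⟩
  rw [Taylor.X_pow_dvd_taylor_iff htr v (π : F) hπ f d]
  exact ⟨fun h => h.resolve_left hf, fun h => Or.inr h⟩

end Taylor

end Fermat.Agent.S17.D
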