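/-
MW strand D, leaf D1b (D WORD #3 (3)): the Laurent expansion at a place.

A Taylor map `τ : O_v →ₐ[K] K⟦X⟧` at a place `v` of a function field `F / K` extends uniquely to
the fraction field: `extend v τ hτ : F →ₐ[K] K⸨X⸩`.  If `τ` turns `v.ord` into the order of
power series (fourth clause of `exists_taylor`), then `(extend v τ hτ f).order = v.ord f` for
every `f ≠ 0`.  The construction is generic in `τ`; it is specialised to the two Taylor maps on
main (`Fermat.Agent.S17.D.Taylor.taylor` and `Fermat.Agent.S17.R.taylor`).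
-/
import Mathlib
import Fermat.Agent.S17.D.Taylor
import Fermat.Agent.S17.R.Taylor

set_option autoImplicit false

noncomputable section

namespace Fermat.Agent.S17.D.TaylorL

open AlgebraicCurve

/-! ### The order of a power series inside the Laurent series -/

section Order

variable {K : Type*} [Field K]

theorem coeff_ofPowerSeries_of_neg (s : PowerSeries K) {i : ℤ} (hi : i < 0) :
    (HahnSeries.ofPowerSeries ℤ K s).coeff i = 0 := by
  rw [HahnSeries.ofPowerSeries_apply, HahnSeries.embDomain_of_notMem_range]
  rintro ⟨n, hn⟩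
  have hn' : (n : ℤ) = i := hn
  omega

theorem ofPowerSeries_ne_zero {s : PowerSeries K} (hs : s ≠ 0) :
    HahnSeries.ofPowerSeries ℤ K s ≠ 0 := fun h =>
  hs (HahnSeries.ofPowerSeries_injective (h.trans (map_zero _).symm))

/-- The order of a nonzero power series does not change in the Laurent series. -/
theorem order_ofPowerSeries (s : PowerSeries K) (hs : s ≠ 0) :
    (HahnSeries.ofPowerSeries ℤ K s).order = (s.order.toNat : ℤ) := by
  have hne := ofPowerSeries_ne_zero hs
  apply le_antisymm
  · apply HahnSeries.order_le_of_coeff_ne_zero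
    rw [HahnSeries.ofPowerSeries_apply_coeff]
    exact PowerSeries.coeff_order hs
  · by_contra hlt
    rw [not_le] at hlt
    have h1 : (HahnSeries.ofPowerSeries ℤ K s).coeff (HahnSeries.ofPowerSeries ℤ K s).order ≠ 0 :=
      fun h => hne (HahnSeries.coeff_order_eq_zero.mp h)
    by_cases hneg : (HahnSeries.ofPowerSeries ℤ K s).order < 0
    · exact h1 (coeff_ofPowerSeries_of_neg s hneg)
    · obtain ⟨m, hm⟩ := Int.eq_ofNat_of_zero_le (not_lt.mp hneg)
      rw [hm] at h1 hlt
      apply h1
      rw [HahnSeries.ofPowerSeries_apply_coeff]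
      exact PowerSeries.coeff_of_lt_order_toNat m (by exact_mod_cast hlt)

end Order

/-! ### Extension of a Taylor map to the function field -/

section Extend

variable {K F : Type*} [Field K] [Field F] [Algebra K F] (v : Place K F)
  (τ : v.toValuationSubring →ₐ[K] PowerSeries K) (hτ : Function.Injective τ)

/-- The Taylor map followed by the inclusion of power series into Laurent series. -/
def toLaurent : v.toValuationSubring →+* LaurentSeries K :=
  (HahnSeries.ofPowerSeries ℤ K).comp (τ : v.toValuationSubring →+* PowerSeries K)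

theorem toLaurent_apply (f : v.toValuationSubring) :
    toLaurent v τ f = HahnSeries.ofPowerSeries ℤ K (τ f) := rfl

include hτ in
theorem toLaurent_injective : Function.Injective (toLaurent v τ) :=
  HahnSeries.ofPowerSeries_injective.comp hτ

/-- **The Laurent expansion**: the extension of a Taylor map `τ : O_v →ₐ[K] K⟦X⟧` to the function
field. -/
def extend : F →ₐ[K] LaurentSeries K :=
  { IsFractionRing.lift (K := F) (toLaurent_injective v τ hτ) with
    commutes' := fun c => by
      have h1 : algebraMap K F c =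
          algebraMap v.toValuationSubring F (algebraMap K v.toValuationSubring c) := rfl
      show IsFractionRing.lift (K := F) (toLaurent_injective v τ hτ) (algebraMap K F c) = _
      rw [h1, IsFractionRing.lift_algebraMap, toLaurent_apply, AlgHom.commutes]
      rfl }

theorem extend_coe (f : v.toValuationSubring) :
    extend v τ hτ (f : F) = HahnSeries.ofPowerSeries ℤ K (τ f) :=
  IsFractionRing.lift_algebraMap (K := F) (toLaurent_injective v τ hτ) f

theorem extend_of_mem {f : F} (hf : f ∈ v.toValuationSubring) :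
    extend v τ hτ f = HahnSeries.ofPowerSeries ℤ K (τ ⟨f, hf⟩) :=
  extend_coe v τ hτ ⟨f, hf⟩

theorem extend_injective : Function.Injective (extend v τ hτ) :=
  (extend v τ hτ).toRingHom.injective

variable (hord : ∀ (f : v.toValuationSubring) (d : ℕ), (f : F) ≠ 0 →
    (PowerSeries.X ^ d ∣ τ f ↔ (d : ℤ) ≤ v.ord (f : F)))

include hτ hord in
/-- The order of the Taylor series of a nonzero element of the valuation ring. -/
theorem order_toNat_eq_ord (f : v.toValuationSubring) (hf : (f : F) ≠ 0) :
    ((τ f).order.toNat : ℤ) = v.ord (f : F) := by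
  have h0 : 0 ≤ v.ord (f : F) := Fermat.Agent.S24.FF.ord_nonneg_of_mem v f.2
  have hne : τ f ≠ 0 := by
    intro h
    apply hf
    have h1 : f = 0 := hτ (h.trans (map_zero τ).symm)
    rw [h1]
    rfl
  apply le_antisymm
  · exact (hord f _ hf).mp PowerSeries.X_pow_order_dvd
  · have h1 : PowerSeries.X ^ (v.ord (f : F)).toNat ∣ τ f :=
      (hord f _ hf).mpr (by rw [Int.toNat_of_nonneg h0])
    have h2 : ((v.ord (f : F)).toNat : ℕ∞) ≤ (τ f).order :=
      PowerSeries.nat_le_order _ _ (PowerSeries.X_pow_dvd_iff.mp h1)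
    have h3 : (((τ f).order.toNat : ℕ) : ℕ∞) = (τ f).order :=
      ENat.natCast_toNat (fun h => hne (PowerSeries.order_eq_top.mp h))
    rw [← h3] at h2
    have h4 : (v.ord (f : F)).toNat ≤ (τ f).order.toNat := by exact_mod_cast h2
    omega

include hord in
theorem order_extend_coe (f : v.toValuationSubring) (hf : (f : F) ≠ 0) :
    (extend v τ hτ (f : F)).order = v.ord (f : F) := by
  have hne : τ f ≠ 0 := by
    intro h
    apply hf
    have h1 : f = 0 := hτ (h.trans (map_zero τ).symm)
    rw [h1]
    rfl
  rw [extend_coe, order_ofPowerSeries _ hne, order_toNat_eq_ord v τ hτ hord f hf]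

include hord in
/-- **The order of the Laurent expansion is the order at the place.** -/
theorem order_extend {f : F} (hf : f ≠ 0) : (extend v τ hτ f).order = v.ord f := by
  rcases v.toValuationSubring.mem_or_inv_mem f with h | h
  · exact order_extend_coe v τ hτ hord ⟨f, h⟩ hf
  · have hinv : f⁻¹ ≠ 0 := inv_ne_zero hf
    have h1 : (extend v τ hτ f⁻¹).order = v.ord f⁻¹ :=
      order_extend_coe v τ hτ hord ⟨f⁻¹, h⟩ hinv
    have h2 : extend v τ hτ f⁻¹ = (extend v τ hτ f)⁻¹ := map_inv₀ _ _
    have hx : extend v τ hτ f ≠ 0 := (map_ne_zero _).mpr hf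
    have h3 := HahnSeries.order_mul hx (inv_ne_zero hx)
    rw [mul_inv_cancel₀ hx, HahnSeries.order_one] at h3
    rw [h2, v.ord_inv] at h1
    omega

end Extend

/-! ### The Laurent expansion attached to `Taylor.taylor` (file `S17/D/Taylor.lean`) -/

section AtPlace

variable {K F : Type*} [Field K] [Field F] [Algebra K F] [IsAlgClosed K]
  (htr : Algebra.trdeg K F = 1) (v : Place K F) (π : F) (hπ : v.ord π = 1)

/-- The fourth clause of `exists_taylor` for `Taylor.taylor`. -/
theorem taylor_hord (f : v.toValuationSubring) (d : ℕ) (hf : (f : F) ≠ 0) :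
    PowerSeries.X ^ d ∣ Taylor.taylor htr v π hπ f ↔ (d : ℤ) ≤ v.ord (f : F) := by
  rw [Taylor.X_pow_dvd_taylor_iff htr v π hπ f d]
  exact or_iff_right hf

/-- The Laurent expansion at the place `v` with respect to the uniformiser `π`. -/
def taylorL : F →ₐ[K] LaurentSeries K :=
  extend v (Taylor.taylor htr v π hπ) (Taylor.taylor_injective htr v π hπ)

theorem taylorL_coe (f : v.toValuationSubring) :
    taylorL htr v π hπ (f : F) = HahnSeries.ofPowerSeries ℤ K (Taylor.taylor htr v π hπ f) :=
  extend_coe v _ _ f

theorem taylorL_of_mem {f : F} (hf : f ∈ v.toValuationSubring) :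
    taylorL htr v π hπ f = HahnSeries.ofPowerSeries ℤ K (Taylor.taylor htr v π hπ ⟨f, hf⟩) :=
  extend_coe v _ _ ⟨f, hf⟩

theorem taylorL_unif : taylorL htr v π hπ π = HahnSeries.single 1 1 := by
  rw [taylorL_of_mem htr v π hπ (Taylor.unif_mem v hπ), Taylor.taylor_unif,
    HahnSeries.ofPowerSeries_X]

theorem taylorL_injective : Function.Injective (taylorL htr v π hπ) :=
  extend_injective v _ _

/-- **The order of the Laurent expansion is the order at the place.** -/
theorem order_taylorL {f : F} (hf : f ≠ 0) : (taylorL htr v π hπ f).order = v.ord f :=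
  order_extend v _ _ (taylor_hord htr v π hπ) hf

omit [IsAlgClosed K] in
include hπ in
/-- A function with at most a simple pole becomes regular after multiplication by `π`. -/
theorem unif_mul_mem {f : F} (hf : -1 ≤ v.ord f) : π * f ∈ v.toValuationSubring := by
  rcases eq_or_ne f 0 with rfl | hf0
  · rw [mul_zero]
    exact zero_mem _
  · have hπ0 := Taylor.unif_ne_zero v hπ
    rw [← Fermat.Agent.S24.FF.ord_nonneg_iff v (mul_ne_zero hπ0 hf0), v.ord_mul hπ0 hf0, hπ]
    omega

theorem single_mul_taylorL {f : F} (hmem : π * f ∈ v.toValuationSubring) :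
    HahnSeries.single 1 1 * taylorL htr v π hπ f =
      HahnSeries.ofPowerSeries ℤ K (Taylor.taylor htr v π hπ ⟨π * f, hmem⟩) := by
  rw [← taylorL_of_mem htr v π hπ hmem, map_mul, taylorL_unif]

/-- The existential form: Taylor and Laurent expansions at a place, compatible. -/
theorem exists_taylorL :
    ∃ τL : F →ₐ[K] LaurentSeries K,
      (∀ f : F, f ≠ 0 → (τL f).order = v.ord f) ∧ τL π = HahnSeries.single 1 1 ∧
      ∀ f : v.toValuationSubring,
        τL (f : F) = HahnSeries.ofPowerSeries ℤ K (Taylor.taylor htr v π hπ f) :=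
  ⟨taylorL htr v π hπ, fun _ hf => order_taylorL htr v π hπ hf, taylorL_unif htr v π hπ,
    taylorL_coe htr v π hπ⟩

end AtPlace

/-! ### The Laurent expansion attached to `R.taylor` (file `S17/R/Taylor.lean`) -/

section AtPlaceR

variable {K F : Type*} [Field K] [Field F] [Algebra K F]
variable [IsAlgClosed K] [CharZero K] [Algebra.EssFiniteType K F]
  (htr : Algebra.trdeg K F = 1) (v : Place K F) (π : F) (hπ : v.ord π = 1)

/-- The fourth clause of `exists_taylor` for `R.taylor`. -/
theorem taylorR_hord (f : v.toValuationSubring) (d : ℕ) (hf : (f : F) ≠ 0) :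
    PowerSeries.X ^ d ∣ Fermat.Agent.S17.R.taylor htr v π hπ f ↔ (d : ℤ) ≤ v.ord (f : F) := by
  rw [PowerSeries.X_pow_dvd_iff, Fermat.Agent.S17.R.coeff_taylor_eq_zero_iff htr v π hπ f d]
  exact or_iff_right hf

/-- The Laurent expansion at the place `v` extending `R.taylor`. -/
def taylorLR : F →ₐ[K] LaurentSeries K :=
  extend v (Fermat.Agent.S17.R.taylor htr v π hπ)
    (Fermat.Agent.S17.R.taylor_injective htr v π hπ)

theorem taylorLR_coe (f : v.toValuationSubring) :
    taylorLR htr v π hπ (f : F) =
      HahnSeries.ofPowerSeries ℤ K (Fermat.Agent.S17.R.taylor htr v π hπ f) :=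
  extend_coe v _ _ f

theorem taylorLR_of_mem {f : F} (hf : f ∈ v.toValuationSubring) :
    taylorLR htr v π hπ f =
      HahnSeries.ofPowerSeries ℤ K (Fermat.Agent.S17.R.taylor htr v π hπ ⟨f, hf⟩) :=
  extend_coe v _ _ ⟨f, hf⟩

theorem taylorLR_unif : taylorLR htr v π hπ π = HahnSeries.single 1 1 := by
  rw [taylorLR_of_mem htr v π hπ (Taylor.unif_mem v hπ), Fermat.Agent.S17.R.taylor_unif,
    HahnSeries.ofPowerSeries_X]

theorem taylorLR_injective : Function.Injective (taylorLR htr v π hπ) :=
  extend_injective v _ _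

theorem order_taylorLR {f : F} (hf : f ≠ 0) : (taylorLR htr v π hπ f).order = v.ord f :=
  order_extend v _ _ (taylorR_hord htr v π hπ) hf

theorem single_mul_taylorLR {f : F} (hmem : π * f ∈ v.toValuationSubring) :
    HahnSeries.single 1 1 * taylorLR htr v π hπ f =
      HahnSeries.ofPowerSeries ℤ K (Fermat.Agent.S17.R.taylor htr v π hπ ⟨π * f, hmem⟩) := by
  rw [← taylorLR_of_mem htr v π hπ hmem, map_mul, taylorLR_unif]

end AtPlaceR

end Fermat.Agent.S17.D.TaylorL
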