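import Mathlib
import Fermat.Agent.S17.D.SetupDef
import Fermat.Agent.S17.D.Model
import Fermat.Agent.S17.D.ModelAux
import Fermat.Agent.S17.D.Taylor
import Fermat.Agent.S17.D.TaylorL
import Fermat.Agent.S17.D.FormalMain

/-!
# Program MW (statement S17), strand D: the setup exists

`nonempty_setup` (leaf L1 of D WORD #3): for a model `R` (a Dedekind domain with fraction field `F`
whose places are the places `≠ Q₀`), a non-special `E₀` (`hE : l(E₀) = 1`) with
`l(n E₀ + Q₀) ≥ (n - 1) |E₀| + 2` (`hdim`), the structure `Setup R n Q₀ E₀` is inhabited.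

Construction: `w k` are the primes of the points of `E₀`; `v` extends `1` to a linearly
independent family of `(n - 1) |E₀| + 2` elements of `L(n E₀ + Q₀)`; `b₁` has order `n` at
every `w k` (M6); `r j = b₁ * v j` lies in the model (M8); `τ k` is the Taylor expansion at
`w k` with respect to a uniformiser `π k` of the model (M6); `τL` is the Laurent expansion at
`Q₀`; the formal solution `(c, u)` is `exists_formal_solution` (D2) for
`β k j = τ k (r j)`, `γ j =` the expansion of `ϖ * v j` at `Q₀`, whose non-degeneracy is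
`L(E₀) = K` together with the independence of `v`.
-/

set_option autoImplicit false

open AlgebraicCurve IsDedekindDomain

namespace Fermat.Agent.S17.D

section Aux

/-- A non-zero vector of a space of dimension `≥ m + 1` is the first vector of a linearly
independent family of `m + 1` vectors. -/
theorem exists_linearIndependent_zero_eq {K V : Type*} [Field K] [AddCommGroup V] [Module K V]
    (x : V) (hx : x ≠ 0) (m : ℕ) (hm : m + 1 ≤ Module.finrank K V) :
    ∃ v : Fin (m + 1) → V, v 0 = x ∧ LinearIndependent K v := by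
  induction m with
  | zero => exact ⟨![x], rfl, LinearIndependent.of_subsingleton (v := ![x]) 0 hx⟩
  | succ m ih =>
    obtain ⟨v, hv0, hv⟩ := ih (by omega)
    obtain ⟨y, hy⟩ := exists_linearIndependent_snoc_of_lt_finrank hv (by omega)
    refine ⟨Fin.snoc v y, ?_, hy⟩
    have h0 : (0 : Fin (m + 1 + 1)) = Fin.castSucc (0 : Fin (m + 1)) := rfl
    rw [h0, Fin.snoc_castSucc, hv0]

variable {K F : Type*} [Field K] [Field F] [Algebra K F]

/-- The coefficient of a sum of distinct places. -/
theorem sum_single_one_apply (E₀ : Finset (Place K F)) (P : Place K F) [Decidable (P ∈ E₀)] :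
    (∑ v ∈ E₀, Finsupp.single v (1 : ℤ)) P = if P ∈ E₀ then 1 else 0 := by
  classical
  rw [Finsupp.finsetSum_apply]
  simp only [Finsupp.single_apply]
  rw [Finset.sum_ite_eq' E₀ P (fun _ => (1 : ℤ))]
  congr

end Aux

section Setup

variable {K F : Type*} [Field K] [Field F] [Algebra K F]
variable [IsAlgClosed K] [CharZero K] [Algebra.EssFiniteType K F]
variable {R : Type*} [CommRing R] [IsDedekindDomain R] [Algebra R F] [IsFractionRing R F]
  [Algebra K R] [IsScalarTower K R F]

/-- (L1) the setup exists. -/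
theorem nonempty_setup (htr : Algebra.trdeg K F = 1) (n : ℕ) (hn : 0 < n)
    (Q₀ : Place K F) (E₀ : Finset (Place K F)) (hQ : Q₀ ∉ E₀)
    (hR : ∀ v : Place K F, v ≠ Q₀ ↔
        ∃ w : HeightOneSpectrum R, Place.ofHeightOneSpectrum (K := K) (F := F) w = v)
    (hE : Module.finrank K ↥(riemannRochSpace (∑ v ∈ E₀, Finsupp.single v (1 : ℤ))) = 1)
    (hdim : (n - 1) * E₀.card + 2 ≤ Module.finrank K
      ↥(riemannRochSpace ((n : ℤ) • ∑ v ∈ E₀, Finsupp.single v (1 : ℤ) + Finsupp.single Q₀ 1))) :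
    Nonempty (Setup (K := K) (F := F) R n Q₀ E₀) := by
  classical
  -- the two divisors
  have hD₀ : ∀ P : Place K F,
      (∑ v ∈ E₀, Finsupp.single v (1 : ℤ)) P = if P ∈ E₀ then 1 else 0 :=
    fun P => sum_single_one_apply E₀ P
  have hD₁ : ∀ P : Place K F,
      ((n : ℤ) • ∑ v ∈ E₀, Finsupp.single v (1 : ℤ) + Finsupp.single Q₀ 1 : Divisor K F) P
        = (if P ∈ E₀ then (n : ℤ) else 0) + (if P = Q₀ then 1 else 0) := by
    intro P
    rw [Finsupp.add_apply, Finsupp.smul_apply, hD₀ P, Finsupp.single_apply]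
    by_cases h1 : P ∈ E₀ <;> by_cases h2 : P = Q₀
    · simp [h2]
    · simp [h1, h2, Ne.symm h2]
    · simp [h2]
    · simp [h1, h2, Ne.symm h2]
  -- Step 1: the points of `E₀` and their primes
  have he_mem : ∀ k : Fin E₀.card, ((E₀.equivFin.symm k : E₀) : Place K F) ∈ E₀ :=
    fun k => (E₀.equivFin.symm k).2
  have he_inj : ∀ k k' : Fin E₀.card,
      ((E₀.equivFin.symm k : E₀) : Place K F) = (E₀.equivFin.symm k' : E₀) → k = k' :=
    fun k k' h => E₀.equivFin.symm.injective (Subtype.ext h)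
  have he_surj : ∀ v ∈ E₀, ∃ k : Fin E₀.card, ((E₀.equivFin.symm k : E₀) : Place K F) = v :=
    fun v hv => ⟨E₀.equivFin ⟨v, hv⟩, by rw [Equiv.symm_apply_apply]⟩
  have he_ne : ∀ k : Fin E₀.card, ((E₀.equivFin.symm k : E₀) : Place K F) ≠ Q₀ :=
    fun k h => hQ (h ▸ he_mem k)
  choose w hw using fun k : Fin E₀.card => (hR _).mp (he_ne k)
  have hw_inj : Function.Injective w := fun k k' h => he_inj k k' (by rw [← hw k, ← hw k', h])
  have hw_mem : ∀ v : Place K F, v ∈ E₀ ↔
      ∃ k, Place.ofHeightOneSpectrum (K := K) (F := F) (w k) = v := by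
    intro v
    constructor
    · intro hv
      obtain ⟨k, hk⟩ := he_surj v hv
      exact ⟨k, (hw k).trans hk⟩
    · rintro ⟨k, hk⟩
      rw [← hk, hw k]
      exact he_mem k
  have hw_E₀ : ∀ k, Place.ofHeightOneSpectrum (K := K) (F := F) (w k) ∈ E₀ :=
    fun k => (hw_mem _).mpr ⟨k, rfl⟩
  have hw_ne : ∀ w' : HeightOneSpectrum R,
      Place.ofHeightOneSpectrum (K := K) (F := F) w' ≠ Q₀ := fun w' => (hR _).mpr ⟨w', rfl⟩
  -- elements of the model are regular at the places of the model
  have hreg : ∀ (w' : HeightOneSpectrum R) (b : R),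
      0 ≤ (Place.ofHeightOneSpectrum (K := K) (F := F) w').ord (algebraMap R F b) := fun w' b =>
    Fermat.Agent.S24.FF.ord_nonneg_of_mem _ (Model.toValuationSubring (K := K) (F := F) w' b).2
  have hinjR : Function.Injective (algebraMap R F) := IsFractionRing.injective R F
  -- Step 2: the independent family in `L(n E₀ + Q₀)`
  have h1Λ : (1 : F) ∈ riemannRochSpace
      ((n : ℤ) • ∑ v ∈ E₀, Finsupp.single v (1 : ℤ) + Finsupp.single Q₀ 1) := by
    rw [mem_riemannRochSpace_iff]
    intro P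
    right
    rw [Place.ord_one, hD₁ P]
    have h1 : (0 : ℤ) ≤ if P ∈ E₀ then (n : ℤ) else 0 := by split_ifs <;> omega
    have h2 : (0 : ℤ) ≤ if P = Q₀ then 1 else 0 := by split_ifs <;> omega
    omega
  obtain ⟨v', hv'0, hv'ind⟩ := exists_linearIndependent_zero_eq (K := K)
    (⟨1, h1Λ⟩ : ↥(riemannRochSpace
      ((n : ℤ) • ∑ v ∈ E₀, Finsupp.single v (1 : ℤ) + Finsupp.single Q₀ 1)))
    (fun h => one_ne_zero (congrArg Subtype.val h)) ((n - 1) * E₀.card + 1) hdim
  have hv0 : (v' 0 : F) = 1 := by rw [hv'0]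
  have hvind : LinearIndependent K (fun j => (v' j : F)) :=
    hv'ind.map' (Submodule.subtype _) (Submodule.ker_subtype _)
  have hv_mem : ∀ j, (v' j : F) ∈ riemannRochSpace
      ((n : ℤ) • ∑ v ∈ E₀, Finsupp.single v (1 : ℤ) + Finsupp.single Q₀ 1) := fun j => (v' j).2
  -- Step 3: the multiplier
  obtain ⟨b₁, hb₁0, hb₁⟩ := Model.exists_ord_eq (K := K) (F := F) (Finset.univ.image w)
    (fun _ => n)
  have hb₁w : ∀ k, (Place.ofHeightOneSpectrum (K := K) (F := F) (w k)).ord (algebraMap R F b₁)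
      = n := fun k => hb₁ (w k) (Finset.mem_image_of_mem w (Finset.mem_univ k))
  have hb₁F : algebraMap R F b₁ ≠ 0 := fun h => hb₁0 (hinjR (h.trans (map_zero _).symm))
  -- Step 4: the numerators
  have hregv : ∀ j, ∀ w' : HeightOneSpectrum R,
      0 ≤ (Place.ofHeightOneSpectrum (K := K) (F := F) w').ord
        (algebraMap R F b₁ * (v' j : F)) := by
    intro j w'
    rcases eq_or_ne (v' j : F) 0 with h0 | h0
    · rw [h0, mul_zero, Place.ord_zero]
    rw [Place.ord_mul _ hb₁F h0]
    have h1 := (mem_riemannRochSpace_iff.mp (hv_mem j))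
      (Place.ofHeightOneSpectrum (K := K) (F := F) w')
    rcases h1 with h1 | h1
    · exact absurd h1 h0
    rw [hD₁, if_neg (hw_ne w'), add_zero] at h1
    by_cases hmem : Place.ofHeightOneSpectrum (K := K) (F := F) w' ∈ E₀
    · obtain ⟨k, hk⟩ := (hw_mem _).mp hmem
      have hwk : w k = w' := Fermat.Agent.S24.FF.ofHeightOneSpectrum_injective (K := K) (F := F) hk
      rw [if_pos hmem] at h1
      have h2 := hb₁w k
      rw [hwk] at h2
      omega
    · rw [if_neg hmem] at h1
      have h2 := hreg w' b₁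
      omega
  choose r hr using fun j => Model.exists_eq_algebraMap_of_ord_nonneg (K := K) (F := F) (R := R)
    (algebraMap R F b₁ * (v' j : F)) (hregv j)
  have hr0 : r 0 = b₁ := hinjR (by rw [hr 0, hv0, mul_one])
  -- Step 5: uniformisers and Taylor maps at the points of `E₀`
  choose π hπ0 hπ using fun k : Fin E₀.card =>
    Model.exists_ord_eq (K := K) (F := F) ({w k} : Finset (HeightOneSpectrum R)) (fun _ => 1)
  have hπ1 : ∀ k, (Place.ofHeightOneSpectrum (K := K) (F := F) (w k)).ord
      (algebraMap R F (π k)) = 1 := fun k => by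
    have h := hπ k (w k) (Finset.mem_singleton_self _)
    simpa using h
  let τ : Fin E₀.card → (R →ₐ[K] PowerSeries K) := fun k =>
    (Taylor.taylor htr (Place.ofHeightOneSpectrum (K := K) (F := F) (w k))
      (algebraMap R F (π k)) (hπ1 k)).comp (Model.toValuationSubring (K := K) (F := F) (w k))
  have hτπ : ∀ k, τ k (π k) = PowerSeries.X := fun k =>
    Taylor.taylor_unif htr _ _ (hπ1 k) _
  have hτdvd : ∀ k (b : R) (d : ℕ), b ≠ 0 → (PowerSeries.X ^ d ∣ τ k b ↔
      (d : ℤ) ≤ (Place.ofHeightOneSpectrum (K := K) (F := F) (w k)).ord (algebraMap R F b)) := by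
    intro k b d hb
    have hbF : algebraMap R F b ≠ 0 := fun h => hb (hinjR (h.trans (map_zero _).symm))
    have h := Taylor.X_pow_dvd_taylor_iff htr
      (Place.ofHeightOneSpectrum (K := K) (F := F) (w k)) (algebraMap R F (π k)) (hπ1 k)
      (Model.toValuationSubring (K := K) (F := F) (w k) b) d
    rw [Model.coe_toValuationSubring] at h
    exact h.trans (or_iff_right hbF)
  -- Step 6: the Laurent expansion at `Q₀`
  obtain ⟨ϖ, hϖ⟩ := IsDiscreteValuationRing.exists_irreducible Q₀.toValuationSubring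
  have hϖ1 : Q₀.ord (ϖ : F) = 1 := Q₀.ord_coe_irreducible hϖ
  have hϖ0 : (ϖ : F) ≠ 0 := Taylor.unif_ne_zero Q₀ hϖ1
  have hordQ : ∀ j, -1 ≤ Q₀.ord (v' j : F) := by
    intro j
    rcases (mem_riemannRochSpace_iff.mp (hv_mem j)) Q₀ with h0 | h1
    · rw [h0, Place.ord_zero]; omega
    · rw [hD₁, if_neg hQ, if_pos rfl] at h1
      omega
  have hmemγ : ∀ j, (ϖ : F) * (v' j : F) ∈ Q₀.toValuationSubring := fun j =>
    TaylorL.unif_mul_mem Q₀ (ϖ : F) hϖ1 (hordQ j)
  have hγL : ∀ j, HahnSeries.single 1 1 * TaylorL.taylorL htr Q₀ (ϖ : F) hϖ1 (v' j : F)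
      = HahnSeries.ofPowerSeries ℤ K
          (Taylor.taylor htr Q₀ (ϖ : F) hϖ1 ⟨(ϖ : F) * (v' j : F), hmemγ j⟩) := fun j =>
    TaylorL.single_mul_taylorL htr Q₀ (ϖ : F) hϖ1 (hmemγ j)
  -- `ofPowerSeries` is `K`-linear
  have halg : ∀ a : K, algebraMap K (LaurentSeries K) a
      = HahnSeries.ofPowerSeries ℤ K (PowerSeries.C a) := fun a => rfl
  have hofPS : ∀ (x : Fin ((n - 1) * E₀.card + 1 + 1) → K)
      (φ : Fin ((n - 1) * E₀.card + 1 + 1) → PowerSeries K),
      HahnSeries.ofPowerSeries ℤ K (∑ j, x j • φ j)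
        = ∑ j, algebraMap K (LaurentSeries K) (x j) * HahnSeries.ofPowerSeries ℤ K (φ j) := by
    intro x φ
    rw [map_sum]
    refine Finset.sum_congr rfl fun j _ => ?_
    rw [PowerSeries.smul_eq_C_mul, map_mul, halg]
  -- Step 7: the non-degeneracy of the formal system
  have hnd : ∀ x : Fin ((n - 1) * E₀.card + 1 + 1) → K, x 0 = 0 →
      (∀ k, ∀ i, i + 1 < n → PowerSeries.coeff i (∑ j, x j • τ k (r j)) = 0) →
      PowerSeries.constantCoeff (∑ j, x j •
        Taylor.taylor htr Q₀ (ϖ : F) hϖ1 ⟨(ϖ : F) * (v' j : F), hmemγ j⟩) = 0 → x = 0 := by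
    intro x hx0 hxβ hxγ
    have hfΛ : ∑ j, x j • (v' j : F) ∈ riemannRochSpace
        ((n : ℤ) • ∑ v ∈ E₀, Finsupp.single v (1 : ℤ) + Finsupp.single Q₀ 1) :=
      Submodule.sum_mem _ fun j _ => Submodule.smul_mem _ _ (hv_mem j)
    -- `y = b₁ * f` in the model
    have hy : algebraMap R F (∑ j, x j • r j)
        = algebraMap R F b₁ * ∑ j, x j • (v' j : F) := by
      rw [map_sum, Finset.mul_sum]
      refine Finset.sum_congr rfl fun j _ => ?_
      rw [Algebra.smul_def, map_mul, ← IsScalarTower.algebraMap_apply K R F, hr j,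
        Algebra.smul_def]
      ring
    -- `f ∈ L(E₀)`
    have hfD₀ : ∑ j, x j • (v' j : F) ∈
        riemannRochSpace (∑ v ∈ E₀, Finsupp.single v (1 : ℤ)) := by
      rw [mem_riemannRochSpace_iff]
      intro P
      by_cases hf0 : ∑ j, x j • (v' j : F) = 0
      · exact Or.inl hf0
      right
      rw [hD₀ P]
      have hy0 : ∑ j, x j • r j ≠ 0 := by
        intro h
        rw [h, map_zero] at hy
        exact (mul_ne_zero hb₁F hf0) hy.symm
      by_cases hPE : P ∈ E₀
      · -- a point of `E₀`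
        rw [if_pos hPE]
        obtain ⟨k, rfl⟩ := (hw_mem P).mp hPE
        have hτy : τ k (∑ j, x j • r j) = ∑ j, x j • τ k (r j) := by
          rw [map_sum]
          exact Finset.sum_congr rfl fun j _ => map_smul _ _ _
        have hdvd : PowerSeries.X ^ (n - 1) ∣ τ k (∑ j, x j • r j) := by
          rw [PowerSeries.X_pow_dvd_iff, hτy]
          intro i hi
          exact hxβ k i (by omega)
        have h1 := (hτdvd k _ (n - 1) hy0).mp hdvd
        rw [hy, Place.ord_mul _ hb₁F hf0, hb₁w k] at h1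
        omega
      · rw [if_neg hPE]
        by_cases hPQ : P = Q₀
        · -- the base point
          subst hPQ
          have hmemf : (ϖ : F) * ∑ j, x j • (v' j : F) ∈ P.toValuationSubring := by
            rw [Finset.mul_sum]
            refine Subring.sum_mem _ fun j _ => ?_
            rw [mul_smul_comm, Algebra.smul_def]
            exact Subring.mul_mem _ (P.algebraMap_mem' _) (hmemγ j)
          have hΓ : ∑ j, x j • Taylor.taylor htr P (ϖ : F) hϖ1 ⟨(ϖ : F) * (v' j : F), hmemγ j⟩
              = Taylor.taylor htr P (ϖ : F) hϖ1 ⟨(ϖ : F) * ∑ j, x j • (v' j : F), hmemf⟩ := by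
            apply HahnSeries.ofPowerSeries_injective (Γ := ℤ)
            have hsum : ∑ j, x j • (v' j : F) = ∑ j, algebraMap K F (x j) * (v' j : F) :=
              Finset.sum_congr rfl fun j _ => Algebra.smul_def _ _
            rw [hofPS, ← TaylorL.single_mul_taylorL htr P (ϖ : F) hϖ1 hmemf, hsum, map_sum,
              Finset.mul_sum]
            refine Finset.sum_congr rfl fun j _ => ?_
            rw [← hγL j, map_mul, AlgHom.commutes]
            ring
          rw [hΓ, Taylor.constantCoeff_taylor_eq_iff] at hxγ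
          simp only [map_zero, sub_zero] at hxγ
          rcases hxγ with h | h
          · exact absurd h (mul_ne_zero hϖ0 hf0)
          · rw [Place.ord_mul _ hϖ0 hf0, hϖ1] at h
            omega
        · -- any other place
          rcases (mem_riemannRochSpace_iff.mp hfΛ) P with h | h
          · exact absurd h hf0
          · rw [hD₁, if_neg hPE, if_neg hPQ] at h
            omega
    -- `L(E₀) = K`
    have h1D₀ : (1 : F) ∈ riemannRochSpace (∑ v ∈ E₀, Finsupp.single v (1 : ℤ)) := by
      rw [mem_riemannRochSpace_iff]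
      intro P
      right
      rw [Place.ord_one, hD₀ P]
      split_ifs <;> omega
    obtain ⟨a, ha⟩ := (finrank_eq_one_iff_of_nonzero'
      (⟨1, h1D₀⟩ : ↥(riemannRochSpace (∑ v ∈ E₀, Finsupp.single v (1 : ℤ))))
      (fun h => one_ne_zero (congrArg Subtype.val h))).mp hE ⟨_, hfD₀⟩
    have ha' : a • (1 : F) = ∑ j, x j • (v' j : F) := congrArg Subtype.val ha
    -- independence
    have hrel : ∑ j, (x j - if j = 0 then a else 0) • (v' j : F) = 0 := by
      simp only [sub_smul, Finset.sum_sub_distrib, ite_smul, zero_smul]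
      rw [Finset.sum_ite_eq' Finset.univ (0 : Fin ((n - 1) * E₀.card + 1 + 1))
        (fun j => a • (v' j : F)), if_pos (Finset.mem_univ _), hv0, ha', sub_self]
    have hzero := Fintype.linearIndependent_iff.mp hvind _ hrel
    funext j
    by_cases hj : j = 0
    · rw [hj]; exact hx0
    · have h := hzero j
      rw [if_neg hj, sub_zero] at h
      exact h
  -- Step 8: the formal solution
  have hnK : ((n : ℕ) : K) ≠ 0 := Nat.cast_ne_zero.mpr hn.ne'
  have hβ0 : ∀ k, ∀ i < n, PowerSeries.coeff i (τ k (r 0)) = 0 := by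
    intro k i hi
    rw [hr0]
    have hdvd : PowerSeries.X ^ n ∣ τ k b₁ := (hτdvd k b₁ n hb₁0).mpr (by rw [hb₁w k])
    exact PowerSeries.X_pow_dvd_iff.mp hdvd i hi
  have hβn : ∀ k, PowerSeries.coeff n (τ k (r 0)) ≠ 0 := by
    intro k h0
    have hdvd : PowerSeries.X ^ (n + 1) ∣ τ k b₁ := by
      rw [PowerSeries.X_pow_dvd_iff]
      intro i hi
      rcases Nat.lt_succ_iff_lt_or_eq.mp hi with h | h
      · have := hβ0 k i h
        rwa [hr0] at this
      · rw [h, ← hr0]; exact h0
    have h1 := (hτdvd k b₁ (n + 1) hb₁0).mp hdvd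
    rw [hb₁w k] at h1
    push_cast at h1
    omega
  have hγ0 : PowerSeries.constantCoeff
      (Taylor.taylor htr Q₀ (ϖ : F) hϖ1 ⟨(ϖ : F) * (v' 0 : F), hmemγ 0⟩) = 0 := by
    rw [Taylor.constantCoeff_taylor_eq_iff]
    right
    simp only [map_zero, sub_zero]
    rw [hv0, mul_one, hϖ1]
    omega
  obtain ⟨c, u, hc0, hu0, hγrel, hjets⟩ := exists_formal_solution n E₀.card
    ((n - 1) * E₀.card + 1) hn hnK rfl (fun k j => τ k (r j))
    (fun j => Taylor.taylor htr Q₀ (ϖ : F) hϖ1 ⟨(ϖ : F) * (v' j : F), hmemγ j⟩)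
    hβ0 hβn hγ0 hnd
  -- the generic relation in the Laurent series
  have hgeneric : ∑ j, (HahnSeries.ofPowerSeries ℤ K (c j)) *
      TaylorL.taylorL htr Q₀ (ϖ : F) hϖ1 (v' j : F) = 0 := by
    have h1 : (HahnSeries.single (1 : ℤ) (1 : K)) * ∑ j, (HahnSeries.ofPowerSeries ℤ K (c j)) *
        TaylorL.taylorL htr Q₀ (ϖ : F) hϖ1 (v' j : F) = 0 := by
      rw [Finset.mul_sum]
      have h2 : ∀ j, (HahnSeries.single (1 : ℤ) (1 : K)) * ((HahnSeries.ofPowerSeries ℤ K (c j)) *
          TaylorL.taylorL htr Q₀ (ϖ : F) hϖ1 (v' j : F))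
          = HahnSeries.ofPowerSeries ℤ K (c j *
              Taylor.taylor htr Q₀ (ϖ : F) hϖ1 ⟨(ϖ : F) * (v' j : F), hmemγ j⟩) := by
        intro j
        rw [map_mul, ← hγL j]
        ring
      rw [Finset.sum_congr rfl fun j _ => h2 j, ← map_sum, hγrel, map_zero]
    exact (mul_eq_zero.mp h1).resolve_left (HahnSeries.single_ne_zero one_ne_zero)
  exact ⟨{
    g := E₀.card
    m := (n - 1) * E₀.card + 1
    w := w
    w_inj := hw_inj
    mem_E₀ := hw_mem
    v := fun j => (v' j : F)
    v_zero := hv0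
    v_indep := hvind
    v_mem := hv_mem
    b₁ := b₁
    b₁_ne := hb₁0
    ord_b₁ := hb₁w
    r := r
    r_spec := hr
    π := π
    τ := τ
    τ_π := hτπ
    τ_dvd := hτdvd
    τL := TaylorL.taylorL htr Q₀ (ϖ : F) hϖ1
    order_τL := fun f hf => TaylorL.order_taylorL htr Q₀ (ϖ : F) hϖ1 hf
    c := c
    c_zero := hc0
    u := u
    u_zero := hu0
    generic := hgeneric
    jets := hjets }⟩

end Setup

end Fermat.Agent.S17.D
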