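import Mathlib
import Fermat.Agent.S17.R.LSpace
import Fermat.Agent.S17.R.ReducedCore

/-!
# MW strand D, leaf Count (C5): the degree count

`F / K` a function field of one variable over an algebraically closed field of characteristic
zero, `E₀` a set of `g` places, `Q₀` and `P` two further places.  If `Ψ ≠ 0` lies in
`L(n E₀ + Q₀)`, vanishes at `P` and vanishes to order `≥ n` at `g` distinct places `E' k`
(the orders being read on `b₁ Ψ`, where `b₁` has order exactly `n` on `E₀` and is a unit at `P`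
and at the `E' k` outside `E₀`), then

  `div Ψ = P + n Σ E' k - n Σ E₀ - Q₀`,

because the right-hand side is `≤ div Ψ` and both sides have degree zero.  Hence
`P - Q₀ - n (Σ E₀ - Σ E')` is principal.
-/

set_option autoImplicit false

open AlgebraicCurve

namespace Fermat.Agent.S17.D.Count

variable {K F : Type*} [Field K] [Field F] [Algebra K F]

theorem sum_single_apply_of_mem {E : Finset (Place K F)} {v : Place K F} (hv : v ∈ E) :
    (∑ w ∈ E, Finsupp.single w (1 : ℤ)) v = 1 := by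
  classical
  rw [Finsupp.finsetSum_apply, Finset.sum_eq_single v]
  · exact Finsupp.single_eq_same
  · intro w _ hwv
    exact Finsupp.single_eq_of_ne (Ne.symm hwv)
  · intro h
    exact absurd hv h

theorem sum_single_apply_of_notMem {E : Finset (Place K F)} {v : Place K F} (hv : v ∉ E) :
    (∑ w ∈ E, Finsupp.single w (1 : ℤ)) v = 0 := by
  classical
  rw [Finsupp.finsetSum_apply]
  refine Finset.sum_eq_zero fun w hw => ?_
  have hwv : v ≠ w := fun h => hv (h ▸ hw)
  exact Finsupp.single_eq_of_ne hwv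

theorem sum_univ_single_apply_same {g : ℕ} {E' : Fin g → Place K F}
    (hinj : Function.Injective E') (k : Fin g) :
    (∑ j : Fin g, Finsupp.single (E' j) (1 : ℤ)) (E' k) = 1 := by
  classical
  rw [Finsupp.finsetSum_apply, Finset.sum_eq_single k]
  · exact Finsupp.single_eq_same
  · intro j _ hjk
    exact Finsupp.single_eq_of_ne (fun h => hjk (hinj h.symm))
  · intro h
    exact absurd (Finset.mem_univ k) h

theorem sum_univ_single_apply_of_forall_ne {g : ℕ} {E' : Fin g → Place K F} {v : Place K F}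
    (hv : ∀ k, E' k ≠ v) : (∑ j : Fin g, Finsupp.single (E' j) (1 : ℤ)) v = 0 := by
  classical
  rw [Finsupp.finsetSum_apply]
  exact Finset.sum_eq_zero fun j _ => Finsupp.single_eq_of_ne (fun h => hv j h.symm)

section Curve

variable [IsAlgClosed K] [CharZero K] [Algebra.EssFiniteType K F]

omit [CharZero K] [Algebra.EssFiniteType K F] in
theorem degree_sum_single (htr : Algebra.trdeg K F = 1) (E : Finset (Place K F)) :
    Divisor.degree (∑ w ∈ E, Finsupp.single w (1 : ℤ)) = E.card := by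
  rw [map_sum]
  simp [Divisor.degree_single, Fermat.Agent.S24.FF.deg_eq_one htr]

omit [CharZero K] [Algebra.EssFiniteType K F] in
theorem degree_sum_univ_single (htr : Algebra.trdeg K F = 1) {g : ℕ} (E' : Fin g → Place K F) :
    Divisor.degree (∑ j : Fin g, Finsupp.single (E' j) (1 : ℤ)) = g := by
  rw [map_sum]
  simp [Divisor.degree_single, Fermat.Agent.S24.FF.deg_eq_one htr]

/-- The divisor form of the count: `div Ψ = P + n Σ E' k - n Σ E₀ - Q₀`. -/
theorem divOf_eq (htr : Algebra.trdeg K F = 1) (n g : ℕ) (Q₀ P : Place K F)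
    (E₀ : Finset (Place K F)) (hcard : E₀.card = g) (_hQ : Q₀ ∉ E₀) (hPQ : P ≠ Q₀) (hPE : P ∉ E₀)
    (E' : Fin g → Place K F) (hinj : Function.Injective E')
    (hE'Q : ∀ k, E' k ≠ Q₀) (hE'P : ∀ k, E' k ≠ P)
    (b₁ Ψ : F) (hb₁ : b₁ ≠ 0) (hΨ : Ψ ≠ 0)
    (hΨL : Ψ ∈ riemannRochSpace ((n : ℤ) • ∑ v ∈ E₀, Finsupp.single v (1 : ℤ) +
      Finsupp.single Q₀ 1))
    (hb₁E : ∀ v ∈ E₀, v.ord b₁ = n) (hb₁P : P.ord b₁ = 0)
    (hb₁E' : ∀ k, E' k ∈ E₀ ∨ (E' k).ord b₁ = 0)
    (hP : 1 ≤ P.ord (b₁ * Ψ)) (hE' : ∀ k, (n : ℤ) ≤ (E' k).ord (b₁ * Ψ)) :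
    Fermat.Agent.S17.R.divOf K Ψ + ((n : ℤ) • ∑ v ∈ E₀, Finsupp.single v (1 : ℤ) +
        Finsupp.single Q₀ 1) -
      (Finsupp.single P 1 + (n : ℤ) • ∑ k : Fin g, Finsupp.single (E' k) (1 : ℤ)) = 0 := by
  classical
  apply Fermat.Agent.S17.R.ReducedCore.eq_zero_of_nonneg_of_degree_eq_zero htr
  · rw [Finsupp.le_def]
    intro v
    have hL := (Fermat.Agent.S17.R.mem_L_of_ne_zero hΨ).mp hΨL v
    simp only [Finsupp.coe_zero, Pi.zero_apply, Finsupp.coe_sub, Finsupp.coe_add,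
      Finsupp.coe_smul, Pi.sub_apply, Pi.add_apply, Pi.smul_apply, smul_eq_mul] at hL ⊢
    rw [Fermat.Agent.S17.R.divOf_apply htr]
    by_cases hvP : v = P
    · -- the point `P`
      rw [hvP] at hL ⊢
      have h1 : (∑ w ∈ E₀, Finsupp.single w (1 : ℤ)) P = 0 := sum_single_apply_of_notMem hPE
      have h2 : (Finsupp.single Q₀ (1 : ℤ)) P = 0 := Finsupp.single_eq_of_ne hPQ
      have h3 : (Finsupp.single P (1 : ℤ)) P = 1 := Finsupp.single_eq_same
      have h4 : (∑ k : Fin g, Finsupp.single (E' k) (1 : ℤ)) P = 0 :=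
        sum_univ_single_apply_of_forall_ne hE'P
      have h5 := P.ord_mul hb₁ hΨ
      rw [h1, h2, h3, h4]
      rw [h5, hb₁P] at hP
      linarith
    · have h3 : (Finsupp.single P (1 : ℤ)) v = 0 := Finsupp.single_eq_of_ne hvP
      by_cases hk : ∃ k, E' k = v
      · -- one of the points `E' k`
        obtain ⟨k, rfl⟩ := hk
        have h2 : (Finsupp.single Q₀ (1 : ℤ)) (E' k) = 0 := Finsupp.single_eq_of_ne (hE'Q k)
        have h4 : (∑ j : Fin g, Finsupp.single (E' j) (1 : ℤ)) (E' k) = 1 :=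
          sum_univ_single_apply_same hinj k
        have h5 := (E' k).ord_mul hb₁ hΨ
        have h6 := hE' k
        rw [h5] at h6
        rw [h2, h3, h4]
        by_cases hkE : E' k ∈ E₀
        · have h1 : (∑ w ∈ E₀, Finsupp.single w (1 : ℤ)) (E' k) = 1 :=
            sum_single_apply_of_mem hkE
          rw [h1]
          rw [hb₁E _ hkE] at h6
          linarith
        · have h1 : (∑ w ∈ E₀, Finsupp.single w (1 : ℤ)) (E' k) = 0 :=
            sum_single_apply_of_notMem hkE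
          rw [h1]
          rw [(hb₁E' k).resolve_left hkE] at h6
          linarith
      · -- any other point
        have h4 : (∑ j : Fin g, Finsupp.single (E' j) (1 : ℤ)) v = 0 :=
          sum_univ_single_apply_of_forall_ne (fun k hkv => hk ⟨k, hkv⟩)
        rw [h3, h4]
        linarith
  · rw [map_sub, map_add, map_add, map_add, map_zsmul, map_zsmul,
      Fermat.Agent.S17.R.degree_divOf htr, degree_sum_single htr, degree_sum_univ_single htr,
      Divisor.degree_single, Divisor.degree_single, Fermat.Agent.S24.FF.deg_eq_one htr,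
      Fermat.Agent.S24.FF.deg_eq_one htr, hcard]
    simp
    ring

end Curve

end Fermat.Agent.S17.D.Count

namespace Fermat.Agent.S17.D

variable {K F : Type*} [Field K] [Field F] [Algebra K F]
variable [IsAlgClosed K] [CharZero K] [Algebra.EssFiniteType K F]

/-- **(C5) The degree count.**  The specialised function `Ψ` has divisor
`P + n Σ E' k - n Σ E₀ - Q₀`; hence `P - Q₀` is `n` times a divisor up to a principal divisor. -/
theorem principal_of_orders (htr : Algebra.trdeg K F = 1) (n g : ℕ) (Q₀ P : Place K F)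
    (E₀ : Finset (Place K F)) (hcard : E₀.card = g) (hQ : Q₀ ∉ E₀) (hPQ : P ≠ Q₀) (hPE : P ∉ E₀)
    (E' : Fin g → Place K F) (hinj : Function.Injective E')
    (hE'Q : ∀ k, E' k ≠ Q₀) (hE'P : ∀ k, E' k ≠ P)
    (b₁ Ψ : F) (hb₁ : b₁ ≠ 0) (hΨ : Ψ ≠ 0)
    (hΨL : Ψ ∈ riemannRochSpace ((n : ℤ) • ∑ v ∈ E₀, Finsupp.single v (1 : ℤ) +
      Finsupp.single Q₀ 1))
    (hb₁E : ∀ v ∈ E₀, v.ord b₁ = n) (hb₁P : P.ord b₁ = 0)
    (hb₁E' : ∀ k, E' k ∈ E₀ ∨ (E' k).ord b₁ = 0)
    (hP : 1 ≤ P.ord (b₁ * Ψ)) (hE' : ∀ k, (n : ℤ) ≤ (E' k).ord (b₁ * Ψ)) :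
    ∃ D : Divisor K F, Finsupp.single P (1 : ℤ) - Finsupp.single Q₀ 1 - (n : ℤ) • D ∈
      Divisor.principal (K := K) (F := F) := by
  refine ⟨∑ v ∈ E₀, Finsupp.single v (1 : ℤ) - ∑ k : Fin g, Finsupp.single (E' k) (1 : ℤ), ?_⟩
  have hT := Count.divOf_eq htr n g Q₀ P E₀ hcard hQ hPQ hPE E' hinj hE'Q hE'P b₁ Ψ hb₁ hΨ hΨL
    hb₁E hb₁P hb₁E' hP hE'
  have h1 := eq_sub_of_add_eq (sub_eq_zero.mp hT).symm
  have h2 : Finsupp.single P (1 : ℤ) - Finsupp.single Q₀ 1 -
      (n : ℤ) • (∑ v ∈ E₀, Finsupp.single v (1 : ℤ) - ∑ k : Fin g, Finsupp.single (E' k) (1 : ℤ))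
      = Fermat.Agent.S17.R.divOf K Ψ := by
    rw [h1, smul_sub]
    abel
  rw [h2]
  exact Fermat.Agent.S17.R.divOf_mem_principal htr hΨ

end Fermat.Agent.S17.D
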