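import Mathlib
import Fermat.Agent.S17.D.Hasse

/-!
# Program MW (statement S17), strand D, leaf D4: a vanishing jet at a point of a Dedekind domain

Let `B` be a Dedekind domain over a field `K`, `w` a maximal ideal and `Θ` a `K`-valued jet of
order `n` on `B` (`IsJet n Θ`) whose order-zero part `Θ 0` has kernel `w` and whose order-one part
is non-zero on some `t`.  If `Θ i y = 0` for all `i < n` then `y ∈ w ^ n`.

Mathlib only (on top of `Hasse.lean` for `IsJet`).
-/

set_option autoImplicit false

namespace Fermat.Agent.S17.D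

/-- **Jet lemma.** A function killed by a non-degenerate jet of order `n` centred at the maximal
ideal `w` of a Dedekind domain lies in `w ^ n`. -/
theorem mem_pow_of_jet_eq_zero {K B : Type*} [Field K] [CommRing B] [IsDedekindDomain B]
    [Algebra K B] (n : ℕ) (Θ : ℕ → B →ₗ[K] K) (hΘ : IsJet n Θ)
    (w : IsDedekindDomain.HeightOneSpectrum B) (hw : ∀ b : B, b ∈ w.asIdeal ↔ Θ 0 b = 0)
    (t : B) (ht : Θ 1 t ≠ 0) (y : B) (hy : ∀ i < n, Θ i y = 0) :
    y ∈ w.asIdeal ^ n := by
  classical
  have : w.asIdeal.IsPrime := w.isPrime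
  have hpbot : w.asIdeal ≠ ⊥ := w.ne_bot
  rcases Nat.lt_or_ge n 2 with hn2 | hn2
  · -- the cases `n = 0` and `n = 1`
    interval_cases n
    · rw [pow_zero, Ideal.one_eq_top]
      exact Submodule.mem_top
    · rw [pow_one]
      exact (hw y).mpr (hy 0 Nat.zero_lt_one)
  have h0n : 0 < n := by omega
  have h1n : 1 < n := by omega
  -- Leibniz at order one, and `Θ 1 1 = 0`
  have hmul1 : ∀ a b : B, Θ 1 (a * b) = Θ 0 a * Θ 1 b + Θ 1 a * Θ 0 b := by
    intro a b
    have h := hΘ.leibniz 1 h1n a b
    rw [Finset.sum_range_succ, Finset.sum_range_one] at h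
    simpa using h
  have h11 : Θ 1 (1 : B) = 0 := by
    have h := hmul1 1 1
    rw [mul_one, hΘ.map_one, one_mul, mul_one] at h
    have h' : Θ 1 (1 : B) + Θ 1 (1 : B) = Θ 1 (1 : B) + 0 := by rw [add_zero]; exact h.symm
    exact add_left_cancel h'
  have hΘalg : ∀ (i : ℕ) (a : K), Θ i (algebraMap K B a) = a * Θ i 1 := by
    intro i a
    rw [Algebra.algebraMap_eq_smul_one, map_smul, smul_eq_mul]
  -- the uniformiser `π = t - t(w)`
  obtain ⟨π, hπ0, hπ1⟩ : ∃ π : B, Θ 0 π = 0 ∧ Θ 1 π ≠ 0 := by
    refine ⟨t - algebraMap K B (Θ 0 t), ?_, ?_⟩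
    · rw [map_sub, hΘalg, hΘ.map_one, mul_one, sub_self]
    · rw [map_sub, hΘalg, h11, mul_zero, sub_zero]
      exact ht
  have hπmem : π ∈ w.asIdeal := (hw π).mpr hπ0
  -- (L1) `Θ i` vanishes on `w ^ j` for `i < j`
  have L1 : ∀ j i : ℕ, i < j → i < n → ∀ z ∈ w.asIdeal ^ j, Θ i z = 0 := by
    intro j
    induction j with
    | zero => intro i hi; exact absurd hi (Nat.not_lt_zero i)
    | succ j ih =>
      intro i hij hin z hz
      rw [pow_succ] at hz
      refine Submodule.mul_induction_on hz ?_ ?_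
      · intro c hc a ha
        rw [hΘ.leibniz i hin c a]
        refine Finset.sum_eq_zero fun r hr => ?_
        have hr' : r ≤ i := Nat.lt_succ_iff.mp (Finset.mem_range.mp hr)
        rcases Nat.lt_or_ge r j with hrj | hrj
        · rw [ih r hrj (lt_of_le_of_lt hr' hin) c hc, zero_mul]
        · have hri : i - r = 0 := by omega
          rw [hri, (hw a).mp ha, mul_zero]
      · intro x₁ x₂ hx₁ hx₂
        rw [map_add, hx₁, hx₂, add_zero]
  -- (L2) the leading coefficient of `π ^ k * b`
  have L2 : ∀ k : ℕ, k < n → ∀ b : B, Θ k (π ^ k * b) = Θ 1 π ^ k * Θ 0 b := by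
    intro k
    induction k with
    | zero =>
      intro _ b
      rw [pow_zero, one_mul, pow_zero, one_mul]
    | succ k ih =>
      intro hk b
      have hkn : k < n := by omega
      have hcmem : π ^ k * b ∈ w.asIdeal ^ k :=
        Ideal.mul_mem_right _ _ (Ideal.pow_mem_pow hπmem k)
      rw [pow_succ', mul_assoc, hΘ.leibniz (k + 1) hk π (π ^ k * b)]
      rw [Finset.sum_eq_single 1]
      · rw [show k + 1 - 1 = k from rfl, ih hkn b, pow_succ', mul_assoc]
      · intro r hr hr1
        have hr' : r ≤ k + 1 := Nat.lt_succ_iff.mp (Finset.mem_range.mp hr)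
        rcases Nat.eq_zero_or_pos r with h0 | hpos
        · rw [h0, hπ0, zero_mul]
        · have hlt : k + 1 - r < k := by omega
          rw [L1 k (k + 1 - r) hlt (by omega) _ hcmem, mul_zero]
      · intro hnot
        exact absurd (Finset.mem_range.mpr (by omega)) hnot
  -- the induction on the order of vanishing
  have main : ∀ k : ℕ, k ≤ n → y ∈ w.asIdeal ^ k := by
    intro k
    induction k with
    | zero =>
      intro _
      rw [pow_zero, Ideal.one_eq_top]
      exact Submodule.mem_top
    | succ k ih =>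
      intro hk
      have hkn : k < n := by omega
      have hyk : y ∈ w.asIdeal ^ k := ih (by omega)
      have hπk : π ^ k ∈ w.asIdeal ^ k := Ideal.pow_mem_pow hπmem k
      have hπk' : π ^ k ∉ w.asIdeal ^ (k + 1) := by
        intro hmem
        have h1 := L1 (k + 1) k (Nat.lt_succ_self k) hkn _ hmem
        have h2 := L2 k hkn 1
        rw [mul_one, hΘ.map_one, mul_one] at h2
        rw [h2] at h1
        exact pow_ne_zero k hπ1 h1
      obtain ⟨d, e, he, hde⟩ :=
        Ideal.exists_mul_add_mem_pow_succ hpbot (π ^ k) y hπk hπk' hyk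
      have h3 : Θ k y = 0 := hy k hkn
      rw [← hde, map_add, L2 k hkn d, L1 (k + 1) k (Nat.lt_succ_self k) hkn e he, add_zero] at h3
      have hd0 : Θ 0 d = 0 := (mul_eq_zero.mp h3).resolve_left (pow_ne_zero k hπ1)
      have hd : d ∈ w.asIdeal := (hw d).mpr hd0
      rw [← hde, pow_succ]
      exact Ideal.add_mem _ (Ideal.mul_mem_mul hπk hd) (by rw [← pow_succ]; exact he)
  exact main n le_rfl

end Fermat.Agent.S17.D
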