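import Mathlib
import Fermat.Agent.S17.D.Hasse

/-!
# Program MW (statement S17), strand D, leaf JetSpec: specialisation of a jet

A jet `Θ` of order `n` on a `K`-algebra `A` with values in `S` (`IsJet n Θ`, `D/Hasse.lean`):

* `IsJet.mem_of_gens`: the coefficients `Θ i a`, `i < n`, lie in a subalgebra `A'` of `S` as soon
  as those of a generating set of `A` do;
* `IsJet.exists_comp`: if all coefficients lie in `A'`, the jet composes with any `K`-algebra hom
  `ψ : A' → K` to a `K`-valued jet of the same order;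
* `IsJet.exists_algHom`: the centre `Θ 0` of a `K`-valued jet of positive order is a `K`-algebra
  hom.

Mathlib only (plus the structure `IsJet`).
-/

set_option autoImplicit false

namespace Fermat.Agent.S17.D

section JetSpec

variable {K A S : Type*} [Field K] [CommRing A] [Algebra K A] [CommRing S] [Algebra K S]

/-- the higher terms of a jet kill `1` -/
theorem IsJet.apply_one_eq_zero_jetSpec {n : ℕ} {Θ : ℕ → A →ₗ[K] S} (hΘ : IsJet n Θ) :
    ∀ m : ℕ, 0 < m → m < n → Θ m 1 = 0 := by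
  intro m
  induction m using Nat.strong_induction_on with
  | _ m ih =>
    intro hm hmn
    obtain ⟨k, rfl⟩ := Nat.exists_eq_succ_of_ne_zero hm.ne'
    have h := hΘ.leibniz (k + 1) hmn 1 1
    rw [mul_one] at h
    have hsum : ∑ i ∈ Finset.range (k + 1 + 1), Θ i 1 * Θ (k + 1 - i) 1
        = Θ (k + 1) 1 + Θ (k + 1) 1 := by
      rw [Finset.sum_range_succ, Nat.sub_self, hΘ.map_one, mul_one, Finset.sum_range_succ',
        Nat.sub_zero, hΘ.map_one, one_mul, Finset.sum_eq_zero, zero_add]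
      intro i hi
      have hik : i < k := Finset.mem_range.mp hi
      rw [ih (i + 1) (by omega) (Nat.succ_pos i) (by omega), zero_mul]
    rw [hsum] at h
    have h2 : Θ (k + 1) 1 + Θ (k + 1) 1 = Θ (k + 1) 1 + 0 := by
      rw [add_zero]
      exact h.symm
    exact add_left_cancel h2

/-- the coefficients of a jet lie in a subalgebra as soon as those of a generating set do -/
theorem IsJet.mem_of_gens (n : ℕ) (Θ : ℕ → A →ₗ[K] S) (hΘ : IsJet n Θ) (A' : Subalgebra K S)
    (G : Set A) (hG : Algebra.adjoin K G = ⊤) (hmem : ∀ a ∈ G, ∀ i < n, Θ i a ∈ A') :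
    ∀ a : A, ∀ i < n, Θ i a ∈ A' := by
  intro a
  have ha : a ∈ Algebra.adjoin K G := hG ▸ Algebra.mem_top
  induction ha using Algebra.adjoin_induction with
  | mem x hx => exact hmem x hx
  | algebraMap r =>
    intro i hi
    rw [Algebra.algebraMap_eq_smul_one, map_smul]
    refine A'.smul_mem ?_ r
    rcases Nat.eq_zero_or_pos i with rfl | hpos
    · rw [hΘ.map_one]
      exact A'.one_mem
    · rw [hΘ.apply_one_eq_zero_jetSpec i hpos hi]
      exact A'.zero_mem
  | add x y _ _ hx hy =>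
    intro i hi
    rw [map_add]
    exact A'.add_mem (hx i hi) (hy i hi)
  | mul x y _ _ hx hy =>
    intro i hi
    rw [hΘ.leibniz i hi]
    refine A'.sum_mem fun j hj => A'.mul_mem (hx j ?_) (hy (i - j) ?_)
    · have := Finset.mem_range.mp hj
      omega
    · omega

/-- composing a jet with an algebra hom defined on a subalgebra containing its coefficients -/
theorem IsJet.exists_comp (n : ℕ) (Θ : ℕ → A →ₗ[K] S) (hΘ : IsJet n Θ) (A' : Subalgebra K S)
    (hmem : ∀ a : A, ∀ i < n, Θ i a ∈ A') (ψ : ↥A' →ₐ[K] K) :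
    ∃ Θ' : ℕ → A →ₗ[K] K, IsJet n Θ' ∧
      ∀ (i : ℕ) (hi : i < n) (a : A), Θ' i a = ψ ⟨Θ i a, hmem a i hi⟩ := by
  classical
  -- a linear form with value `1` at `1` (it is the centre only when `n = 0`)
  have h1 : (1 : A) ≠ 0 := by
    intro h
    have hS : (1 : S) = 0 := by rw [← hΘ.map_one, h, map_zero]
    have hA' : (1 : ↥A') = 0 := Subtype.ext hS
    have hK : (1 : K) = 0 := by rw [← _root_.map_one ψ, hA', map_zero]
    exact one_ne_zero hK
  obtain ⟨φ₀, hφ₀⟩ : ∃ φ₀ : A →ₗ[K] K, φ₀ 1 = 1 := by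
    obtain ⟨f, hf⟩ : ∃ f : Module.Dual K A, f 1 ≠ 0 := by
      by_contra hcon
      exact h1 ((Module.forall_dual_apply_eq_zero_iff K (1 : A)).mp fun f => by
        by_contra hf
        exact hcon ⟨f, hf⟩)
    refine ⟨(f 1)⁻¹ • f, ?_⟩
    rw [LinearMap.smul_apply, smul_eq_mul, inv_mul_cancel₀ hf]
  -- extension of `ψ` by zero
  obtain ⟨Ψ, hΨ⟩ : ∃ Ψ : S → K, ∀ (s : S) (h : s ∈ A'), Ψ s = ψ ⟨s, h⟩ :=
    ⟨fun s => if h : s ∈ A' then ψ ⟨s, h⟩ else 0, fun s h => dif_pos h⟩
  have hadd : ∀ s t : S, s ∈ A' → t ∈ A' → Ψ (s + t) = Ψ s + Ψ t := by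
    intro s t hs ht
    rw [hΨ _ (A'.add_mem hs ht), hΨ _ hs, hΨ _ ht, ← map_add]
    rfl
  have hmul : ∀ s t : S, s ∈ A' → t ∈ A' → Ψ (s * t) = Ψ s * Ψ t := by
    intro s t hs ht
    rw [hΨ _ (A'.mul_mem hs ht), hΨ _ hs, hΨ _ ht, ← map_mul]
    rfl
  have hsmul : ∀ (c : K) (s : S), s ∈ A' → Ψ (c • s) = c • Ψ s := by
    intro c s hs
    rw [hΨ _ (A'.smul_mem hs c), hΨ _ hs, ← map_smul]
    rfl
  have hone : Ψ 1 = 1 := by
    rw [hΨ _ A'.one_mem]
    exact _root_.map_one ψ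
  have hsum : ∀ (F : Finset ℕ) (f : ℕ → S), (∀ i ∈ F, f i ∈ A') →
      Ψ (∑ i ∈ F, f i) = ∑ i ∈ F, Ψ (f i) := by
    intro F f
    induction F using Finset.induction_on with
    | empty =>
      intro _
      rw [Finset.sum_empty, Finset.sum_empty, hΨ 0 A'.zero_mem]
      exact map_zero ψ
    | insert a F ha ih =>
      intro hf
      rw [Finset.sum_insert ha, Finset.sum_insert ha,
        hadd _ _ (hf a (Finset.mem_insert_self a F))
          (A'.sum_mem fun i hi => hf i (Finset.mem_insert_of_mem hi)),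
        ih fun i hi => hf i (Finset.mem_insert_of_mem hi)]
  -- the composed maps
  have key : ∃ Θ' : ℕ → A →ₗ[K] K,
      (∀ i : ℕ, i < n → ∀ a : A, Θ' i a = Ψ (Θ i a)) ∧ (n = 0 → Θ' 0 = φ₀) := by
    refine ⟨fun i => if h : i < n then
        { toFun := fun a => Ψ (Θ i a)
          map_add' := fun a b => by
            rw [map_add]
            exact hadd _ _ (hmem a i h) (hmem b i h)
          map_smul' := fun c a => by
            rw [map_smul, RingHom.id_apply]
            exact hsmul c _ (hmem a i h) }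
      else φ₀, ?_, ?_⟩
    · intro i hi a
      dsimp only
      rw [dif_pos hi]
      rfl
    · intro hn
      dsimp only
      rw [dif_neg (by omega)]
  obtain ⟨Θ', hΘ'Ψ, hΘ'0⟩ := key
  have hΘ' : ∀ (i : ℕ) (hi : i < n) (a : A), Θ' i a = ψ ⟨Θ i a, hmem a i hi⟩ :=
    fun i hi a => (hΘ'Ψ i hi a).trans (hΨ _ (hmem a i hi))
  refine ⟨Θ', ⟨?_, ?_⟩, hΘ'⟩
  · rcases Nat.eq_zero_or_pos n with hn | hn
    · rw [hΘ'0 hn, hφ₀]
    · rw [hΘ'Ψ 0 hn, hΘ.map_one, hone]
  · intro m hm a b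
    have hlt : ∀ i ∈ Finset.range (m + 1), i < n ∧ m - i < n := by
      intro i hi
      have := Finset.mem_range.mp hi
      omega
    rw [hΘ'Ψ m hm, hΘ.leibniz m hm,
      hsum _ _ fun i hi => A'.mul_mem (hmem a i (hlt i hi).1) (hmem b (m - i) (hlt i hi).2)]
    refine Finset.sum_congr rfl fun i hi => ?_
    show Ψ (Θ i a * Θ (m - i) b) = Θ' i a * Θ' (m - i) b
    rw [hmul _ _ (hmem a i (hlt i hi).1) (hmem b (m - i) (hlt i hi).2),
      hΘ'Ψ i (hlt i hi).1, hΘ'Ψ (m - i) (hlt i hi).2]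

/-- the centre of a jet is an algebra hom -/
theorem IsJet.exists_algHom (n : ℕ) (hn : 0 < n) (Θ : ℕ → A →ₗ[K] K) (hΘ : IsJet n Θ) :
    ∃ χ : A →ₐ[K] K, ∀ a, χ a = Θ 0 a := by
  refine ⟨AlgHom.ofLinearMap (Θ 0) hΘ.map_one fun a b => ?_, fun a => rfl⟩
  rw [hΘ.leibniz 0 hn a b, zero_add, Finset.sum_range_one, Nat.sub_zero]

end JetSpec

end Fermat.Agent.S17.D
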