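import Mathlib

/-!
# Specialisation of points along a finitely generated extension of domains

`Fermat.Agent.S17.D.SpecExt.exists_specialisation`: let `K` be an algebraically closed field,
`B` a finitely generated `K`-algebra which is a domain, `e : B →ₐ[K] S` an injective map to a
domain and `T` a finite subset of `S`.  Then there is `h ≠ 0` in `B` such that every `K`-point
`P` of `B` with `P h ≠ 0` extends to a `K`-point of the subalgebra of `S` generated by `e B`
and `T`.

Proof: `R := K[e B, T]` is a domain of finite presentation over the Noetherian ring `B`, so by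
Chevalley's theorem the image of `Spec R → Spec B` is constructible; it contains the generic
point because `B → R` is injective, hence it contains a basic set `D(h)`, `h ≠ 0`.  A point
`P` with `P h ≠ 0` is the maximal ideal `ker P ∈ D(h)`; a prime of `R` over it lies in a maximal
ideal `𝔫` of `R`, which still lies over `ker P`, and `R ⧸ 𝔫 = K` by Zariski's lemma.
-/

namespace Fermat.Agent.S17.D.SpecExt

/-- Over an algebraically closed field, a maximal ideal of a finitely generated algebra has
residue field `K`. -/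
theorem algebraMap_quotient_bijective {K R : Type*} [Field K] [IsAlgClosed K] [CommRing R]
    [Algebra K R] [Algebra.FiniteType K R] (n : Ideal R) [hn : n.IsMaximal] :
    Function.Bijective (algebraMap K (R ⧸ n)) := by
  let _ : Field (R ⧸ n) := Ideal.Quotient.field n
  have : Algebra.FiniteType K (R ⧸ n) :=
    Algebra.FiniteType.of_surjective (Ideal.Quotient.mkₐ K n) (Ideal.Quotient.mkₐ_surjective K n)
  have : Module.Finite K (R ⧸ n) := finite_of_finite_type_of_isJacobsonRing K (R ⧸ n)
  exact IsAlgClosed.algebraMap_bijective_of_isIntegral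

/-- The subalgebra generated by the image of a finitely generated algebra and a finite set is
finitely generated. -/
theorem fg_adjoin_range_union {K B S : Type*} [Field K] [CommRing B] [Algebra K B]
    [Algebra.FiniteType K B] [CommRing S] [Algebra K S] (e : B →ₐ[K] S) (T : Finset S) :
    (Algebra.adjoin K (Set.range e ∪ (T : Set S))).FG := by
  classical
  obtain ⟨s, hs⟩ := (Algebra.FiniteType.out : (⊤ : Subalgebra K B).FG)
  refine ⟨s.image e ∪ T, ?_⟩
  rw [Finset.coe_union, Finset.coe_image, Algebra.adjoin_union, Algebra.adjoin_union,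
    ← AlgHom.map_adjoin, hs, Algebra.map_top, ← AlgHom.coe_range, Algebra.adjoin_eq]

/-- A constructible subset of the spectrum of a domain which contains the generic point contains
a non-empty basic open set. -/
theorem exists_basicOpen_subset_of_bot_mem {B : Type*} [CommRing B] [IsDomain B]
    {s : Set (PrimeSpectrum B)} (hs : Topology.IsConstructible s)
    (hbot : (⟨⊥, Ideal.isPrime_bot⟩ : PrimeSpectrum B) ∈ s) :
    ∃ h : B, h ≠ 0 ∧ ∀ p : PrimeSpectrum B, h ∉ p.asIdeal → p ∈ s := by
  obtain ⟨D, rfl⟩ := PrimeSpectrum.exists_constructibleSetData_iff.mpr hs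
  simp only [PrimeSpectrum.ConstructibleSetData.toSet, Set.mem_iUnion] at hbot
  obtain ⟨C, hC, hCg, hCf⟩ := hbot
  have hg : ∀ i, C.g i = 0 := fun i => by
    have := hCg (Set.mem_range_self i)
    simpa using this
  have hf : C.f ≠ 0 := fun h0 => hCf (by
    rw [PrimeSpectrum.mem_zeroLocus, Set.singleton_subset_iff, h0]
    exact Ideal.zero_mem _)
  refine ⟨C.f, hf, fun p hp => ?_⟩
  simp only [PrimeSpectrum.ConstructibleSetData.toSet, Set.mem_iUnion]
  refine ⟨C, hC, ?_, ?_⟩
  · rw [PrimeSpectrum.mem_zeroLocus]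
    rintro _ ⟨i, rfl⟩
    rw [hg i]
    exact Ideal.zero_mem _
  · rw [PrimeSpectrum.mem_zeroLocus, Set.singleton_subset_iff]
    exact hp

theorem exists_specialisation {K B S : Type*} [Field K] [IsAlgClosed K] [CommRing B] [IsDomain B]
    [Algebra K B] [Algebra.FiniteType K B] [CommRing S] [IsDomain S] [Algebra K S]
    (e : B →ₐ[K] S) (he : Function.Injective e) (T : Finset S) :
    ∃ h : B, h ≠ 0 ∧ ∀ P : B →ₐ[K] K, P h ≠ 0 →
      ∃ psi : ↥(Algebra.adjoin K (Set.range e ∪ (T : Set S))) →ₐ[K] K,
        ∀ b : B, psi ⟨e b, Algebra.subset_adjoin (Or.inl ⟨b, rfl⟩)⟩ = P b := by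
  classical
  -- the corestriction of `e` to `R := K[e B, T]`
  let e' : B →ₐ[K] ↥(Algebra.adjoin K (Set.range e ∪ (T : Set S))) :=
    e.codRestrict _ (fun b => Algebra.subset_adjoin (Or.inl ⟨b, rfl⟩))
  have he' : Function.Injective e' := fun x y hxy => he (congrArg Subtype.val hxy)
  have hRft : Algebra.FiniteType K ↥(Algebra.adjoin K (Set.range e ∪ (T : Set S))) :=
    (Subalgebra.fg_iff_finiteType _).mp (fg_adjoin_range_union e T)
  have : IsNoetherianRing B := Algebra.FiniteType.isNoetherianRing K B
  have hfp : e'.toRingHom.FinitePresentation := by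
    refine RingHom.FinitePresentation.of_finiteType.mp ?_
    refine RingHom.FiniteType.of_comp_finiteType (f := algebraMap K B) ?_
    rw [AlgHom.toRingHom_eq_coe, AlgHom.comp_algebraMap]
    exact RingHom.finiteType_algebraMap.mpr hRft
  -- Chevalley: the image of `Spec R → Spec B` contains a basic open set
  have hbot : (⟨⊥, Ideal.isPrime_bot⟩ : PrimeSpectrum B) ∈
      Set.range (PrimeSpectrum.comap e'.toRingHom) := by
    refine ⟨⟨⊥, Ideal.isPrime_bot⟩, ?_⟩
    ext x
    simp only [PrimeSpectrum.comap_asIdeal, Ideal.mem_comap, Ideal.mem_bot]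
    exact ⟨fun hx => he' (by rw [map_zero]; exact hx), fun hx => by rw [hx]; exact map_zero _⟩
  obtain ⟨h, hh, hmem⟩ :=
    exists_basicOpen_subset_of_bot_mem (PrimeSpectrum.isConstructible_range_comap hfp) hbot
  refine ⟨h, hh, fun P hP => ?_⟩
  -- the maximal ideal `ker P`
  have hPsurj : Function.Surjective P.toRingHom := fun k => ⟨algebraMap K B k, P.commutes k⟩
  have hmax : (RingHom.ker P.toRingHom).IsMaximal := RingHom.ker_isMaximal_of_surjective _ hPsurj
  obtain ⟨q, hq⟩ := hmem ⟨RingHom.ker P.toRingHom, hmax.isPrime⟩ hP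
  obtain ⟨n, hn, hqn⟩ := Ideal.exists_le_maximal q.asIdeal q.2.ne_top
  have hcomap : RingHom.ker P.toRingHom = n.comap e'.toRingHom := by
    refine hmax.eq_of_le (Ideal.comap_ne_top _ hn.ne_top) ?_
    have hq' : q.asIdeal.comap e'.toRingHom = RingHom.ker P.toRingHom :=
      congrArg PrimeSpectrum.asIdeal hq
    rw [← hq']
    exact Ideal.comap_mono hqn
  -- the residue field of `𝔫` is `K`
  have hbij : Function.Bijective (Algebra.ofId K (_ ⧸ n)) := algebraMap_quotient_bijective n
  refine ⟨(AlgEquiv.ofBijective (Algebra.ofId K (_ ⧸ n)) hbij).symm.toAlgHom.comp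
    (Ideal.Quotient.mkₐ K n), fun b => ?_⟩
  have hb : b - algebraMap K B (P b) ∈ RingHom.ker P.toRingHom := by
    rw [RingHom.mem_ker, map_sub]
    exact sub_eq_zero.mpr (P.commutes (P b)).symm
  rw [hcomap] at hb
  have hb' : e' b - algebraMap K _ (P b) ∈ n := by
    have h1 : e' (b - algebraMap K B (P b)) ∈ n := hb
    rwa [map_sub, AlgHom.commutes] at h1
  have hmk : Ideal.Quotient.mkₐ K n (e' b) = Algebra.ofId K (_ ⧸ n) (P b) := by
    have h2 := Ideal.Quotient.eq.mpr hb'
    exact h2
  change (AlgEquiv.ofBijective (Algebra.ofId K (_ ⧸ n)) hbij).symm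
    (Ideal.Quotient.mkₐ K n (e' b)) = P b
  rw [hmk]
  exact (AlgEquiv.ofBijective (Algebra.ofId K (_ ⧸ n)) hbij).symm_apply_apply (P b)

end Fermat.Agent.S17.D.SpecExt
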