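import Mathlib
import Fermat.Agent.S17.D.Hasse
import Fermat.Agent.S17.D.JetLemma
import Fermat.Agent.S17.D.SpecExt
import Fermat.Agent.S17.D.SubstEst
import Fermat.Agent.S24.FF.Principal
import Fermat.Agent.S17.D.Model
import Fermat.Agent.S17.D.ModelAux
import Fermat.Agent.S17.D.Count
import Fermat.Agent.S17.D.JetSpec
import Fermat.Agent.S17.D.SetupDef

/-!
# Program MW (statement S17), strand D: the specialisation step (L2)

`exists_finset_of_setup`: from a `Setup R n Q₀ E₀` (the formal solution `(c, u)` over the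
Laurent series at `Q₀`), for all but finitely many points `P` the divisor `P - Q₀` is `n` times
a divisor up to a principal divisor.

The coefficients of the formal solution, the coefficients of the moving jets on a finite set of
generators of the model and three families of inverses generate a finite type algebra `A'` over
the model; by `SpecExt.exists_specialisation` almost every `K`-point `P` of the model extends
to a `K`-point `ψ` of `A'`.  Then `Ψ := ∑ ψ (c j) • v j` is a non-zero function of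
`L(n E₀ + Q₀)`, the function `b₁ Ψ` vanishes at `P` (the specialised generic equation) and to
order `n` at the centres `E' k` of the specialised jets (`mem_pow_of_jet_eq_zero`), and the
inverses keep the points `E' k` distinct, different from `P` and off the extra zeros of `b₁`;
`principal_of_orders` concludes.  Jets of order `n + 1` are used, so that `n = 1` is not special.
-/

set_option autoImplicit false
set_option linter.unusedSectionVars false

open AlgebraicCurve IsDedekindDomain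

namespace Fermat.Agent.S17.D.Spec

/-! ### small general lemmas -/

section Jets

variable {K A B R R' : Type*} [CommRing K] [CommRing A] [Algebra K A] [CommRing B] [Algebra K B]
  [CommRing R] [Algebra K R] [CommRing R'] [Algebra K R']

theorem isJet_mono {n n' : ℕ} (h : n' ≤ n) {Θ : ℕ → A →ₗ[K] R} (hΘ : IsJet n Θ) : IsJet n' Θ :=
  ⟨hΘ.map_one, fun m hm a b => hΘ.leibniz m (lt_of_lt_of_le hm h) a b⟩

theorem isJet_comp {n : ℕ} {Θ : ℕ → A →ₗ[K] R} (hΘ : IsJet n Θ) (f : B →ₐ[K] A)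
    (g : R →ₐ[K] R') :
    IsJet n (fun i => g.toLinearMap ∘ₗ Θ i ∘ₗ f.toLinearMap) := by
  refine ⟨?_, ?_⟩
  · show g (Θ 0 (f 1)) = 1
    rw [map_one, hΘ.map_one, map_one]
  · intro m hm a b
    show g (Θ m (f (a * b))) = ∑ i ∈ Finset.range (m + 1), g (Θ i (f a)) * g (Θ (m - i) (f b))
    rw [map_mul, hΘ.leibniz m hm, map_sum]
    exact Finset.sum_congr rfl fun i _ => map_mul _ _ _

end Jets

theorem apply_ne_zero_of_inv_mem {K S : Type*} [Field K] [Field S] [Algebra K S]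
    (A' : Subalgebra K S) (ψ : ↥A' →ₐ[K] K) (x : S) (hx : x ∈ A') (hx0 : x ≠ 0)
    (hxi : x⁻¹ ∈ A') : ψ ⟨x, hx⟩ ≠ 0 := by
  intro h
  have h1 : (⟨x, hx⟩ : ↥A') * ⟨x⁻¹, hxi⟩ = 1 := Subtype.ext (mul_inv_cancel₀ hx0)
  have h2 := congrArg ψ h1
  rw [map_mul, h, zero_mul, map_one] at h2
  exact zero_ne_one h2

theorem algHom_eq_of_ker {K R : Type*} [Field K] [CommRing R] [Algebra K R]
    (χ χ' : R →ₐ[K] K) (h : ∀ b, χ b = 0 → χ' b = 0) : χ = χ' := by
  ext b
  have h1 : χ (b - algebraMap K R (χ b)) = 0 := by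
    rw [map_sub, AlgHom.commutes]
    simp
  have h2 := h _ h1
  rw [map_sub, AlgHom.commutes] at h2
  have h3 : χ' b - χ b = 0 := by simpa using h2
  exact (sub_eq_zero.mp h3).symm

theorem ofPowerSeries_ne_of_order_neg {K : Type*} [Field K] (φ : PowerSeries K)
    (x : LaurentSeries K) (hx : x.order < 0) : HahnSeries.ofPowerSeries ℤ K φ ≠ x := by
  rintro rfl
  have h1 : (HahnSeries.ofPowerSeries ℤ K φ).coeff (HahnSeries.ofPowerSeries ℤ K φ).order = 0 := by
    rw [PowerSeries.coeff_coe, if_pos hx]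
  rw [HahnSeries.coeff_order_eq_zero.mp h1, HahnSeries.order_zero] at hx
  exact lt_irrefl _ hx

theorem constantCoeff_subst_eq {K : Type*} [Field K] (φ u : PowerSeries K)
    (hu : PowerSeries.constantCoeff u = 0) :
    PowerSeries.constantCoeff (φ.subst u) = PowerSeries.constantCoeff φ := by
  have h := SubstEst.dvd_subst_sub_C φ (PowerSeries.X_dvd_iff.mpr hu)
  rw [PowerSeries.X_dvd_iff, map_sub, PowerSeries.constantCoeff_C, sub_eq_zero] at h
  exact h

/-- the moving jet of order `n` in the power series ring -/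
noncomputable def jetP {K : Type*} [Field K] (u : PowerSeries K)
    (hu : PowerSeries.constantCoeff u = 0) (n : ℕ) : ℕ → PowerSeries K →ₗ[K] PowerSeries K :=
  Classical.choose (isJet_hasse_subst u hu n)

theorem jetP_apply {K : Type*} [Field K] (u : PowerSeries K)
    (hu : PowerSeries.constantCoeff u = 0) (n : ℕ) (i : ℕ) (φ : PowerSeries K) :
    jetP u hu n i φ = (hasse i φ).subst u :=
  (Classical.choose_spec (isJet_hasse_subst u hu n)).1 i φ

theorem isJet_jetP {K : Type*} [Field K] (u : PowerSeries K)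
    (hu : PowerSeries.constantCoeff u = 0) (n : ℕ) : IsJet n (jetP u hu n) :=
  (Classical.choose_spec (isJet_hasse_subst u hu n)).2

section Setup

variable {K F : Type*} [Field K] [Field F] [Algebra K F]
variable [IsAlgClosed K] [CharZero K] [Algebra.EssFiniteType K F]
variable {R : Type*} [CommRing R] [IsDedekindDomain R] [Algebra R F] [IsFractionRing R F]
  [Algebra K R] [IsScalarTower K R F]
variable {n : ℕ} {Q₀ : Place K F} {E₀ : Finset (Place K F)}
variable {S : Type*} [Field S] [Algebra K S]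

/-- the moving jets of the setup, with values in a `K`-algebra receiving the power series -/
noncomputable def jetS (s : Setup (K := K) (F := F) R n Q₀ E₀) (ι : PowerSeries K →ₐ[K] S)
    (k : Fin s.g) (i : ℕ) : R →ₗ[K] S :=
  ι.toLinearMap ∘ₗ jetP (s.u k) (s.u_zero k) (n + 1) i ∘ₗ (s.τ k).toLinearMap

theorem jetS_apply (s : Setup (K := K) (F := F) R n Q₀ E₀) (ι : PowerSeries K →ₐ[K] S)
    (k : Fin s.g) (i : ℕ) (a : R) :
    jetS s ι k i a = ι ((hasse i (s.τ k a)).subst (s.u k)) := by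
  show ι (jetP (s.u k) (s.u_zero k) (n + 1) i (s.τ k a)) = _
  rw [jetP_apply]

theorem isJet_jetS (s : Setup (K := K) (F := F) R n Q₀ E₀) (ι : PowerSeries K →ₐ[K] S)
    (k : Fin s.g) : IsJet (n + 1) (jetS s ι k) :=
  isJet_comp (isJet_jetP (s.u k) (s.u_zero k) (n + 1)) (s.τ k) ι

theorem jetS_zero (s : Setup (K := K) (F := F) R n Q₀ E₀) (ι : PowerSeries K →ₐ[K] S)
    (k : Fin s.g) (a : R) :
    jetS s ι k 0 a = ι ((s.τ k a).subst (s.u k)) := by
  rw [jetS_apply, hasse_zero]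

theorem jetS_one_π (s : Setup (K := K) (F := F) R n Q₀ E₀) (ι : PowerSeries K →ₐ[K] S)
    (k : Fin s.g) : jetS s ι k 1 (s.π k) = 1 := by
  have hs : PowerSeries.HasSubst (s.u k) := PowerSeries.HasSubst.of_constantCoeff_zero' (s.u_zero k)
  rw [jetS_apply, s.τ_π, hasse_one_X, ← PowerSeries.coe_substAlgHom hs, map_one, map_one]

theorem jetS_jets (s : Setup (K := K) (F := F) R n Q₀ E₀) (ι : PowerSeries K →ₐ[K] S)
    (k : Fin s.g) (i : ℕ) (hi : i < n) :
    ∑ j, ι (s.c j) * jetS s ι k i (s.r j) = 0 := by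
  have h := congrArg ι (s.jets k i hi)
  rw [map_sum, map_zero] at h
  rw [← h]
  refine Finset.sum_congr rfl fun j _ => ?_
  rw [jetS_apply, map_mul]

theorem jetS_zero_ne_zero (s : Setup (K := K) (F := F) R n Q₀ E₀) (ι : PowerSeries K →ₐ[K] S)
    (hι : Function.Injective ι) (k : Fin s.g) (a : R)
    (h : PowerSeries.constantCoeff (s.τ k a) ≠ 0) : jetS s ι k 0 a ≠ 0 := by
  rw [jetS_zero]
  intro h0
  rw [map_eq_zero_iff _ hι] at h0
  apply h
  rw [← constantCoeff_subst_eq _ _ (s.u_zero k), h0, map_zero]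

theorem jetS_zero_ne (s : Setup (K := K) (F := F) R n Q₀ E₀) (ι : PowerSeries K →ₐ[K] S)
    (hι : Function.Injective ι) (k k' : Fin s.g) (a : R)
    (h : PowerSeries.constantCoeff (s.τ k a) ≠ PowerSeries.constantCoeff (s.τ k' a)) :
    jetS s ι k 0 a ≠ jetS s ι k' 0 a := by
  rw [jetS_zero, jetS_zero]
  intro h0
  apply h
  rw [← constantCoeff_subst_eq (s.τ k a) (s.u k) (s.u_zero k), hι h0,
    constantCoeff_subst_eq _ _ (s.u_zero k')]

theorem ord_nonneg_model (w : HeightOneSpectrum R) (b : R) :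
    0 ≤ (Place.ofHeightOneSpectrum (K := K) (F := F) w).ord (algebraMap R F b) :=
  Fermat.Agent.S24.FF.ord_nonneg_of_mem _
    (show algebraMap R F b ∈ (w.valuation F).valuationSubring from
      (Valuation.mem_valuationSubring_iff _ _).mpr (w.valuation_le_one b))

/-- the `K`-point of the model at the `k`-th point of `E₀` -/
noncomputable def ev (s : Setup (K := K) (F := F) R n Q₀ E₀) (k : Fin s.g) : R →ₐ[K] K :=
  { (PowerSeries.constantCoeff (R := K)).comp (s.τ k).toRingHom with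
    commutes' := fun c => by
      show PowerSeries.constantCoeff (s.τ k (algebraMap K R c)) = algebraMap K K c
      rw [AlgHom.commutes]
      simp }

theorem ev_apply (s : Setup (K := K) (F := F) R n Q₀ E₀) (k : Fin s.g) (b : R) :
    ev s k b = PowerSeries.constantCoeff (s.τ k b) := rfl

theorem ev_eq_zero_iff (s : Setup (K := K) (F := F) R n Q₀ E₀) (k : Fin s.g) (b : R) :
    ev s k b = 0 ↔ b ∈ (s.w k).asIdeal := by
  rw [ev_apply]
  rcases eq_or_ne b 0 with rfl | hb
  · simp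
  rw [← PowerSeries.X_dvd_iff, ← pow_one (PowerSeries.X : PowerSeries K), s.τ_dvd k b 1 hb,
    Fermat.Agent.S24.FF.mem_asIdeal_iff_ord_pos (K := K) (F := F) (s.w k) hb]
  constructor <;> intro h <;> omega

theorem exists_pole (htr : Algebra.trdeg K F = 1) (Q₀ : Place K F)
    (hR : ∀ v : Place K F, v ≠ Q₀ ↔
        ∃ w : HeightOneSpectrum R, Place.ofHeightOneSpectrum (K := K) (F := F) w = v) :
    ∃ xq : R, Q₀.ord (algebraMap R F xq) < 0 := by
  obtain ⟨x, -, hx⟩ := Model.exists_sole_pole htr Q₀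
  obtain ⟨b, hb⟩ := Model.exists_eq_algebraMap_of_ord_nonneg (K := K) (R := R) x (fun w => by
    by_contra hneg
    exact (hR _).mpr ⟨w, rfl⟩ ((hx _).mp (not_le.mp hneg)))
  exact ⟨b, by rw [hb]; exact (hx Q₀).mpr rfl⟩

theorem exists_sep (htr : Algebra.trdeg K F = 1) (s : Setup (K := K) (F := F) R n Q₀ E₀) :
    ∃ z : R, ∀ k k', k ≠ k' →
      PowerSeries.constantCoeff (s.τ k z) ≠ PowerSeries.constantCoeff (s.τ k' z) := by
  classical
  obtain ⟨z, hz⟩ := Model.exists_separating (K := K) (F := F) htr (Finset.univ.image s.w)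
  refine ⟨z, fun k k' hkk' => ?_⟩
  exact hz (ev s k) (ev s k') (s.w k) (Finset.mem_image_of_mem _ (Finset.mem_univ _)) (s.w k')
    (Finset.mem_image_of_mem _ (Finset.mem_univ _)) (fun h => hkk' (s.w_inj h))
    (ev_eq_zero_iff s k) (ev_eq_zero_iff s k')

theorem exists_avoid (s : Setup (K := K) (F := F) R n Q₀ E₀) :
    ∃ z' : R, (∀ k, PowerSeries.constantCoeff (s.τ k z') ≠ 0) ∧
      ∀ w : HeightOneSpectrum R, s.b₁ ∈ w.asIdeal → z' ∉ w.asIdeal → ∃ k, w = s.w k := by
  classical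
  have hfin : {w : HeightOneSpectrum R | w.asIdeal ∣ Ideal.span {s.b₁}}.Finite :=
    Ideal.finite_factors (by simpa using s.b₁_ne)
  obtain ⟨z', hz'0, hz'⟩ := Model.exists_ord_eq (K := K) (F := F)
    (hfin.toFinset ∪ Finset.univ.image s.w)
    (fun w => if w ∈ Finset.univ.image s.w then 0 else 1)
  refine ⟨z', fun k h0 => ?_, fun w hb hz => ?_⟩
  · have hk : s.w k ∈ Finset.univ.image s.w := Finset.mem_image_of_mem _ (Finset.mem_univ _)
    have h := hz' (s.w k) (Finset.mem_union_right _ hk)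
    rw [if_pos hk] at h
    have h1 := (ev_eq_zero_iff s k z').mp h0
    rw [Fermat.Agent.S24.FF.mem_asIdeal_iff_ord_pos (K := K) (F := F) (s.w k) hz'0, h] at h1
    exact lt_irrefl _ h1
  · by_contra hne
    have hw : w ∈ hfin.toFinset ∪ Finset.univ.image s.w := by
      refine Finset.mem_union_left _ ?_
      rw [Set.Finite.mem_toFinset]
      show w.asIdeal ∣ Ideal.span {s.b₁}
      rw [Ideal.dvd_iff_le, Ideal.span_singleton_le_iff_mem]
      exact hb
    have h := hz' w hw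
    have hnot : w ∉ Finset.univ.image s.w := fun hmem => by
      obtain ⟨k, -, hk⟩ := Finset.mem_image.mp hmem
      exact hne ⟨k, hk.symm⟩
    rw [if_neg hnot] at h
    exact hz ((Fermat.Agent.S24.FF.mem_asIdeal_iff_ord_pos (K := K) (F := F) w hz'0).mpr
      (by rw [h]; norm_num))

/-- The specialisation at one point: from a `K`-point `ψ` of the coefficient algebra `A'` lying
over the point `P`, the divisor `P - Q₀` is `n` times a divisor, up to a principal divisor. -/
theorem principal_of_specialisation (htr : Algebra.trdeg K F = 1) (n : ℕ) (hn : 0 < n)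
    (Q₀ : Place K F) (E₀ : Finset (Place K F)) (hQ : Q₀ ∉ E₀)
    (hR : ∀ v : Place K F, v ≠ Q₀ ↔
        ∃ w : HeightOneSpectrum R, Place.ofHeightOneSpectrum (K := K) (F := F) w = v)
    (s : Setup (K := K) (F := F) R n Q₀ E₀)
    (ι : PowerSeries K →ₐ[K] S) (e₀ : R →ₐ[K] S)
    (hgen : ∑ j, ι (s.c j) * e₀ (s.r j) = 0)
    (A' : Subalgebra K S) (G : Set R) (hG : Algebra.adjoin K G = ⊤)
    (hc : ∀ j, ι (s.c j) ∈ A')
    (hjet : ∀ k, ∀ a ∈ G, ∀ i < n + 1, jetS s ι k i a ∈ A')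
    (he₀ : ∀ b : R, e₀ b ∈ A')
    (z' z xq : R)
    (hz'b : ∀ w : HeightOneSpectrum R, s.b₁ ∈ w.asIdeal → z' ∉ w.asIdeal → ∃ k, w = s.w k)
    (hz'S : ∀ k, jetS s ι k 0 z' ≠ 0) (hz'A : ∀ k, (jetS s ι k 0 z')⁻¹ ∈ A')
    (hzS : ∀ k k', k ≠ k' → jetS s ι k 0 z ≠ jetS s ι k' 0 z)
    (hzA : ∀ k k', (jetS s ι k 0 z - jetS s ι k' 0 z)⁻¹ ∈ A')
    (hxS : ∀ k, jetS s ι k 0 xq ≠ e₀ xq)
    (hxA : ∀ k, (jetS s ι k 0 xq - e₀ xq)⁻¹ ∈ A')
    (P : Place K F) (hPQ : P ≠ Q₀) (hPE : P ∉ E₀)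
    (hPb : P.ord (algebraMap R F s.b₁) = 0)
    (wP : HeightOneSpectrum R) (hwP : Place.ofHeightOneSpectrum (K := K) (F := F) wP = P)
    (χP : R →ₐ[K] K) (hχP : ∀ b, χP b = 0 ↔ b ∈ wP.asIdeal)
    (ψ : ↥A' →ₐ[K] K) (hψ : ∀ b : R, ψ ⟨e₀ b, he₀ b⟩ = χP b) :
    ∃ D : Divisor K F, Finsupp.single P (1 : ℤ) - Finsupp.single Q₀ 1 - (n : ℤ) • D ∈
      Divisor.principal (K := K) (F := F) := by
  classical
  have hmem : ∀ k, ∀ a : R, ∀ i < n + 1, jetS s ι k i a ∈ A' := fun k =>
    IsJet.mem_of_gens (n + 1) (jetS s ι k) (isJet_jetS s ι k) A' G hG (hjet k)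
  -- the specialised coefficients
  set cψ : Fin (s.m + 1) → K := fun j => ψ ⟨ι (s.c j), hc j⟩ with hcψ
  have hcψ0 : cψ 0 = 1 := by
    have h1 : (⟨ι (s.c 0), hc 0⟩ : ↥A') = 1 := Subtype.ext (by simp [s.c_zero])
    show ψ ⟨ι (s.c 0), hc 0⟩ = 1
    rw [h1, map_one]
  have key : ∀ (y : Fin (s.m + 1) → S) (hy : ∀ j, y j ∈ A'),
      ∑ j, ι (s.c j) * y j = 0 → ∑ j, cψ j * ψ ⟨y j, hy j⟩ = 0 := by
    intro y hy h
    have h1 : ∑ j, (⟨ι (s.c j), hc j⟩ : ↥A') * ⟨y j, hy j⟩ = 0 := by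
      apply Subtype.ext
      rw [AddSubmonoidClass.coe_finsetSum]
      exact h
    have h2 := congrArg ψ h1
    rw [map_sum, map_zero] at h2
    rw [← h2]
    exact Finset.sum_congr rfl fun j _ => (map_mul ψ _ _).symm
  set Ψ : F := ∑ j, cψ j • s.v j with hΨ
  have hΨ0 : Ψ ≠ 0 := by
    intro h
    have h1 := Fintype.linearIndependent_iff.mp s.v_indep cψ h 0
    rw [hcψ0] at h1
    exact one_ne_zero h1
  have hΨL : Ψ ∈ riemannRochSpace ((n : ℤ) • ∑ v ∈ E₀, Finsupp.single v (1 : ℤ) +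
      Finsupp.single Q₀ 1) :=
    Submodule.sum_mem _ fun j _ => Submodule.smul_mem _ _ (s.v_mem j)
  set ρ : R := ∑ j, cψ j • s.r j with hρ
  have hρF : algebraMap R F ρ = algebraMap R F s.b₁ * Ψ := by
    rw [hρ, hΨ, map_sum, Finset.mul_sum]
    refine Finset.sum_congr rfl fun j _ => ?_
    rw [Algebra.smul_def, map_mul, ← IsScalarTower.algebraMap_apply, s.r_spec, Algebra.smul_def]
    ring
  have hb₁F : algebraMap R F s.b₁ ≠ 0 := fun h =>
    s.b₁_ne (IsFractionRing.injective R F (by rw [h, map_zero]))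
  have hρ0 : ρ ≠ 0 := by
    intro h
    rw [h, map_zero] at hρF
    exact mul_ne_zero hb₁F hΨ0 hρF.symm
  -- the generic equation at `P`
  have hχρ : χP ρ = 0 := by
    have h := key (fun j => e₀ (s.r j)) (fun j => he₀ _) hgen
    rw [hρ, map_sum, ← h]
    refine Finset.sum_congr rfl fun j _ => ?_
    rw [map_smul, smul_eq_mul, hψ]
  have hP : 1 ≤ P.ord (algebraMap R F s.b₁ * Ψ) := by
    have h1 := (Fermat.Agent.S24.FF.mem_asIdeal_iff_ord_pos (K := K) (F := F) wP hρ0).mp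
      ((hχP ρ).mp hχρ)
    rw [hwP, hρF] at h1
    omega
  -- the specialised jets
  choose Θ' hΘ' hΘ'spec using fun k =>
    IsJet.exists_comp (n + 1) (jetS s ι k) (isJet_jetS s ι k) A' (hmem k) ψ
  choose χ' hχ' using fun k => IsJet.exists_algHom (n + 1) (Nat.succ_pos n) (Θ' k) (hΘ' k)
  choose w' hw' using fun k => Model.exists_prime_of_point (F := F) htr (χ' k)
  have hχ'ψ : ∀ k (a : R), χ' k a = ψ ⟨jetS s ι k 0 a, hmem k a 0 (Nat.succ_pos n)⟩ :=
    fun k a => by rw [hχ' k, hΘ'spec k 0 (Nat.succ_pos n)]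
  have hpow : ∀ k, ρ ∈ (w' k).asIdeal ^ n := by
    intro k
    refine mem_pow_of_jet_eq_zero n (Θ' k) (isJet_mono (Nat.le_succ n) (hΘ' k)) (w' k)
      (fun b => by rw [hw' k, hχ' k]) (s.π k) ?_ ρ ?_
    · rw [hΘ'spec k 1 (by omega)]
      have h1 : (⟨jetS s ι k 1 (s.π k), hmem k _ 1 (by omega)⟩ : ↥A') = 1 :=
        Subtype.ext (jetS_one_π s ι k)
      rw [h1, map_one]
      exact one_ne_zero
    · intro i hi
      have hi' : i < n + 1 := by omega
      rw [hρ, map_sum,
        ← key (fun j => jetS s ι k i (s.r j)) (fun j => hmem k _ i hi') (jetS_jets s ι k i hi)]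
      refine Finset.sum_congr rfl fun j _ => ?_
      rw [map_smul, smul_eq_mul, hΘ'spec k i hi']
  have hE' : ∀ k, (n : ℤ) ≤
      (Place.ofHeightOneSpectrum (K := K) (F := F) (w' k)).ord (algebraMap R F s.b₁ * Ψ) := by
    intro k
    rcases (Model.mem_pow_iff_le_ord (K := K) (F := F) (w' k) n ρ).mp (hpow k) with h | h
    · exact absurd h hρ0
    · rwa [hρF] at h
  -- the specialised points avoid the extra zeros of `b₁`
  have hχz' : ∀ k, χ' k z' ≠ 0 := fun k => by
    rw [hχ'ψ]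
    exact apply_ne_zero_of_inv_mem A' ψ _ _ (hz'S k) (hz'A k)
  have hb₁E' : ∀ k, Place.ofHeightOneSpectrum (K := K) (F := F) (w' k) ∈ E₀ ∨
      (Place.ofHeightOneSpectrum (K := K) (F := F) (w' k)).ord (algebraMap R F s.b₁) = 0 := by
    intro k
    by_cases hb : s.b₁ ∈ (w' k).asIdeal
    · left
      obtain ⟨k₀, hk₀⟩ := hz'b (w' k) hb (fun h => hχz' k ((hw' k z').mp h))
      rw [hk₀]
      exact (s.mem_E₀ _).mpr ⟨k₀, rfl⟩
    · right
      have h1 := ord_nonneg_model (K := K) (F := F) (w' k) s.b₁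
      have h2 := (Fermat.Agent.S24.FF.mem_asIdeal_iff_ord_pos (K := K) (F := F) (w' k)
        s.b₁_ne).not.mp hb
      omega
  -- the specialised points are distinct
  have hinj : Function.Injective fun k => Place.ofHeightOneSpectrum (K := K) (F := F) (w' k) := by
    intro k k' hkk'
    by_contra hne
    have hw : w' k = w' k' :=
      Fermat.Agent.S24.FF.ofHeightOneSpectrum_injective (K := K) (F := F) hkk'
    have hχ : χ' k = χ' k' :=
      algHom_eq_of_ker _ _ fun b hb => (hw' k' b).mp (hw ▸ (hw' k b).mpr hb)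
    have h1 : ψ ⟨jetS s ι k 0 z - jetS s ι k' 0 z,
        A'.sub_mem (hmem k z 0 (Nat.succ_pos n)) (hmem k' z 0 (Nat.succ_pos n))⟩ ≠ 0 :=
      apply_ne_zero_of_inv_mem A' ψ _ _ (sub_ne_zero.mpr (hzS k k' hne)) (hzA k k')
    apply h1
    have h2 : (⟨jetS s ι k 0 z - jetS s ι k' 0 z,
        A'.sub_mem (hmem k z 0 (Nat.succ_pos n)) (hmem k' z 0 (Nat.succ_pos n))⟩ : ↥A') =
        ⟨jetS s ι k 0 z, hmem k z 0 (Nat.succ_pos n)⟩ -
          ⟨jetS s ι k' 0 z, hmem k' z 0 (Nat.succ_pos n)⟩ := rfl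
    rw [h2, map_sub, ← hχ'ψ, ← hχ'ψ, hχ, sub_self]
  -- ... and different from `P`
  have hE'P : ∀ k, Place.ofHeightOneSpectrum (K := K) (F := F) (w' k) ≠ P := by
    intro k hk
    have hw : w' k = wP :=
      Fermat.Agent.S24.FF.ofHeightOneSpectrum_injective (K := K) (F := F) (hk.trans hwP.symm)
    have hχ : χ' k = χP :=
      algHom_eq_of_ker _ _ fun b hb => (hχP b).mpr (hw ▸ (hw' k b).mpr hb)
    have h1 : ψ ⟨jetS s ι k 0 xq - e₀ xq,
        A'.sub_mem (hmem k xq 0 (Nat.succ_pos n)) (he₀ xq)⟩ ≠ 0 :=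
      apply_ne_zero_of_inv_mem A' ψ _ _ (sub_ne_zero.mpr (hxS k)) (hxA k)
    apply h1
    have h2 : (⟨jetS s ι k 0 xq - e₀ xq,
        A'.sub_mem (hmem k xq 0 (Nat.succ_pos n)) (he₀ xq)⟩ : ↥A') =
        ⟨jetS s ι k 0 xq, hmem k xq 0 (Nat.succ_pos n)⟩ - ⟨e₀ xq, he₀ xq⟩ := rfl
    rw [h2, map_sub, ← hχ'ψ, hψ, hχ, sub_self]
  have hcard : E₀.card = s.g := by
    have h1 : E₀ = Finset.univ.image
        (fun k => Place.ofHeightOneSpectrum (K := K) (F := F) (s.w k)) := by
      ext v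
      rw [s.mem_E₀, Finset.mem_image]
      constructor
      · rintro ⟨k, hk⟩
        exact ⟨k, Finset.mem_univ _, hk⟩
      · rintro ⟨k, -, hk⟩
        exact ⟨k, hk⟩
    have h2 := congrArg Finset.card h1
    have hinj0 : Function.Injective
        (fun k => Place.ofHeightOneSpectrum (K := K) (F := F) (s.w k)) := fun k k' hkk' =>
      s.w_inj (Fermat.Agent.S24.FF.ofHeightOneSpectrum_injective (K := K) (F := F) hkk')
    rw [Finset.card_image_of_injective _ hinj0, Finset.card_univ, Fintype.card_fin] at h2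
    exact h2
  exact principal_of_orders htr n s.g Q₀ P E₀ hcard hQ hPQ hPE
    (fun k => Place.ofHeightOneSpectrum (K := K) (F := F) (w' k)) hinj
    (fun k => (hR _).mpr ⟨w' k, rfl⟩) hE'P (algebraMap R F s.b₁) Ψ hb₁F hΨ0 hΨL
    (fun v hv => by obtain ⟨k, rfl⟩ := (s.mem_E₀ v).mp hv; exact s.ord_b₁ k) hPb hb₁E' hP hE'

end Setup

end Fermat.Agent.S17.D.Spec

namespace Fermat.Agent.S17.D

section Setup

variable {K F : Type*} [Field K] [Field F] [Algebra K F]
variable [IsAlgClosed K] [CharZero K] [Algebra.EssFiniteType K F]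
variable {R : Type*} [CommRing R] [IsDedekindDomain R] [Algebra R F] [IsFractionRing R F]
  [Algebra K R] [IsScalarTower K R F]

/-- (L2) specialisation of the setup at all but finitely many points. -/
theorem exists_finset_of_setup (htr : Algebra.trdeg K F = 1) [Algebra.FiniteType K R]
    (n : ℕ) (hn : 0 < n)
    (Q₀ : Place K F) (E₀ : Finset (Place K F)) (hQ : Q₀ ∉ E₀)
    (hR : ∀ v : Place K F, v ≠ Q₀ ↔
        ∃ w : HeightOneSpectrum R, Place.ofHeightOneSpectrum (K := K) (F := F) w = v)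
    (s : Setup (K := K) (F := F) R n Q₀ E₀) :
    ∃ S₀ : Finset (Place K F), ∀ P : Place K F, P ∉ S₀ →
      ∃ D : Divisor K F, Finsupp.single P (1 : ℤ) - Finsupp.single Q₀ 1 - (n : ℤ) • D ∈
        Divisor.principal (K := K) (F := F) := by
  classical
  obtain ⟨G, hG⟩ := (Algebra.FiniteType.out : (⊤ : Subalgebra K R).FG)
  obtain ⟨xq, hxq⟩ := Spec.exists_pole htr Q₀ hR
  obtain ⟨z', hz'c, hz'b⟩ := Spec.exists_avoid s
  obtain ⟨z, hz⟩ := Spec.exists_sep htr s
  let ι : PowerSeries K →ₐ[K] LaurentSeries K :=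
    { HahnSeries.ofPowerSeries ℤ K with commutes' := fun _ => rfl }
  have hι : Function.Injective ι := HahnSeries.ofPowerSeries_injective
  let e₀ : R →ₐ[K] LaurentSeries K := s.τL.comp (IsScalarTower.toAlgHom K R F)
  have he₀ : Function.Injective e₀ :=
    (s.τL : F →+* LaurentSeries K).injective.comp (IsFractionRing.injective R F)
  have hgen : ∑ j, ι (s.c j) * e₀ (s.r j) = 0 := by
    have h1 : ∀ j, ι (s.c j) * e₀ (s.r j) = s.τL (algebraMap R F s.b₁) *
        (HahnSeries.ofPowerSeries ℤ K (s.c j) * s.τL (s.v j)) := by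
      intro j
      show HahnSeries.ofPowerSeries ℤ K (s.c j) * s.τL (algebraMap R F (s.r j)) = _
      rw [s.r_spec, map_mul]
      ring
    rw [Finset.sum_congr rfl fun j _ => h1 j, ← Finset.mul_sum, s.generic, mul_zero]
  let T0 : Set (LaurentSeries K) :=
    Set.range (fun j => ι (s.c j)) ∪
    Set.range (fun p : Fin s.g × Fin (n + 1) × ↥G => Spec.jetS s ι p.1 p.2.1 p.2.2) ∪
    Set.range (fun k => (Spec.jetS s ι k 0 z')⁻¹) ∪
    Set.range (fun p : Fin s.g × Fin s.g => (Spec.jetS s ι p.1 0 z - Spec.jetS s ι p.2 0 z)⁻¹) ∪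
    Set.range (fun k => (Spec.jetS s ι k 0 xq - e₀ xq)⁻¹)
  have hT0 : T0.Finite := by
    refine Set.Finite.union (Set.Finite.union (Set.Finite.union (Set.Finite.union ?_ ?_) ?_) ?_) ?_
      <;> exact Set.finite_range _
  obtain ⟨h, hh0, hspec⟩ := SpecExt.exists_specialisation e₀ he₀ hT0.toFinset
  have hTA : ∀ x ∈ T0,
      x ∈ Algebra.adjoin K (Set.range e₀ ∪ (hT0.toFinset : Set (LaurentSeries K))) :=
    fun x hx => Algebra.subset_adjoin (Or.inr (by rw [Set.Finite.coe_toFinset]; exact hx))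
  have hhF : algebraMap R F h ≠ 0 := fun h0 =>
    hh0 (IsFractionRing.injective R F (by rw [h0, map_zero]))
  have hbF : algebraMap R F s.b₁ ≠ 0 := fun h0 =>
    s.b₁_ne (IsFractionRing.injective R F (by rw [h0, map_zero]))
  have hfin := Fermat.Agent.S24.FF.support_ord_finite htr (mul_ne_zero hhF hbF)
  refine ⟨insert Q₀ (E₀ ∪ hfin.toFinset), fun P hP => ?_⟩
  simp only [Finset.mem_insert, Finset.mem_union, Set.Finite.mem_toFinset, Set.mem_ofPred_eq,
    not_or, not_not] at hP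
  obtain ⟨hPQ, hPE, hPord⟩ := hP
  obtain ⟨wP, hwP⟩ := (hR P).mp hPQ
  obtain ⟨χP, hχP⟩ := Model.exists_point (F := F) htr wP
  rw [P.ord_mul hhF hbF] at hPord
  have h1 : 0 ≤ P.ord (algebraMap R F h) := hwP ▸ Spec.ord_nonneg_model (K := K) (F := F) wP h
  have h2 : 0 ≤ P.ord (algebraMap R F s.b₁) :=
    hwP ▸ Spec.ord_nonneg_model (K := K) (F := F) wP s.b₁
  have hPh : P.ord (algebraMap R F h) = 0 := by omega
  have hPb : P.ord (algebraMap R F s.b₁) = 0 := by omega
  have hχh : χP h ≠ 0 := by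
    rw [Ne, hχP, Fermat.Agent.S24.FF.mem_asIdeal_iff_ord_pos (K := K) (F := F) wP hh0, hwP, hPh]
    exact lt_irrefl 0
  obtain ⟨ψ, hψ⟩ := hspec χP hχh
  exact Spec.principal_of_specialisation htr n hn Q₀ E₀ hQ hR s ι e₀ hgen _ (G : Set R) hG
    (fun j => hTA _ (Or.inl (Or.inl (Or.inl (Or.inl ⟨j, rfl⟩)))))
    (fun k a ha i hi => hTA _ (Or.inl (Or.inl (Or.inl (Or.inr ⟨(k, ⟨i, hi⟩, ⟨a, ha⟩), rfl⟩)))))
    (fun b => Algebra.subset_adjoin (Or.inl ⟨b, rfl⟩))
    z' z xq hz'b
    (fun k => Spec.jetS_zero_ne_zero s ι hι k z' (hz'c k))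
    (fun k => hTA _ (Or.inl (Or.inl (Or.inr ⟨k, rfl⟩))))
    (fun k k' hkk' => Spec.jetS_zero_ne s ι hι k k' z (hz k k' hkk'))
    (fun k k' => hTA _ (Or.inl (Or.inr ⟨(k, k'), rfl⟩)))
    (fun k => by
      rw [Spec.jetS_zero]
      refine Spec.ofPowerSeries_ne_of_order_neg _ _ ?_
      have hx0 : algebraMap R F xq ≠ 0 := by
        intro h0
        rw [h0, Place.ord_zero] at hxq
        exact lt_irrefl _ hxq
      show (s.τL (algebraMap R F xq)).order < 0
      rw [s.order_τL _ hx0]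
      exact hxq)
    (fun k => hTA _ (Or.inr ⟨k, rfl⟩))
    P hPQ hPE hPb wP hwP χP hχP ψ hψ

end Setup

end Fermat.Agent.S17.D
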