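import Mathlib
import Fermat.Agent.S17.D.Model
import Fermat.Agent.S17.D.Setup
import Fermat.Agent.S17.D.Spec

/-!
# Program MW (statement S17), strand D, leaf Generic: the generic-point statement

`exists_finset_forall_principal`: for `0 < n`, a place `Q₀` and a non-special reduced divisor
`E₀` off `Q₀` with `(n - 1) * card E₀ + 2 ≤ l(n E₀ + Q₀)`, the class of `P - Q₀` is `n` times a
divisor class for all but finitely many places `P`.

It is the composition of the three leaves of the assembly:

* `Model.exists_model` : a model `R` of the curve minus `Q₀` (a Dedekind domain of finite type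
  over `K` whose places are the places `≠ Q₀`);
* `nonempty_setup` : the setup for `R`, `Q₀`, `E₀` (auxiliary functions, Taylor maps and the
  formal solution);
* `exists_finset_of_setup` : specialisation of the setup at all but finitely many points.
-/

set_option autoImplicit false

open AlgebraicCurve

namespace Fermat.Agent.S17.D

section Assembly

variable {K F : Type*} [Field K] [Field F] [Algebra K F]
variable [IsAlgClosed K] [CharZero K] [Algebra.EssFiniteType K F]

theorem exists_finset_forall_principal (htr : Algebra.trdeg K F = 1) (n : ℕ) (hn : 0 < n)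
    (Q₀ : Place K F) (E₀ : Finset (Place K F)) (hQ : Q₀ ∉ E₀)
    (hE : Module.finrank K ↥(riemannRochSpace (∑ v ∈ E₀, Finsupp.single v (1 : ℤ))) = 1)
    (hdim : (n - 1) * E₀.card + 2 ≤ Module.finrank K
      ↥(riemannRochSpace ((n : ℤ) • ∑ v ∈ E₀, Finsupp.single v (1 : ℤ) + Finsupp.single Q₀ 1))) :
    ∃ S₀ : Finset (Place K F), ∀ P : Place K F, P ∉ S₀ →
      ∃ D : Divisor K F, Finsupp.single P (1 : ℤ) - Finsupp.single Q₀ 1 - (n : ℤ) • D ∈
        Divisor.principal (K := K) (F := F) := by
  obtain ⟨R, _, _, _, _, _, _, _, hR⟩ := Model.exists_model htr Q₀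
  obtain ⟨s⟩ := nonempty_setup htr n hn Q₀ E₀ hQ hR hE hdim
  exact exists_finset_of_setup htr n hn Q₀ E₀ hQ hR s

end Assembly

end Fermat.Agent.S17.D
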