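import Mathlib
import Fermat.Agent.S17.D.DivisibleOfGeneric
import Fermat.Agent.S17.D.Generic

/-!
# Program MW (statement S17), strand D: the exit

`divisible`: `JZero N` is `l`-divisible for every prime `l` (the contract statement
`Fermat.Agent.S17.Divisible N`, with `L₀ = 0`).

It is `divisible_of_generic` (the moving lemma and the non-special pool, D0 + D6) applied to the
generic-point statement `exists_finset_forall_principal` (D1 - D5) for the function field of
`X₀(N)` over the algebraic closure of the rationals.
-/

set_option autoImplicit false
set_option linter.unusedVariables false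

namespace Fermat.Agent.S17.D

theorem divisible (N : ℕ) [NeZero N] (hN : N.Prime) (hN5 : 5 ≤ N) : Divisible N :=
  divisible_of_generic N fun n hn Q₀ E₀ hQ hE hdim =>
    exists_finset_forall_principal (Fermat.Agent.S30.HeckeInputs.trdeg_bar N) n hn Q₀ E₀ hQ hE hdim

end Fermat.Agent.S17.D
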