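/-
PROGRAM MW, strand D, leaf D2c (helper34; ordered by the acting D lead, D WORD #2 (4)).

Adic completeness of finite products and the contraction principle on `ι → K⟦X⟧`.
The abstract contraction principle is the landed
`Fermat.Agent.S56.LF.Root.exists_fixed_point` (an ARBITRARY map of an adically
complete module that improves congruences has a fixed point); Mathlib has the
instance `IsAdicComplete (span {X}) K⟦X⟧` but no finite-product instance.

* `apply_mem_smul_top`, `mem_smul_top_of_apply`, `mem_smul_top_pi_iff`: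
  membership in `J • ⊤` of a finite product is componentwise;
* instances `isHausdorff_pi`, `isPrecomplete_pi`, `isAdicComplete_pi`;
* `mem_pow_smul_top_iff_dvd`: in `ι → K⟦X⟧`, `f ∈ (X) ^ n • ⊤ ↔ ∀ i, X ^ n ∣ f i`;
* `exists_fixed_point_pi`, `fixed_point_pi_unique`, `existsUnique_fixed_point_pi`:
  an `X`-adic contraction of `ι → K⟦X⟧` has exactly one fixed point;
* `existsUnique_fixed_point_pi_of_dvd`: the same for a map that is only a contraction on
  the vectors with all components divisible by `X` (unknowns without constant term).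
-/
import Mathlib
import Fermat.Agent.S56.LF.Root

namespace Fermat.Agent.S17.D.AdicPi

section Pi

variable {S : Type*} [CommRing S] {ι : Type*} {M : ι → Type*}
  [∀ i, AddCommGroup (M i)] [∀ i, Module S (M i)]

/-- Components of an element of `J • ⊤` lie in `J • ⊤`. -/
theorem apply_mem_smul_top (J : Ideal S) {f : ∀ i, M i}
    (hf : f ∈ (J • ⊤ : Submodule S (∀ i, M i))) (i : ι) :
    f i ∈ (J • ⊤ : Submodule S (M i)) := by
  have h : (J • ⊤ : Submodule S (∀ i, M i)).map (LinearMap.proj i) ≤
      (J • ⊤ : Submodule S (M i)) := by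
    rw [Submodule.map_smul'']
    exact Submodule.smul_mono le_rfl le_top
  exact h (Submodule.mem_map_of_mem hf)

/-- For a finite product, an element all of whose components lie in `J • ⊤` lies in `J • ⊤`. -/
theorem mem_smul_top_of_apply [Finite ι] (J : Ideal S) {f : ∀ i, M i}
    (hf : ∀ i, f i ∈ (J • ⊤ : Submodule S (M i))) :
    f ∈ (J • ⊤ : Submodule S (∀ i, M i)) := by
  classical
  cases nonempty_fintype ι
  have hsingle : ∀ i, Pi.single i (f i) ∈ (J • ⊤ : Submodule S (∀ i, M i)) := by
    intro i
    have h : (J • ⊤ : Submodule S (M i)).map (LinearMap.single S M i) ≤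
        (J • ⊤ : Submodule S (∀ i, M i)) := by
      rw [Submodule.map_smul'']
      exact Submodule.smul_mono le_rfl le_top
    exact h (Submodule.mem_map_of_mem (hf i))
  rw [← Finset.univ_sum_single f]
  exact Submodule.sum_mem _ fun i _ => hsingle i

theorem mem_smul_top_pi_iff [Finite ι] (J : Ideal S) {f : ∀ i, M i} :
    f ∈ (J • ⊤ : Submodule S (∀ i, M i)) ↔ ∀ i, f i ∈ (J • ⊤ : Submodule S (M i)) :=
  ⟨fun h i => apply_mem_smul_top J h i, mem_smul_top_of_apply J⟩

/-- A product of Hausdorff modules is Hausdorff (no finiteness needed). -/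
instance isHausdorff_pi (I : Ideal S) [∀ i, IsHausdorff I (M i)] :
    IsHausdorff I (∀ i, M i) where
  haus' f hf := by
    funext i
    apply IsHausdorff.haus (I := I) (M := M i) inferInstance
    intro n
    have h := hf n
    rw [SModEq.sub_mem, sub_zero] at h ⊢
    exact apply_mem_smul_top (I ^ n) h i

/-- A finite product of precomplete modules is precomplete. -/
instance isPrecomplete_pi [Finite ι] (I : Ideal S) [∀ i, IsPrecomplete I (M i)] :
    IsPrecomplete I (∀ i, M i) where
  prec' f hf := by
    have h : ∀ i, ∃ L : M i, ∀ n, f n i ≡ L [SMOD (I ^ n • ⊤ : Submodule S (M i))] := by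
      intro i
      apply IsPrecomplete.prec (I := I) (M := M i) inferInstance (f := fun n => f n i)
      intro m n hmn
      have h1 := hf hmn
      rw [SModEq.sub_mem] at h1 ⊢
      exact apply_mem_smul_top (I ^ m) h1 i
    choose L hL using h
    refine ⟨L, fun n => ?_⟩
    rw [SModEq.sub_mem]
    apply mem_smul_top_of_apply
    intro i
    have h2 := hL i n
    rw [SModEq.sub_mem] at h2
    exact h2

/-- A finite product of adically complete modules is adically complete. -/
instance isAdicComplete_pi [Finite ι] (I : Ideal S) [∀ i, IsAdicComplete I (M i)] :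
    IsAdicComplete I (∀ i, M i) :=
  { toIsHausdorff := isHausdorff_pi I
    toIsPrecomplete := isPrecomplete_pi I }

end Pi

section PowerSeries

variable {K : Type*} [CommRing K] {ι : Type*} [Finite ι]

/-- In `ι → K⟦X⟧`, membership in `(X) ^ n • ⊤` is divisibility of every component by `X ^ n`. -/
theorem mem_pow_smul_top_iff_dvd (n : ℕ) (f : ι → PowerSeries K) :
    f ∈ ((Ideal.span {(PowerSeries.X : PowerSeries K)}) ^ n • ⊤ :
        Submodule (PowerSeries K) (ι → PowerSeries K)) ↔
      ∀ i, (PowerSeries.X : PowerSeries K) ^ n ∣ f i := by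
  rw [mem_smul_top_pi_iff]
  refine forall_congr' fun i => ?_
  rw [Ideal.span_singleton_pow, smul_eq_mul, Ideal.mul_top, Ideal.mem_span_singleton]

/-- **Contraction principle on `ι → K⟦X⟧`.**  A map (an arbitrary function) that improves
congruences modulo `X ^ n` to congruences modulo `X ^ (n + 1)` has a fixed point. -/
theorem exists_fixed_point_pi (Φ : (ι → PowerSeries K) → (ι → PowerSeries K))
    (hΦ : ∀ (n : ℕ) (a b : ι → PowerSeries K),
      (∀ i, (PowerSeries.X : PowerSeries K) ^ n ∣ a i - b i) →
      ∀ i, (PowerSeries.X : PowerSeries K) ^ (n + 1) ∣ Φ a i - Φ b i) :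
    ∃ Y : ι → PowerSeries K, Φ Y = Y := by
  refine Fermat.Agent.S56.LF.Root.exists_fixed_point
    (Ideal.span {(PowerSeries.X : PowerSeries K)}) Φ ?_
  intro n a b hab
  rw [mem_pow_smul_top_iff_dvd] at hab ⊢
  exact hΦ n a b hab

/-- The fixed point of an `X`-adic contraction of `ι → K⟦X⟧` is unique. -/
theorem fixed_point_pi_unique (Φ : (ι → PowerSeries K) → (ι → PowerSeries K))
    (hΦ : ∀ (n : ℕ) (a b : ι → PowerSeries K),
      (∀ i, (PowerSeries.X : PowerSeries K) ^ n ∣ a i - b i) →
      ∀ i, (PowerSeries.X : PowerSeries K) ^ (n + 1) ∣ Φ a i - Φ b i)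
    {Y Y' : ι → PowerSeries K} (hY : Φ Y = Y) (hY' : Φ Y' = Y') : Y = Y' := by
  refine Fermat.Agent.S56.LF.Root.fixed_point_unique
    (Ideal.span {(PowerSeries.X : PowerSeries K)}) Φ ?_ hY hY'
  intro n a b hab
  rw [mem_pow_smul_top_iff_dvd] at hab ⊢
  exact hΦ n a b hab

theorem existsUnique_fixed_point_pi (Φ : (ι → PowerSeries K) → (ι → PowerSeries K))
    (hΦ : ∀ (n : ℕ) (a b : ι → PowerSeries K),
      (∀ i, (PowerSeries.X : PowerSeries K) ^ n ∣ a i - b i) →
      ∀ i, (PowerSeries.X : PowerSeries K) ^ (n + 1) ∣ Φ a i - Φ b i) :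
    ∃! Y : ι → PowerSeries K, Φ Y = Y := by
  obtain ⟨Y, hY⟩ := exists_fixed_point_pi Φ hΦ
  exact ⟨Y, hY, fun Y' hY' => fixed_point_pi_unique Φ hΦ hY' hY⟩

/-- Removing the constant terms: `x ↦ x - C (constantCoeff x)` componentwise. -/
noncomputable def dropConst (x : ι → PowerSeries K) : ι → PowerSeries K :=
  fun i => x i - PowerSeries.C (PowerSeries.constantCoeff (x i))

omit [Finite ι] in
theorem X_dvd_dropConst (x : ι → PowerSeries K) (i : ι) :
    (PowerSeries.X : PowerSeries K) ∣ dropConst x i := by
  rw [PowerSeries.X_dvd_iff]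
  simp [dropConst]

omit [Finite ι] in
theorem dropConst_eq_self {x : ι → PowerSeries K}
    (hx : ∀ i, (PowerSeries.X : PowerSeries K) ∣ x i) : dropConst x = x := by
  funext i
  have h := hx i
  rw [PowerSeries.X_dvd_iff] at h
  simp [dropConst, h]

omit [Finite ι] in
theorem X_pow_dvd_dropConst_sub {n : ℕ} {a b : ι → PowerSeries K}
    (hab : ∀ i, (PowerSeries.X : PowerSeries K) ^ n ∣ a i - b i) (i : ι) :
    (PowerSeries.X : PowerSeries K) ^ n ∣ dropConst a i - dropConst b i := by
  rcases Nat.eq_zero_or_pos n with rfl | hn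
  · simp
  · have h := hab i
    have h0 : PowerSeries.constantCoeff (a i - b i) = 0 := by
      rw [PowerSeries.X_pow_dvd_iff] at h
      have := h 0 hn
      simpa using this
    have h1 : PowerSeries.constantCoeff (a i) = PowerSeries.constantCoeff (b i) := by
      rw [map_sub] at h0
      exact sub_eq_zero.mp h0
    have h2 : dropConst a i - dropConst b i = a i - b i := by
      simp only [dropConst, h1]
      ring
    rw [h2]
    exact h

/-- **Contraction principle for unknowns without constant term.**  If `Φ` preserves the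
vectors with all components divisible by `X` and is an `X`-adic contraction on them, then it
has exactly one fixed point among them. -/
theorem existsUnique_fixed_point_pi_of_dvd (Φ : (ι → PowerSeries K) → (ι → PowerSeries K))
    (hmaps : ∀ x : ι → PowerSeries K, (∀ i, (PowerSeries.X : PowerSeries K) ∣ x i) →
      ∀ i, (PowerSeries.X : PowerSeries K) ∣ Φ x i)
    (hΦ : ∀ (n : ℕ) (a b : ι → PowerSeries K),
      (∀ i, (PowerSeries.X : PowerSeries K) ∣ a i) →
      (∀ i, (PowerSeries.X : PowerSeries K) ∣ b i) →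
      (∀ i, (PowerSeries.X : PowerSeries K) ^ n ∣ a i - b i) →
      ∀ i, (PowerSeries.X : PowerSeries K) ^ (n + 1) ∣ Φ a i - Φ b i) :
    ∃! Y : ι → PowerSeries K, (∀ i, (PowerSeries.X : PowerSeries K) ∣ Y i) ∧ Φ Y = Y := by
  have hΨ : ∀ (n : ℕ) (a b : ι → PowerSeries K),
      (∀ i, (PowerSeries.X : PowerSeries K) ^ n ∣ a i - b i) →
      ∀ i, (PowerSeries.X : PowerSeries K) ^ (n + 1) ∣
        Φ (dropConst a) i - Φ (dropConst b) i := fun n a b hab =>
    hΦ n (dropConst a) (dropConst b) (X_dvd_dropConst a) (X_dvd_dropConst b)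
      (X_pow_dvd_dropConst_sub hab)
  obtain ⟨Y, hY⟩ := exists_fixed_point_pi (fun x => Φ (dropConst x)) hΨ
  have hYdvd : ∀ i, (PowerSeries.X : PowerSeries K) ∣ Y i := by
    intro i
    have h := hmaps (dropConst Y) (X_dvd_dropConst Y) i
    have hY' : Φ (dropConst Y) = Y := hY
    rwa [hY'] at h
  have hYfix : Φ Y = Y := by
    have hY' : Φ (dropConst Y) = Y := hY
    rwa [dropConst_eq_self hYdvd] at hY'
  refine ⟨Y, ⟨hYdvd, hYfix⟩, ?_⟩
  rintro Z ⟨hZdvd, hZfix⟩
  have hZ' : (fun x => Φ (dropConst x)) Z = Z := by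
    show Φ (dropConst Z) = Z
    rw [dropConst_eq_self hZdvd]
    exact hZfix
  exact fixed_point_pi_unique (fun x => Φ (dropConst x)) hΨ hZ' hY

end PowerSeries

end Fermat.Agent.S17.D.AdicPi
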