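import Mathlib
import Fermat.Agent.S17.D.Move
import Fermat.Agent.S17.R.Riemann
import Fermat.Agent.S17.R.NonSpecialStep
import Fermat.Agent.S17.R.Places

/-!
# Program MW (statement S17), strand D: divisibility of `Pic0` from the generic leaf

The end of the spine of strand D, with the generic leaf (`exists_finset_forall_principal`
of the D interface, file `D/Generic.lean`) as a HYPOTHESIS `hgen`, so that this file builds
before `D/Generic.lean` exists:

* `pic0_divisible_of_generic_of_inputs` : the literal `pic0_divisible` of the D interface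
  (Riemann's inequality `hR` and the non-special pool `hNS` as hypotheses) from `hgen`;
* `pic0_divisible_of_generic` : the same with the two inputs of strand R plugged in
  (`R.riemann_inequality`, `R.exists_distinct_nonspecial` + `R.riemann_eq_of_large`).

Proof: pick a place `Q₀`, a non-special `E₀` of `gR` places avoiding `Q₀`; Riemann's inequality
for `n E₀ + Q₀` gives the dimension hypothesis `(n - 1) g + 2 ≤ l(n E₀ + Q₀)` of `hgen`; `hgen`
gives `P - Q₀ ∈ n Div + principal` for all but finitely many `P`; the moving lemma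
`Move.divisible_of_forall_sub_mem_principal` concludes.
-/

set_option autoImplicit false

namespace Fermat.Agent.S17.D.DivisibleCore

open AlgebraicCurve

variable {K F : Type*} [Field K] [Field F] [Algebra K F]
variable [IsAlgClosed K] [CharZero K] [Algebra.EssFiniteType K F]

/-- The dimension hypothesis of the generic leaf, from Riemann's inequality. -/
theorem dim_le_of_riemann (htr : Algebra.trdeg K F = 1)
    (hR : ∀ D : Divisor K F, Divisor.degree D + 1 - (R.gR K F : ℤ) ≤
      (Module.finrank K ↥(riemannRochSpace D) : ℤ))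
    (n : ℕ) (hn : 0 < n) (Q₀ : Place K F) (E₀ : Finset (Place K F))
    (hcard : E₀.card = R.gR K F) :
    (n - 1) * E₀.card + 2 ≤ Module.finrank K
      ↥(riemannRochSpace ((n : ℤ) • ∑ v ∈ E₀, Finsupp.single v (1 : ℤ) + Finsupp.single Q₀ 1)) := by
  have h := hR ((n : ℤ) • ∑ v ∈ E₀, Finsupp.single v (1 : ℤ) + Finsupp.single Q₀ 1)
  rw [map_add, map_zsmul, R.NonSpecialStep.degree_sum_single htr, R.NonSpecialStep.degree_single_one htr, hcard,
    smul_eq_mul] at h
  rw [hcard]
  obtain ⟨n', rfl⟩ : ∃ n', n = n' + 1 := ⟨n - 1, by omega⟩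
  rw [Nat.add_sub_cancel]
  have h2 : ((n' * R.gR K F + 2 : ℕ) : ℤ) ≤ (Module.finrank K
      ↥(riemannRochSpace (((n' + 1 : ℕ) : ℤ) • ∑ v ∈ E₀, Finsupp.single v (1 : ℤ)
        + Finsupp.single Q₀ 1)) : ℤ) := by
    push_cast at h ⊢
    linarith
  exact_mod_cast h2

/-- **`Pic0` is `n`-divisible**, from the generic leaf at `n` (hypothesis `hgen`), Riemann's
inequality (`hR`) and the non-special pool (`hNS`): the literal `pic0_divisible` of the D
interface. -/
theorem pic0_divisible_of_generic_of_inputs (htr : Algebra.trdeg K F = 1)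
    (hR : ∀ D : Divisor K F, Divisor.degree D + 1 - (R.gR K F : ℤ) ≤
      (Module.finrank K ↥(riemannRochSpace D) : ℤ))
    (hNS : ∀ S : Finset (Place K F), ∃ E₀ : Finset (Place K F), E₀.card = R.gR K F ∧
      Disjoint E₀ S ∧
      Module.finrank K ↥(riemannRochSpace (∑ v ∈ E₀, Finsupp.single v (1 : ℤ))) = 1)
    (n : ℕ) (hn : 0 < n)
    (hgen : ∀ (Q₀ : Place K F) (E₀ : Finset (Place K F)), Q₀ ∉ E₀ →
      Module.finrank K ↥(riemannRochSpace (∑ v ∈ E₀, Finsupp.single v (1 : ℤ))) = 1 →
      (n - 1) * E₀.card + 2 ≤ Module.finrank K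
        ↥(riemannRochSpace ((n : ℤ) • ∑ v ∈ E₀, Finsupp.single v (1 : ℤ)
          + Finsupp.single Q₀ 1)) →
      ∃ S₀ : Finset (Place K F), ∀ P : Place K F, P ∉ S₀ →
        ∃ D : Divisor K F, Finsupp.single P (1 : ℤ) - Finsupp.single Q₀ 1 - (n : ℤ) • D ∈
          Divisor.principal (K := K) (F := F))
    (x : Pic0 K F) : ∃ y : Pic0 K F, n • y = x := by
  classical
  obtain ⟨Q₀⟩ := R.nonempty_place (K := K) (F := F) htr
  obtain ⟨E₀, hcard, hdisj, hE⟩ := hNS {Q₀}
  have hQ : Q₀ ∉ E₀ := fun h =>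
    (Finset.disjoint_left.mp hdisj h) (Finset.mem_singleton_self Q₀)
  obtain ⟨S₀, hS₀⟩ := hgen Q₀ E₀ hQ hE (dim_le_of_riemann htr hR n hn Q₀ E₀ hcard)
  exact Move.divisible_of_forall_sub_mem_principal htr hn S₀ Q₀ hS₀ x

/-- The non-special pool in the shape of the D interface, from strand R. -/
theorem exists_nonspecial_disjoint (htr : Algebra.trdeg K F = 1) (S : Finset (Place K F)) :
    ∃ E₀ : Finset (Place K F), E₀.card = R.gR K F ∧ Disjoint E₀ S ∧
      Module.finrank K ↥(riemannRochSpace (∑ v ∈ E₀, Finsupp.single v (1 : ℤ))) = 1 := by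
  obtain ⟨s, hs, hdisj, hfin⟩ := R.exists_distinct_nonspecial htr (R.riemann_eq_of_large htr)
    (S : Set (Place K F)) S.finite_toSet
  exact ⟨s, hs, Finset.disjoint_left.mpr fun P hP hPS => hdisj P hP (Finset.mem_coe.mpr hPS),
    hfin⟩

/-- **`Pic0` is `n`-divisible** from the generic leaf at `n` alone. -/
theorem pic0_divisible_of_generic (htr : Algebra.trdeg K F = 1) (n : ℕ) (hn : 0 < n)
    (hgen : ∀ (Q₀ : Place K F) (E₀ : Finset (Place K F)), Q₀ ∉ E₀ →
      Module.finrank K ↥(riemannRochSpace (∑ v ∈ E₀, Finsupp.single v (1 : ℤ))) = 1 →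
      (n - 1) * E₀.card + 2 ≤ Module.finrank K
        ↥(riemannRochSpace ((n : ℤ) • ∑ v ∈ E₀, Finsupp.single v (1 : ℤ)
          + Finsupp.single Q₀ 1)) →
      ∃ S₀ : Finset (Place K F), ∀ P : Place K F, P ∉ S₀ →
        ∃ D : Divisor K F, Finsupp.single P (1 : ℤ) - Finsupp.single Q₀ 1 - (n : ℤ) • D ∈
          Divisor.principal (K := K) (F := F))
    (x : Pic0 K F) : ∃ y : Pic0 K F, n • y = x :=
  pic0_divisible_of_generic_of_inputs htr (R.riemann_inequality htr)
    (exists_nonspecial_disjoint htr) n hn hgen x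

end Fermat.Agent.S17.D.DivisibleCore
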