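import Fermat.Agent.S17.Contract
import Fermat.Agent.S17.D.DivisibleCore
import Fermat.Agent.S30.HeckeInputs

/-!
# Program MW (statement S17), strand D: the exit, from the generic leaf

`divisible_of_generic N : Divisible N` (the Prop of `S17/Contract.lean`, with `L₀ = 0`), with the
generic leaf of strand D (`exists_finset_forall_principal` of the D interface, for
`K = ℚ̄`, `F = modularFunctionFieldBar N`) as a HYPOTHESIS, so that this file builds before
`D/Generic.lean` exists.  The exit `D/Exit.lean` is then one line.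
-/

set_option autoImplicit false

open ModularCurve AlgebraicCurve

namespace Fermat.Agent.S17.D.ExitCore

/-- **Strand D exit, from the generic leaf**: `JZero N` is `l`-divisible for every prime `l`
(indeed for every `l > 0`). -/
theorem divisible_of_generic (N : ℕ) [NeZero N]
    (hgen : ∀ n : ℕ, 0 < n →
      ∀ (Q₀ : Place (AlgebraicClosure ℚ) ↥(modularFunctionFieldBar N))
        (E₀ : Finset (Place (AlgebraicClosure ℚ) ↥(modularFunctionFieldBar N))), Q₀ ∉ E₀ →
      Module.finrank (AlgebraicClosure ℚ)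
        ↥(riemannRochSpace (∑ v ∈ E₀, Finsupp.single v (1 : ℤ))) = 1 →
      (n - 1) * E₀.card + 2 ≤ Module.finrank (AlgebraicClosure ℚ)
        ↥(riemannRochSpace ((n : ℤ) • ∑ v ∈ E₀, Finsupp.single v (1 : ℤ)
          + Finsupp.single Q₀ 1)) →
      ∃ S₀ : Finset (Place (AlgebraicClosure ℚ) ↥(modularFunctionFieldBar N)),
        ∀ P : Place (AlgebraicClosure ℚ) ↥(modularFunctionFieldBar N), P ∉ S₀ →
        ∃ D : Divisor (AlgebraicClosure ℚ) ↥(modularFunctionFieldBar N),
          Finsupp.single P (1 : ℤ) - Finsupp.single Q₀ 1 - (n : ℤ) • D ∈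
            Divisor.principal (K := AlgebraicClosure ℚ) (F := ↥(modularFunctionFieldBar N))) :
    Divisible N :=
  ⟨0, fun l hl _ x => DivisibleCore.pic0_divisible_of_generic
    (Fermat.Agent.S30.HeckeInputs.trdeg_bar N) l hl.pos (hgen l hl.pos) x⟩

/-- One positive integer at a time (no primality needed). -/
theorem exists_nsmul_eq_of_generic (N : ℕ) [NeZero N] (n : ℕ) (hn : 0 < n)
    (hgen : ∀ (Q₀ : Place (AlgebraicClosure ℚ) ↥(modularFunctionFieldBar N))
        (E₀ : Finset (Place (AlgebraicClosure ℚ) ↥(modularFunctionFieldBar N))), Q₀ ∉ E₀ →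
      Module.finrank (AlgebraicClosure ℚ)
        ↥(riemannRochSpace (∑ v ∈ E₀, Finsupp.single v (1 : ℤ))) = 1 →
      (n - 1) * E₀.card + 2 ≤ Module.finrank (AlgebraicClosure ℚ)
        ↥(riemannRochSpace ((n : ℤ) • ∑ v ∈ E₀, Finsupp.single v (1 : ℤ)
          + Finsupp.single Q₀ 1)) →
      ∃ S₀ : Finset (Place (AlgebraicClosure ℚ) ↥(modularFunctionFieldBar N)),
        ∀ P : Place (AlgebraicClosure ℚ) ↥(modularFunctionFieldBar N), P ∉ S₀ →
        ∃ D : Divisor (AlgebraicClosure ℚ) ↥(modularFunctionFieldBar N),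
          Finsupp.single P (1 : ℤ) - Finsupp.single Q₀ 1 - (n : ℤ) • D ∈
            Divisor.principal (K := AlgebraicClosure ℚ) (F := ↥(modularFunctionFieldBar N)))
    (x : JZero N) : ∃ y : JZero N, n • y = x :=
  DivisibleCore.pic0_divisible_of_generic (Fermat.Agent.S30.HeckeInputs.trdeg_bar N) n hn hgen x

end Fermat.Agent.S17.D.ExitCore
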