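import Mathlib
import Fermat.Agent.S17.D.Hasse

/-!
# Program MW (statement S17), strand D: calculus of jets (`IsJet`)

Level-free lemmas about jets `Θ : ℕ → A →ₗ[K] R` of order `n` (`IsJet n Θ`, `D/Hasse.lean`),
used by the assembly D5 to specialise the moving jets:

* `IsJet.map_mul_zero`, `IsJet.map_one_of_pos`, `IsJet.map_algebraMap` : basic rules;
* `IsJet.comp` : a jet composed with a `K`-algebra hom of the value ring is a jet;
* `IsJet.mem_of_generators` : a jet takes values in a subalgebra `A'` of the value ring as soon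
  as it does so on generators of `A`;
* `IsJet.exists_codRestrict` : the corestricted jet `A → A'`.

Mathlib only (on top of `Hasse.lean`).
-/

set_option autoImplicit false

namespace Fermat.Agent.S17.D

namespace IsJet

variable {K A R : Type*} [CommRing K] [CommRing A] [Algebra K A] [CommRing R] [Algebra K R]
variable {n : ℕ} {Θ : ℕ → A →ₗ[K] R}

/-- The order-zero part of a jet of positive order is multiplicative. -/
theorem map_mul_zero (hΘ : IsJet n Θ) (hn : 0 < n) (a b : A) :
    Θ 0 (a * b) = Θ 0 a * Θ 0 b := by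
  have h := hΘ.leibniz 0 hn a b
  rw [Finset.sum_range_one] at h
  exact h

/-- The higher parts of a jet kill `1`. -/
theorem map_one_of_pos (hΘ : IsJet n Θ) : ∀ i : ℕ, 0 < i → i < n → Θ i (1 : A) = 0 := by
  intro i
  induction i using Nat.strong_induction_on with
  | _ i ih =>
    intro hi hin
    obtain ⟨j, rfl⟩ : ∃ j, i = j + 1 := ⟨i - 1, by omega⟩
    have h := hΘ.leibniz (j + 1) hin 1 1
    rw [mul_one, Finset.sum_range_succ, Finset.sum_range_succ'] at h
    have hmid : ∑ r ∈ Finset.range j, Θ (r + 1) (1 : A) * Θ (j + 1 - (r + 1)) (1 : A) = 0 := by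
      refine Finset.sum_eq_zero fun r hr => ?_
      have hr' : r < j := Finset.mem_range.mp hr
      rw [ih (r + 1) (by omega) (Nat.succ_pos r) (by omega), zero_mul]
    rw [hmid, zero_add, Nat.sub_zero, Nat.sub_self, hΘ.map_one, one_mul, mul_one] at h
    have h' : Θ (j + 1) (1 : A) + Θ (j + 1) (1 : A) = Θ (j + 1) (1 : A) + 0 := by
      rw [add_zero]
      exact h.symm
    exact add_left_cancel h'

/-- A jet on constants. -/
theorem map_algebraMap (hΘ : IsJet n Θ) (i : ℕ) (hin : i < n) (c : K) :
    Θ i (algebraMap K A c) = if i = 0 then algebraMap K R c else 0 := by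
  rw [Algebra.algebraMap_eq_smul_one, map_smul]
  split_ifs with h0
  · subst h0
    rw [hΘ.map_one, ← Algebra.algebraMap_eq_smul_one]
  · rw [hΘ.map_one_of_pos i (Nat.pos_of_ne_zero h0) hin, smul_zero]

/-- A jet composed with a `K`-algebra hom of the value ring is a jet. -/
theorem comp {R' : Type*} [CommRing R'] [Algebra K R'] (hΘ : IsJet n Θ) (ψ : R →ₐ[K] R') :
    IsJet n (fun i => ψ.toLinearMap ∘ₗ Θ i) where
  map_one := by
    show ψ (Θ 0 1) = 1
    rw [hΘ.map_one, _root_.map_one]
  leibniz := by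
    intro m hm a b
    show ψ (Θ m (a * b)) = ∑ i ∈ Finset.range (m + 1), ψ (Θ i a) * ψ (Θ (m - i) b)
    rw [hΘ.leibniz m hm a b, map_sum]
    refine Finset.sum_congr rfl fun i _ => ?_
    rw [map_mul]

/-- A jet takes values in a subalgebra `A'` of the value ring as soon as it does so on a set of
generators of the source algebra. -/
theorem mem_of_generators (hΘ : IsJet n Θ) (A' : Subalgebra K R) (G : Set A)
    (hG : Algebra.adjoin K G = ⊤) (h : ∀ g ∈ G, ∀ i < n, Θ i g ∈ A') :
    ∀ (a : A) (i : ℕ), i < n → Θ i a ∈ A' := by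
  intro a
  have ha : a ∈ Algebra.adjoin K G := by
    rw [hG]
    exact Algebra.mem_top
  induction ha using Algebra.adjoin_induction with
  | mem x hx => exact fun i hi => h x hx i hi
  | algebraMap c =>
    intro i hi
    rw [hΘ.map_algebraMap i hi c]
    split_ifs
    · exact A'.algebraMap_mem c
    · exact A'.zero_mem
  | add x y _ _ hx hy =>
    intro i hi
    rw [map_add]
    exact A'.add_mem (hx i hi) (hy i hi)
  | mul x y _ _ hx hy =>
    intro i hi
    rw [hΘ.leibniz i hi x y]
    refine A'.sum_mem fun r hr => ?_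
    have hr' : r ≤ i := Nat.lt_succ_iff.mp (Finset.mem_range.mp hr)
    exact A'.mul_mem (hx r (by omega)) (hy (i - r) (by omega))

/-- The corestriction of a jet of positive order to a subalgebra of the value ring containing
its values. -/
theorem exists_codRestrict (hΘ : IsJet n Θ) (hn : 0 < n) (A' : Subalgebra K R)
    (h : ∀ (a : A) (i : ℕ), i < n → Θ i a ∈ A') :
    ∃ Θ' : ℕ → A →ₗ[K] A', IsJet n Θ' ∧ ∀ (i : ℕ), i < n → ∀ a : A, (Θ' i a : R) = Θ i a := by
  classical
  let Θ' : ℕ → A →ₗ[K] A' := fun i =>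
    if hi : i < n then (Θ i).codRestrict (Subalgebra.toSubmodule A') (fun a => h a i hi) else 0
  have hΘ' : ∀ (i : ℕ), i < n → ∀ a : A, (Θ' i a : R) = Θ i a := by
    intro i hi a
    simp only [Θ', dif_pos hi]
    rfl
  refine ⟨Θ', ⟨?_, ?_⟩, hΘ'⟩
  · apply Subtype.ext
    rw [hΘ' 0 hn 1, hΘ.map_one]
    rfl
  · intro m hm a b
    apply Subtype.ext
    rw [hΘ' m hm (a * b), hΘ.leibniz m hm a b]
    rw [AddSubmonoidClass.coe_finsetSum]
    refine Finset.sum_congr rfl fun i hi => ?_
    have hi' : i ≤ m := Nat.lt_succ_iff.mp (Finset.mem_range.mp hi)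
    rw [MulMemClass.coe_mul, hΘ' i (by omega) a, hΘ' (m - i) (by omega) b]

end IsJet

end Fermat.Agent.S17.D
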