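import Mathlib
import Fermat.Prelude.Def_AlgebraicCurve_Repartitions
import Fermat.Agent.S24.FF.Dedekind
import Fermat.Agent.S17.D.JetLemma
import Fermat.Agent.S17.D.JetCalc

/-!
# Program MW (statement S17), strand D: the jet lemma at a place

`ord_ge_of_jet`: let `R` be a Dedekind domain with fraction field `F` (a function field over
`K`), `v` a place of `F` whose valuation ring contains `R`, and `Θ` a `K`-valued jet of order `n`
on `R` centred at `v` (the kernel of `Θ 0` consists of functions vanishing at `v`), non-zero at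
order one on some `t`.  If `Θ i y = 0` for all `i < n` then `y = 0` or `n ≤ ord_v y`.

This is `mem_pow_of_jet_eq_zero` (`D/JetLemma.lean`) read through the dictionary
height-one primes ↔ places of `S24/FF/Dedekind.lean`.
-/

set_option autoImplicit false

namespace Fermat.Agent.S17.D

open AlgebraicCurve IsDedekindDomain

variable {K F : Type*} [Field K] [Field F] [Algebra K F]
variable {R : Type*} [CommRing R] [IsDedekindDomain R] [Algebra R F] [IsFractionRing R F]
  [Algebra K R] [IsScalarTower K R F]

/-- **Jet lemma at a place.** -/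
theorem ord_ge_of_jet (n : ℕ) (Θ : ℕ → R →ₗ[K] K) (hΘ : IsJet n Θ) (v : Place K F)
    (hv : ∀ r : R, algebraMap R F r ∈ v.toValuationSubring)
    (h0 : ∀ r : R, Θ 0 r = 0 → r = 0 ∨ 0 < v.ord (algebraMap R F r))
    (t : R) (ht : Θ 1 t ≠ 0) (y : R) (hy : ∀ i < n, Θ i y = 0) :
    y = 0 ∨ (n : ℤ) ≤ v.ord (algebraMap R F y) := by
  rcases Nat.eq_zero_or_pos n with hn0 | hn
  · subst hn0
    right
    rw [Nat.cast_zero]
    exact Fermat.Agent.S24.FF.ord_nonneg_of_mem v (hv y)
  obtain ⟨w, hw⟩ := Fermat.Agent.S24.FF.exists_ofHeightOneSpectrum_eq (K := K) (F := F) v hv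
  -- the kernel of `Θ 0` is the prime `w`
  have hmem : ∀ b : R, Θ 0 b = 0 → b ∈ w.asIdeal := by
    intro b hb
    rcases h0 b hb with rfl | hpos
    · exact Ideal.zero_mem _
    · by_cases hb0 : b = 0
      · rw [hb0]
        exact Ideal.zero_mem _
      · rw [Fermat.Agent.S24.FF.mem_asIdeal_iff_ord_pos (K := K) (F := F) w hb0, hw]
        exact hpos
  have hw' : ∀ b : R, b ∈ w.asIdeal ↔ Θ 0 b = 0 := by
    intro b
    refine ⟨fun hb => ?_, hmem b⟩
    by_contra hne
    set c : K := Θ 0 b with hc
    have h1 : Θ 0 (b - algebraMap K R c) = 0 := by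
      rw [map_sub, hΘ.map_algebraMap 0 hn c, if_pos rfl, Algebra.algebraMap_self_apply,
        sub_self]
    have h2 : algebraMap K R c ∈ w.asIdeal := by
      have h3 := Ideal.sub_mem _ hb (hmem _ h1)
      rwa [sub_sub_cancel] at h3
    have h4 : (1 : R) ∈ w.asIdeal := by
      have h5 := Ideal.mul_mem_left w.asIdeal (algebraMap K R c⁻¹) h2
      rwa [← map_mul, inv_mul_cancel₀ hne, map_one] at h5
    exact w.isPrime.ne_top ((Ideal.eq_top_iff_one _).mpr h4)
  have hpow : y ∈ w.asIdeal ^ n := mem_pow_of_jet_eq_zero n Θ hΘ w hw' t ht y hy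
  have hval : (Place.ofHeightOneSpectrum (K := K) (F := F) w).adicValuation (algebraMap R F y)
      ≤ WithZero.exp (-(n : ℤ)) := by
    rw [Fermat.Agent.S24.FF.adicValuation_ofHeightOneSpectrum, HeightOneSpectrum.valuation_of_algebraMap]
    exact (w.intValuation_le_pow_iff_mem y n).mpr hpow
  rw [hw] at hval
  rcases (v.adicValuation_le_exp_iff).mp hval with h | h
  · left
    exact (IsFractionRing.injective R F) (by rw [h, map_zero])
  · right
    rw [neg_neg] at h
    exact h

end Fermat.Agent.S17.D
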