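import Mathlib

/-!
# A multivariate Hensel lemma for valuation subrings of algebraically closed fields

`Fermat.Agent.S17.D.MvHensel.exists_root`: let `A` be a valuation subring of an algebraically
closed field `K`, `f : σ → MvPolynomial σ A` a square polynomial system and `a : σ → A` an
approximate root (`f i (a)` in the maximal ideal for all `i`) at which the Jacobian determinant is
a unit of `A`. Then there is an exact root `b : σ → A` congruent to `a` modulo the maximal ideal.

Proof: `Q = A[X, T] / (f, T * J - 1)` is standard smooth of relative dimension `0`, hence étale and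
flat over `A`. The approximate root is a prime `𝔫` of `Q` over the maximal ideal of `A`; going down
(flatness) gives a prime `𝔭 ≤ 𝔫` over `0`. As `K ⊗ Q` is finite over the algebraically closed
field `K`, the prime `𝔭` is a `K`-point `β`; as `A` is a valuation ring and `𝔭 ≤ 𝔫`, the point `β`
has coordinates in `A` and reduces to `a`.
-/

namespace Fermat.Agent.S17.D.MvHensel

set_option linter.unusedSectionVars false
set_option linter.style.haveILetI false

open MvPolynomial

noncomputable section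

section Presentation

variable {R : Type*} [CommRing R] {σ : Type*} [Fintype σ] [DecidableEq σ]

/-- The symbolic Jacobian determinant `det (∂ f i / ∂ X j)`. -/
def jac (f : σ → MvPolynomial σ R) : MvPolynomial σ R :=
  Matrix.det (Matrix.of fun i j => pderiv j (f i))

/-- The augmented system in the variables `X i` and `T`: the `f i` and `T * J - 1`. -/
def rel (f : σ → MvPolynomial σ R) : σ ⊕ Unit → MvPolynomial (σ ⊕ Unit) R :=
  Sum.elim (fun i => rename Sum.inl (f i))
    (fun _ => X (Sum.inr ()) * rename Sum.inl (jac f) - 1)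

/-- The algebra `R[X, T] / (f, T * J - 1)`. -/
abbrev Q (f : σ → MvPolynomial σ R) : Type _ :=
  MvPolynomial (σ ⊕ Unit) R ⧸ Ideal.span (Set.range (rel f))

omit [Fintype σ] [DecidableEq σ] in
lemma pderiv_inr_rename_inl (u : Unit) (p : MvPolynomial σ R) :
    pderiv (Sum.inr u : σ ⊕ Unit) (rename Sum.inl p) = 0 := by
  induction p using MvPolynomial.induction_on with
  | C a => simp
  | add p q hp hq => simp [hp, hq]
  | mul_X p i h =>
    rw [map_mul, rename_X, Derivation.leibniz, h, pderiv_X_of_ne (by simp)]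
    simp

/-- The naive presentation of `Q f`. -/
def pre (f : σ → MvPolynomial σ R) :
    Algebra.PreSubmersivePresentation R (Q f) (σ ⊕ Unit) (σ ⊕ Unit) :=
  Algebra.PreSubmersivePresentation.naive (v := rel f) id Function.injective_id

lemma pre_jacobiMatrix (f : σ → MvPolynomial σ R) (i j : σ ⊕ Unit) :
    (pre f).jacobiMatrix i j = pderiv i (rel f j) :=
  Algebra.PreSubmersivePresentation.jacobiMatrix_naive id Function.injective_id _ _ i j

lemma pre_jacobiMatrix_det (f : σ → MvPolynomial σ R) :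
    (pre f).jacobiMatrix.det = rename Sum.inl (jac f) * rename Sum.inl (jac f) := by
  have h : (pre f).jacobiMatrix = Matrix.fromBlocks
      ((Matrix.transpose (Matrix.of fun i j => pderiv j (f i))).map
        (rename (R := R) (Sum.inl : σ → σ ⊕ Unit)))
      (Matrix.of fun i (_ : Unit) => pderiv (Sum.inl i) (rel f (Sum.inr ())))
      0
      (Matrix.of fun (_ _ : Unit) => rename (R := R) (Sum.inl : σ → σ ⊕ Unit) (jac f)) := by
    ext (i | u) (j | v)
    · simp [pre_jacobiMatrix, rel, pderiv_rename Sum.inl_injective]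
    · simp [pre_jacobiMatrix]
    · simp [pre_jacobiMatrix, rel, pderiv_inr_rename_inl]
    · simp [pre_jacobiMatrix, rel, pderiv_inr_rename_inl]
  have h1 : ((Matrix.transpose (Matrix.of fun i j => pderiv j (f i))).map
      (rename (R := R) (Sum.inl : σ → σ ⊕ Unit))).det = rename Sum.inl (jac f) := by
    rw [← AlgHom.mapMatrix_apply, ← AlgHom.map_det, Matrix.det_transpose]
    rfl
  have h2 : (Matrix.of fun (_ _ : Unit) =>
      rename (R := R) (Sum.inl : σ → σ ⊕ Unit) (jac f)).det = rename Sum.inl (jac f) := by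
    rw [Matrix.det_unique]
    rfl
  rw [h, Matrix.det_fromBlocks_zero₂₁, h1, h2]

lemma isUnit_mk_jac (f : σ → MvPolynomial σ R) :
    IsUnit (Ideal.Quotient.mk (Ideal.span (Set.range (rel f))) (rename Sum.inl (jac f))) := by
  have h : Ideal.Quotient.mk (Ideal.span (Set.range (rel f)))
      (X (Sum.inr ()) * rename Sum.inl (jac f) - 1) = 0 :=
    Ideal.Quotient.eq_zero_iff_mem.mpr (Ideal.subset_span ⟨Sum.inr (), rfl⟩)
  rw [map_sub, map_mul, map_one, sub_eq_zero] at h
  exact IsUnit.of_mul_eq_one _ (by rw [mul_comm]; exact h)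

lemma aeval_val_eq_mk (f : σ → MvPolynomial σ R) (p : MvPolynomial (σ ⊕ Unit) R) :
    aeval (pre f).val p = Ideal.Quotient.mk (Ideal.span (Set.range (rel f))) p := by
  have h : (aeval (pre f).val : MvPolynomial (σ ⊕ Unit) R →ₐ[R] Q f) =
      Ideal.Quotient.mkₐ R (Ideal.span (Set.range (rel f))) := by
    apply MvPolynomial.algHom_ext
    intro i
    simp [pre]
  rw [h]
  rfl

/-- The submersive presentation of `Q f`. -/
def sub (f : σ → MvPolynomial σ R) :
    Algebra.SubmersivePresentation R (Q f) (σ ⊕ Unit) (σ ⊕ Unit) where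
  toPreSubmersivePresentation := pre f
  jacobian_isUnit := by
    rw [Algebra.PreSubmersivePresentation.jacobian_eq_jacobiMatrix_det, pre_jacobiMatrix_det,
      Algebra.Generators.algebraMap_apply, aeval_val_eq_mk, map_mul]
    exact (isUnit_mk_jac f).mul (isUnit_mk_jac f)

instance instStdSmooth (f : σ → MvPolynomial σ R) :
    Algebra.IsStandardSmoothOfRelativeDimension 0 R (Q f) :=
  (sub f).isStandardSmoothOfRelativeDimension (by simp [Algebra.Presentation.dimension])

end Presentation

section Hensel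

variable {K : Type*} [Field K] (A : ValuationSubring K)
variable {σ : Type*} [Fintype σ] [DecidableEq σ]

/-- The residue point of `Q f` attached to an approximate root `a`. -/
def ptFun (f : σ → MvPolynomial σ A) (a : σ → A) : σ ⊕ Unit → IsLocalRing.ResidueField A :=
  Sum.elim (fun i => IsLocalRing.residue A (a i))
    (fun _ => (IsLocalRing.residue A (eval a (jac f)))⁻¹)

lemma aeval_ptFun_rename (f : σ → MvPolynomial σ A) (a : σ → A) (p : MvPolynomial σ A) :
    aeval (ptFun A f a) (rename Sum.inl p) = IsLocalRing.residue A (eval a p) := by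
  induction p using MvPolynomial.induction_on with
  | C c => simp
  | add p q hp hq => simp only [map_add, hp, hq]
  | mul_X p i h =>
    simp only [map_mul, h, rename_X, aeval_X, eval_X]
    rfl

lemma eval_jac (f : σ → MvPolynomial σ A) (a : σ → A) :
    eval a (jac f) = Matrix.det (Matrix.of fun i j => eval a (pderiv j (f i))) := by
  unfold jac
  rw [RingHom.map_det]
  rfl

lemma aeval_ptFun_rel (f : σ → MvPolynomial σ A) (a : σ → A)
    (h0 : ∀ i, eval a (f i) ∈ IsLocalRing.maximalIdeal A)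
    (hJ : IsUnit (eval a (jac f))) (i : σ ⊕ Unit) :
    aeval (ptFun A f a) (rel f i) = 0 := by
  rcases i with i | u
  · simp only [rel, Sum.elim_inl]
    rw [aeval_ptFun_rename]
    exact (IsLocalRing.residue_eq_zero_iff _).mpr (h0 i)
  · simp only [rel, Sum.elim_inr, map_sub, map_mul, map_one, aeval_X]
    rw [aeval_ptFun_rename]
    have hne : IsLocalRing.residue A (eval a (jac f)) ≠ 0 := by
      intro h
      exact (IsLocalRing.residue_eq_zero_iff _).mp h |> fun h' =>
        (IsLocalRing.mem_maximalIdeal _).mp h' hJ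
    simp only [ptFun, Sum.elim_inr]
    rw [inv_mul_cancel₀ hne, sub_self]

/-- The residue point as an algebra map on `Q f`. -/
def ptHom (f : σ → MvPolynomial σ A) (a : σ → A)
    (h0 : ∀ i, eval a (f i) ∈ IsLocalRing.maximalIdeal A)
    (hJ : IsUnit (eval a (jac f))) : Q f →ₐ[A] IsLocalRing.ResidueField A :=
  Ideal.Quotient.liftₐ _ (aeval (ptFun A f a)) (by
    intro p hp
    have hle : Ideal.span (Set.range (rel f)) ≤
        RingHom.ker (aeval (ptFun A f a) : MvPolynomial (σ ⊕ Unit) A →ₐ[A] _).toRingHom := by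
      rw [Ideal.span_le]
      rintro _ ⟨i, rfl⟩
      exact aeval_ptFun_rel A f a h0 hJ i
    exact hle hp)

lemma ptHom_mk (f : σ → MvPolynomial σ A) (a : σ → A)
    (h0 : ∀ i, eval a (f i) ∈ IsLocalRing.maximalIdeal A)
    (hJ : IsUnit (eval a (jac f))) (p : MvPolynomial (σ ⊕ Unit) A) :
    ptHom A f a h0 hJ (Ideal.Quotient.mk _ p) = aeval (ptFun A f a) p :=
  rfl

open scoped TensorProduct in
/-- **Multivariate Hensel lemma** for a valuation subring of an algebraically closed field. -/
theorem exists_root [IsAlgClosed K] (f : σ → MvPolynomial σ A) (a : σ → A)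
    (h0 : ∀ i, eval a (f i) ∈ IsLocalRing.maximalIdeal A)
    (hJ : IsUnit (Matrix.det (Matrix.of fun i j => eval a (pderiv j (f i))))) :
    ∃ b : σ → A, (∀ i, eval b (f i) = 0) ∧ ∀ i, b i - a i ∈ IsLocalRing.maximalIdeal A := by
  classical
  have hJ' : IsUnit (eval a (jac f)) := by rw [eval_jac]; exact hJ
  -- the prime `𝔫` of the approximate root
  let φ := ptHom A f a h0 hJ'
  let 𝔫 : Ideal (Q f) := RingHom.ker φ.toRingHom
  haveI h𝔫 : 𝔫.IsPrime := RingHom.ker_isPrime φ.toRingHom
  -- going down: a prime `𝔭 ≤ 𝔫` over `0`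
  obtain ⟨𝔭, h𝔭le, h𝔭prime, h𝔭over⟩ :=
    Ideal.exists_ideal_le_liesOver_of_le (p := (⊥ : Ideal A)) (q := 𝔫.under A) 𝔫 bot_le
  haveI := h𝔭prime
  have h𝔭A : 𝔭.under A = ⊥ := (h𝔭over.over).symm
  -- the domain `D = Q f ⧸ 𝔭` and its fraction field
  let D := Q f ⧸ 𝔭
  let L := FractionRing D
  have hinjD : Function.Injective (algebraMap A D) := by
    rw [injective_iff_map_eq_zero]
    intro x hx
    have h1 : algebraMap A (Q f) x ∈ 𝔭 := by
      rw [IsScalarTower.algebraMap_apply A (Q f) D] at hx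
      exact Ideal.Quotient.eq_zero_iff_mem.mp hx
    have h2 : x ∈ 𝔭.under A := h1
    rw [h𝔭A] at h2
    exact h2
  have hinj : Function.Injective (algebraMap A L) := by
    rw [IsScalarTower.algebraMap_eq A D L]
    exact (IsFractionRing.injective D L).comp hinjD
  letI algKL : Algebra K L := (IsFractionRing.lift hinj).toAlgebra
  haveI : IsScalarTower A K L := IsScalarTower.of_algebraMap_eq fun x =>
    (IsFractionRing.lift_algebraMap hinj x).symm
  let ψ : Q f →ₐ[A] L := (IsScalarTower.toAlgHom A D L).comp (Ideal.Quotient.mkₐ A 𝔭)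
  have hψker : ∀ s : Q f, ψ s = 0 → s ∈ 𝔭 := by
    intro s hs
    have h1 : (Ideal.Quotient.mk 𝔭 s : D) = 0 :=
      (IsFractionRing.injective D L) (by rw [map_zero]; exact hs)
    exact Ideal.Quotient.eq_zero_iff_mem.mp h1
  -- `K ⊗ Q f` is finite over `K`, so `ψ` takes values in `K`
  let Ψ : K ⊗[A] Q f →ₐ[K] L :=
    Algebra.TensorProduct.lift (Algebra.ofId K L) ψ (fun _ _ => Commute.all _ _)
  haveI : Module.Finite K (K ⊗[A] Q f) :=
    Algebra.FormallyUnramified.finite_of_free K (K ⊗[A] Q f)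
  have hK : ∀ s : Q f, ∃ y : K, algebraMap K L y = ψ s := by
    intro s
    have hint : IsIntegral K (Ψ (1 ⊗ₜ[A] s)) :=
      (Algebra.IsIntegral.isIntegral (R := K) (1 ⊗ₜ[A] s : K ⊗[A] Q f)).map Ψ
    have hΨ : Ψ (1 ⊗ₜ[A] s) = ψ s := by simp [Ψ]
    rw [hΨ] at hint
    have hdeg : (minpoly K (ψ s)).degree = 1 :=
      IsAlgClosed.degree_eq_one_of_irreducible K (minpoly.irreducible hint)
    obtain ⟨y, hy⟩ := minpoly.mem_range_of_degree_eq_one K (ψ s) hdeg
    exact ⟨y, hy⟩
  choose β hβ using fun i : σ ⊕ Unit =>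
    hK (Ideal.Quotient.mk (Ideal.span (Set.range (rel f))) (X i))
  let χ₀ : MvPolynomial (σ ⊕ Unit) A →ₐ[A] K := aeval β
  have hχ : ∀ p : MvPolynomial (σ ⊕ Unit) A,
      algebraMap K L (χ₀ p) = ψ (Ideal.Quotient.mk _ p) := by
    have h1 : (IsScalarTower.toAlgHom A K L).comp χ₀ =
        ψ.comp (Ideal.Quotient.mkₐ A (Ideal.span (Set.range (rel f)))) := by
      apply MvPolynomial.algHom_ext
      intro i
      simp [χ₀, hβ]
    intro p
    exact DFunLike.congr_fun h1 p
  -- polynomials killed by `χ₀` vanish at the residue point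
  have hker : ∀ r : MvPolynomial (σ ⊕ Unit) A, χ₀ r = 0 → aeval (ptFun A f a) r = 0 := by
    intro r hr
    have h1 : ψ (Ideal.Quotient.mk _ r) = 0 := by rw [← hχ, hr, map_zero]
    have h2 : Ideal.Quotient.mk _ r ∈ 𝔫 := h𝔭le (hψker _ h1)
    exact h2
  -- the values of `χ₀` lie in `A`
  have hmemA : ∀ p : MvPolynomial (σ ⊕ Unit) A, χ₀ p ∈ A := by
    intro p
    by_contra hp
    have hinv : (χ₀ p)⁻¹ ∈ A := (A.mem_or_inv_mem (χ₀ p)).resolve_left hp
    have hne : χ₀ p ≠ 0 := fun h => hp (h ▸ A.zero_mem)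
    have hc : (⟨(χ₀ p)⁻¹, hinv⟩ : A) ∈ IsLocalRing.maximalIdeal A := by
      rw [IsLocalRing.mem_maximalIdeal, mem_nonunits_iff]
      rintro ⟨u, hu⟩
      apply hp
      have h2 : ((u : A) : K) * (((u⁻¹ : Aˣ) : A) : K) = 1 :=
        calc ((u : A) : K) * (((u⁻¹ : Aˣ) : A) : K)
            = (((u : A) * ((u⁻¹ : Aˣ) : A) : A) : K) := rfl
          _ = ((1 : A) : K) := by rw [u.mul_inv]
          _ = 1 := rfl
      rw [hu] at h2
      have h4 : χ₀ p = (((u⁻¹ : Aˣ) : A) : K) := by
        calc χ₀ p = χ₀ p * ((χ₀ p)⁻¹ * (((u⁻¹ : Aˣ) : A) : K)) := by rw [h2, mul_one]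
          _ = (((u⁻¹ : Aˣ) : A) : K) := by rw [← mul_assoc, mul_inv_cancel₀ hne, one_mul]
      rw [h4]
      exact (((u⁻¹ : Aˣ) : A)).2
    have h5 := hker (C (⟨(χ₀ p)⁻¹, hinv⟩ : A) * p - 1) (by
      rw [map_sub, map_mul, map_one]
      have h6 : χ₀ (C (⟨(χ₀ p)⁻¹, hinv⟩ : A)) = (χ₀ p)⁻¹ := by
        simp only [χ₀, aeval_C]
        rfl
      rw [h6, inv_mul_cancel₀ hne, sub_self])
    rw [map_sub, map_mul, map_one, aeval_C] at h5
    have hc0 : algebraMap A (IsLocalRing.ResidueField A) (⟨(χ₀ p)⁻¹, hinv⟩ : A) = 0 :=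
      (IsLocalRing.residue_eq_zero_iff _).mpr hc
    rw [hc0, zero_mul, zero_sub, neg_eq_zero] at h5
    exact one_ne_zero h5
  -- polynomials vanishing at the residue point take values in the maximal ideal
  have hmemM : ∀ p : MvPolynomial (σ ⊕ Unit) A, aeval (ptFun A f a) p = 0 →
      ∀ y : A, (y : K) = χ₀ p → y ∈ IsLocalRing.maximalIdeal A := by
    intro p hp y hy
    rw [IsLocalRing.mem_maximalIdeal, mem_nonunits_iff]
    rintro ⟨u, hu⟩
    have h2 : (((u⁻¹ : Aˣ) : A) : K) * ((u : A) : K) = 1 :=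
      calc (((u⁻¹ : Aˣ) : A) : K) * ((u : A) : K)
          = ((((u⁻¹ : Aˣ) : A) * (u : A) : A) : K) := rfl
        _ = ((1 : A) : K) := by rw [u.inv_mul]
        _ = 1 := rfl
    have h5 := hker (C ((u⁻¹ : Aˣ) : A) * p - 1) (by
      rw [map_sub, map_mul, map_one]
      have h6 : χ₀ (C ((u⁻¹ : Aˣ) : A)) = (((u⁻¹ : Aˣ) : A) : K) := by
        simp only [χ₀, aeval_C]
        rfl
      rw [h6, ← hy, ← hu, h2, sub_self])
    rw [map_sub, map_mul, map_one, hp, mul_zero, zero_sub, neg_eq_zero] at h5
    exact one_ne_zero h5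
  -- the root
  let b : σ → A := fun i => ⟨χ₀ (X (Sum.inl i)), hmemA _⟩
  have hb : ∀ p : MvPolynomial σ A, ((eval b p : A) : K) = χ₀ (rename Sum.inl p) := by
    intro p
    induction p using MvPolynomial.induction_on with
    | C c =>
      simp only [eval_C, rename_C, χ₀, aeval_C]
      rfl
    | add p q hp hq =>
      rw [map_add, map_add, map_add, ← hp, ← hq]
      rfl
    | mul_X p i h =>
      rw [map_mul, map_mul, map_mul, rename_X, eval_X, ← h]
      rfl
  refine ⟨b, fun i => ?_, fun i => ?_⟩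
  · apply Subtype.ext
    rw [hb]
    have h1 : algebraMap K L (χ₀ (rename Sum.inl (f i))) = 0 := by
      rw [hχ]
      have h2 : Ideal.Quotient.mk (Ideal.span (Set.range (rel f))) (rename Sum.inl (f i)) = 0 :=
        Ideal.Quotient.eq_zero_iff_mem.mpr (Ideal.subset_span ⟨Sum.inl i, rfl⟩)
      rw [h2, map_zero]
    have h3 := (algebraMap K L).injective (h1.trans (map_zero _).symm)
    rw [h3]
    rfl
  · apply hmemM (X (Sum.inl i) - C (a i))
    · rw [map_sub, aeval_X, aeval_C]
      simp only [ptFun, Sum.elim_inl]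
      exact sub_self _
    · rw [map_sub]
      simp only [χ₀, aeval_X, aeval_C, b]
      rfl

end Hensel

end

end Fermat.Agent.S17.D.MvHensel
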