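/-
MW strand D, leaf D0: a non-special effective divisor made of `gR K F` DISTINCT places
outside a prescribed finite set, in the shape the D spine consumes (a family `Fin g → Place`).

No Riemann–Roch: this is strand R's `exists_distinct_nonspecial` (R9, Riemann-only form) fed
with `riemann_eq_of_large` (R2), re-indexed by `Fin (gR K F)`.
-/
import Mathlib
import Fermat.Agent.S17.R.NonSpecialStep
import Fermat.Agent.S17.R.Riemann

set_option autoImplicit false

namespace Fermat.Agent.S17.D.NonSpecial

open AlgebraicCurve Fermat.Agent.S17.R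

variable {K F : Type*} [Field K] [Field F] [Algebra K F]
variable [IsAlgClosed K] [CharZero K] [Algebra.EssFiniteType K F]

/-- **D0.** For every finite set `S0` of places there are `g = gR K F` pairwise distinct places
`E 0, …, E (g-1)` outside `S0` with `l(E 0 + … + E (g-1)) = 1`. -/
theorem exists_nonspecial (htr : Algebra.trdeg K F = 1) (S0 : Finset (Place K F)) :
    ∃ E : Fin (gR K F) → Place K F, Function.Injective E ∧ (∀ k, E k ∉ S0) ∧
      Module.finrank K ↥(riemannRochSpace (∑ k, Finsupp.single (E k) (1 : ℤ))) = 1 := by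
  classical
  obtain ⟨s, hcard, hS, h1⟩ :=
    exists_distinct_nonspecial htr (riemann_eq_of_large htr) (↑S0) S0.finite_toSet
  let e : Fin (gR K F) ≃ s := (Finset.equivFinOfCardEq hcard).symm
  refine ⟨fun k => (e k : Place K F), ?_, ?_, ?_⟩
  · intro a b hab
    exact e.injective (Subtype.ext hab)
  · intro k h
    exact hS _ (e k).2 (Finset.mem_coe.mpr h)
  · have hsum : ∑ k, Finsupp.single ((e k : Place K F)) (1 : ℤ)
        = ∑ P ∈ s, Finsupp.single P (1 : ℤ) := by
      rw [← Finset.sum_coe_sort s (fun P => Finsupp.single P (1 : ℤ))]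
      exact Equiv.sum_comp e (fun P : s => Finsupp.single (P : Place K F) (1 : ℤ))
    rw [hsum]
    exact h1

/-- **D0**, divisor form with the support facts the assembly uses: the divisor
`E0 = ∑ k, E k` is effective of degree `gR K F`, takes the value `1` at each `E k` and `0`
elsewhere. -/
theorem exists_nonspecial_divisor (htr : Algebra.trdeg K F = 1) (S0 : Finset (Place K F)) :
    ∃ E : Fin (gR K F) → Place K F, Function.Injective E ∧ (∀ k, E k ∉ S0) ∧
      Module.finrank K ↥(riemannRochSpace (∑ k, Finsupp.single (E k) (1 : ℤ))) = 1 ∧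
      (∀ k, (∑ j, Finsupp.single (E j) (1 : ℤ)) (E k) = 1) ∧
      (∀ P : Place K F, (∀ k, E k ≠ P) → (∑ j, Finsupp.single (E j) (1 : ℤ)) P = 0) := by
  classical
  obtain ⟨E, hinj, hS, h1⟩ := exists_nonspecial htr S0
  refine ⟨E, hinj, hS, h1, ?_, ?_⟩
  · intro k
    rw [Finsupp.finsetSum_apply]
    rw [Finset.sum_eq_single k]
    · exact Finsupp.single_eq_same
    · intro j _ hjk
      exact Finsupp.single_eq_of_ne (fun h => hjk (hinj h.symm))
    · intro h
      exact absurd (Finset.mem_univ k) h
  · intro P hP
    rw [Finsupp.finsetSum_apply]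
    exact Finset.sum_eq_zero fun j _ => Finsupp.single_eq_of_ne (hP j).symm

end Fermat.Agent.S17.D.NonSpecial
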