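import Mathlib
import Fermat.Agent.S17.D.SpecExt

/-!
# Specialising a generic solution: the algebraic half of the assembly of strand D

`B` is a domain of finite type over an algebraically closed field `K` (the affine coordinate ring
of the curve), `S` a field containing `B` through `e₀` (the generic point), `Θ k` are `g` jets of
order `n` on `B` with values in `S` (the moving points), `c j ∈ S` the coefficients of the generic
function `∑ c j • w j`, which vanishes at the generic point (`hrel₀`) and to order `n` along the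
moving jets (`hrel`).

`exists_specialised_points`: there is `h ≠ 0` in `B` such that for every `K`-point `P` of `B` with
`P h ≠ 0` there are coefficients `a j ∈ K`, `a 0 = 1`, and `K`-points `q k` of `B`, pairwise
distinct and distinct from `P`, such that `y = ∑ a j • w j` vanishes at `P` and lies in the
`n`-th power of the maximal ideal of every `q k`.  Moreover `P b₁ ≠ 0`, and every `q k` either
avoids the zeros of `b₁` or is the base point `χ k` (the case of a point that does not move).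

The proof is `SpecExt.exists_specialisation` applied to the finitely many elements of `S` that
occur, and the hypothesis `hD4` (a vanishing non-degenerate `K`-jet of order `n` forces
membership in the `n`-th power of the kernel of its constant term).
-/

namespace Fermat.Agent.S17.D.SpecPoints

section Jet

variable {K B S : Type*} [CommRing K] [CommRing B] [Algebra K B] [CommRing S] [Algebra K S]

/-- A jet whose values on `1` and on a generating set lie in a subalgebra takes all its values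
in that subalgebra. -/
theorem jet_mem_of_gens (n : ℕ) (Θ : ℕ → B →ₗ[K] S)
    (hL : ∀ i < n, ∀ a b : B, Θ i (a * b) = ∑ j ∈ Finset.range (i + 1), Θ j a * Θ (i - j) b)
    (A : Subalgebra K S) (G : Set B) (hG : Algebra.adjoin K G = ⊤)
    (h1 : ∀ i < n, Θ i 1 ∈ A) (hgen : ∀ b ∈ G, ∀ i < n, Θ i b ∈ A) :
    ∀ b : B, ∀ i < n, Θ i b ∈ A := by
  intro b
  have hb : b ∈ Algebra.adjoin K G := by rw [hG]; exact Algebra.mem_top
  induction hb using Algebra.adjoin_induction with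
  | mem x hx => exact hgen x hx
  | algebraMap r =>
    intro i hi
    rw [Algebra.algebraMap_eq_smul_one, map_smul]
    exact A.smul_mem (h1 i hi) r
  | add x y _ _ hx hy =>
    intro i hi
    rw [map_add]
    exact A.add_mem (hx i hi) (hy i hi)
  | mul x y _ _ hx hy =>
    intro i hi
    rw [hL i hi]
    refine A.sum_mem fun j hj => A.mul_mem (hx j ?_) (hy (i - j) ?_)
    · have := Finset.mem_range.mp hj
      omega
    · omega

/-- An `S`-valued jet with values in a subalgebra `A`, composed with an algebra map `ψ : A → R`,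
is an `R`-valued jet. -/
theorem exists_jet_comp {R : Type*} [CommRing R] [Algebra K R] (n : ℕ) (hn : 0 < n)
    (Θ : ℕ → B →ₗ[K] S) (h1 : Θ 0 1 = 1)
    (hL : ∀ i < n, ∀ a b : B, Θ i (a * b) = ∑ j ∈ Finset.range (i + 1), Θ j a * Θ (i - j) b)
    (A : Subalgebra K S) (ψ : A →ₐ[K] R) (hA : ∀ b : B, ∀ i < n, Θ i b ∈ A) :
    ∃ Θ' : ℕ → B →ₗ[K] R, (∀ i (hi : i < n) (b : B), Θ' i b = ψ ⟨Θ i b, hA b i hi⟩) ∧
      Θ' 0 1 = 1 ∧
      ∀ i < n, ∀ a b : B, Θ' i (a * b) = ∑ j ∈ Finset.range (i + 1), Θ' j a * Θ' (i - j) b := by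
  classical
  let Θ' : ℕ → B →ₗ[K] R := fun i =>
    if hi : i < n then
      { toFun := fun b => ψ ⟨Θ i b, hA b i hi⟩
        map_add' := fun x y => by
          have h : (⟨Θ i (x + y), hA (x + y) i hi⟩ : A)
              = ⟨Θ i x, hA x i hi⟩ + ⟨Θ i y, hA y i hi⟩ := Subtype.ext (map_add (Θ i) x y)
          rw [h, map_add]
        map_smul' := fun r x => by
          have h : (⟨Θ i (r • x), hA (r • x) i hi⟩ : A) = r • ⟨Θ i x, hA x i hi⟩ :=
            Subtype.ext (map_smul (Θ i) r x)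
          rw [h, map_smul]
          rfl }
    else 0
  have key : ∀ i (hi : i < n) (b : B), Θ' i b = ψ ⟨Θ i b, hA b i hi⟩ := by
    intro i hi b
    simp only [Θ', dif_pos hi]
    rfl
  refine ⟨Θ', key, ?_, ?_⟩
  · rw [key 0 hn]
    have h : (⟨Θ 0 1, hA 1 0 hn⟩ : A) = 1 := Subtype.ext h1
    rw [h, map_one]
  · intro i hi a b
    rw [key i hi]
    have hlt : ∀ j : {x // x ∈ Finset.range (i + 1)}, (j : ℕ) < n := fun j => by
      have := Finset.mem_range.mp j.2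
      omega
    have hlt' : ∀ j : {x // x ∈ Finset.range (i + 1)}, i - (j : ℕ) < n := fun j => by omega
    have hsum : (⟨Θ i (a * b), hA (a * b) i hi⟩ : A)
        = ∑ j ∈ (Finset.range (i + 1)).attach,
            (⟨Θ j a, hA a j (hlt j)⟩ : A) * ⟨Θ (i - j) b, hA b (i - j) (hlt' j)⟩ := by
      apply Subtype.ext
      rw [AddSubmonoidClass.coe_finsetSum]
      simp only [MulMemClass.coe_mul]
      rw [Finset.sum_attach (Finset.range (i + 1)) (fun j => Θ j a * Θ (i - j) b)]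
      exact hL i hi a b
    rw [hsum, map_sum, ← Finset.sum_attach (Finset.range (i + 1)) (fun j => Θ' j a * Θ' (i - j) b)]
    refine Finset.sum_congr rfl fun j _ => ?_
    rw [map_mul, key j (hlt j), key (i - j) (hlt' j)]

end Jet

/-- Two `K`-points of a finite type algebra over an algebraically closed field that vanish on the
same maximal ideal are equal. -/
theorem algHom_eq_of_vanish {K B : Type*} [Field K] [IsAlgClosed K] [CommRing B] [Algebra K B]
    [Algebra.FiniteType K B] (I : Ideal B) [I.IsMaximal] (p q : B →ₐ[K] K)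
    (hp : ∀ b ∈ I, p b = 0) (hq : ∀ b ∈ I, q b = 0) : p = q := by
  refine AlgHom.ext fun b => ?_
  obtain ⟨a, ha⟩ := (SpecExt.algebraMap_quotient_bijective (K := K) I).2 (Ideal.Quotient.mk I b)
  have hmem : b - algebraMap K B a ∈ I := by
    rw [← Ideal.Quotient.eq, ← ha]
    rfl
  have h1 := hp _ hmem
  have h2 := hq _ hmem
  rw [map_sub, AlgHom.commutes, sub_eq_zero] at h1 h2
  rw [h1, h2]

/-- **The specialisation step.**  See the header of the file. -/
theorem exists_specialised_points {K B S : Type*} [Field K] [IsAlgClosed K] [CommRing B]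
    [IsDedekindDomain B] [Algebra K B] [Algebra.FiniteType K B] [Field S] [Algebra K S]
    (n g m : ℕ) (hn : 0 < n)
    (hD4 : ∀ Θ : ℕ → B →ₗ[K] K, Θ 0 1 = 1 →
      (∀ i < n, ∀ a b : B, Θ i (a * b) = ∑ j ∈ Finset.range (i + 1), Θ j a * Θ (i - j) b) →
      ∀ q : B →ₐ[K] K, (∀ b, q b = Θ 0 b) → ∀ t : B, Θ 1 t ≠ 0 →
      ∀ y : B, (∀ i < n, Θ i y = 0) → y ∈ RingHom.ker (q : B →+* K) ^ n)
    (e₀ : B →ₐ[K] S) (he₀ : Function.Injective e₀)
    (Θ : Fin g → ℕ → B →ₗ[K] S) (hΘ1 : ∀ k, Θ k 0 1 = 1)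
    (hΘL : ∀ k, ∀ i < n, ∀ a b : B,
      Θ k i (a * b) = ∑ j ∈ Finset.range (i + 1), Θ k j a * Θ k (i - j) b)
    (t : Fin g → B) (ht : ∀ k, Θ k 1 (t k) ≠ 0)
    (z : B) (hz : ∀ k k', k ≠ k' → Θ k 0 z ≠ Θ k' 0 z)
    (hz₀ : ∀ k, ∃ z₀ : B, Θ k 0 z₀ ≠ e₀ z₀)
    (b₁ : B) (hb₁ : b₁ ≠ 0) (χ : Fin g → B →ₐ[K] K)
    (hχ : ∀ k b, Θ k 0 b = 0 → χ k b = 0)
    (w : Fin (m + 1) → B) (c : Fin (m + 1) → S) (hc₀ : c 0 = 1)
    (hrel₀ : ∑ j, c j * e₀ (w j) = 0)
    (hrel : ∀ k, ∀ i < n, ∑ j, c j * Θ k i (w j) = 0) :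
    ∃ h : B, h ≠ 0 ∧ ∀ P : B →ₐ[K] K, P h ≠ 0 →
      ∃ (a : Fin (m + 1) → K) (q : Fin g → B →ₐ[K] K),
        a 0 = 1 ∧ P b₁ ≠ 0 ∧ (∀ k k', k ≠ k' → q k ≠ q k') ∧ (∀ k, q k ≠ P) ∧
        (∀ k, q k b₁ ≠ 0 ∨ q k = χ k) ∧ P (∑ j, a j • w j) = 0 ∧
        ∀ k, ∑ j, a j • w j ∈ RingHom.ker (q k : B →+* K) ^ n := by
  classical
  obtain ⟨G, hG⟩ := (Algebra.FiniteType.out : (⊤ : Subalgebra K B).FG)
  choose z₀ hz₀ using hz₀
  -- the finitely many elements of `S` that have to specialise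
  let T₁ : Finset S := Finset.univ.image c
  let T₂ : Finset S := Finset.univ.biUnion fun k : Fin g =>
    (Finset.range (n + 2)).biUnion fun i => insert (Θ k i 1) (G.image (Θ k i))
  let T₃ : Finset S := Finset.univ.image fun k : Fin g => (Θ k 1 (t k))⁻¹
  let T₄ : Finset S := Finset.univ.image fun p : Fin g × Fin g => (Θ p.1 0 z - Θ p.2 0 z)⁻¹
  let T₅ : Finset S := Finset.univ.image fun k : Fin g => (Θ k 0 (z₀ k) - e₀ (z₀ k))⁻¹
  let T₆ : Finset S := {(e₀ b₁)⁻¹}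
  let T₇ : Finset S := Finset.univ.image fun k : Fin g => (Θ k 0 b₁)⁻¹
  let T : Finset S := T₁ ∪ T₂ ∪ T₃ ∪ T₄ ∪ T₅ ∪ T₆ ∪ T₇
  have hT₁ : ∀ j, c j ∈ T := fun j => by
    have : c j ∈ T₁ := Finset.mem_image_of_mem c (Finset.mem_univ j)
    simp only [T, Finset.mem_union]; tauto
  have hT₂ : ∀ k, ∀ i < n, Θ k i 1 ∈ T := fun k i hi => by
    have : Θ k i 1 ∈ T₂ := Finset.mem_biUnion.mpr ⟨k, Finset.mem_univ k,
      Finset.mem_biUnion.mpr ⟨i, Finset.mem_range.mpr (by omega), Finset.mem_insert_self _ _⟩⟩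
    simp only [T, Finset.mem_union]; tauto
  have hT₂' : ∀ k, ∀ b ∈ G, ∀ i < n, Θ k i b ∈ T := fun k b hb i hi => by
    have : Θ k i b ∈ T₂ := Finset.mem_biUnion.mpr ⟨k, Finset.mem_univ k,
      Finset.mem_biUnion.mpr ⟨i, Finset.mem_range.mpr (by omega),
        Finset.mem_insert_of_mem (Finset.mem_image_of_mem _ hb)⟩⟩
    simp only [T, Finset.mem_union]; tauto
  have hT₃ : ∀ k, (Θ k 1 (t k))⁻¹ ∈ T := fun k => by
    have : (Θ k 1 (t k))⁻¹ ∈ T₃ :=
      Finset.mem_image_of_mem (fun k : Fin g => (Θ k 1 (t k))⁻¹) (Finset.mem_univ k)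
    simp only [T, Finset.mem_union]; tauto
  have hT₄ : ∀ k k', (Θ k 0 z - Θ k' 0 z)⁻¹ ∈ T := fun k k' => by
    have : (Θ k 0 z - Θ k' 0 z)⁻¹ ∈ T₄ :=
      Finset.mem_image_of_mem (fun p : Fin g × Fin g => (Θ p.1 0 z - Θ p.2 0 z)⁻¹)
        (Finset.mem_univ (k, k'))
    simp only [T, Finset.mem_union]; tauto
  have hT₅ : ∀ k, (Θ k 0 (z₀ k) - e₀ (z₀ k))⁻¹ ∈ T := fun k => by
    have : (Θ k 0 (z₀ k) - e₀ (z₀ k))⁻¹ ∈ T₅ :=
      Finset.mem_image_of_mem (fun k : Fin g => (Θ k 0 (z₀ k) - e₀ (z₀ k))⁻¹) (Finset.mem_univ k)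
    simp only [T, Finset.mem_union]; tauto
  have hT₆ : (e₀ b₁)⁻¹ ∈ T := by
    have : (e₀ b₁)⁻¹ ∈ T₆ := Finset.mem_singleton_self _
    simp only [T, Finset.mem_union]; tauto
  have hT₇ : ∀ k, (Θ k 0 b₁)⁻¹ ∈ T := fun k => by
    have : (Θ k 0 b₁)⁻¹ ∈ T₇ :=
      Finset.mem_image_of_mem (fun k : Fin g => (Θ k 0 b₁)⁻¹) (Finset.mem_univ k)
    simp only [T, Finset.mem_union]; tauto
  obtain ⟨h, hh0, hh⟩ := SpecExt.exists_specialisation e₀ he₀ T
  refine ⟨h, hh0, fun P hP => ?_⟩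
  obtain ⟨ψ, hψ⟩ := hh P hP
  have hTA : ∀ s ∈ T, s ∈ Algebra.adjoin K (Set.range e₀ ∪ (T : Set S)) := fun s hs =>
    Algebra.subset_adjoin (Or.inr (Finset.mem_coe.mpr hs))
  have heA : ∀ b : B, e₀ b ∈ Algebra.adjoin K (Set.range e₀ ∪ (T : Set S)) := fun b =>
    Algebra.subset_adjoin (Or.inl ⟨b, rfl⟩)
  have hψe : ∀ b : B, ψ ⟨e₀ b, heA b⟩ = P b := hψ
  -- the jets take their values in the subalgebra
  have hΘA : ∀ k, ∀ b : B, ∀ i < n, Θ k i b ∈ Algebra.adjoin K (Set.range e₀ ∪ (T : Set S)) :=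
    fun k => jet_mem_of_gens n (Θ k) (hΘL k) _ (G : Set B) hG
      (fun i hi => hTA _ (hT₂ k i hi)) (fun b hb i hi => hTA _ (hT₂' k b hb i hi))
  -- `ψ` does not kill an element whose inverse lies in the subalgebra
  have hψne : ∀ (s : S) (hs : s ∈ Algebra.adjoin K (Set.range e₀ ∪ (T : Set S)))
      (_ : s⁻¹ ∈ Algebra.adjoin K (Set.range e₀ ∪ (T : Set S))), s ≠ 0 → ψ ⟨s, hs⟩ ≠ 0 := by
    intro s hs hs' hs0 h0
    have h1 : ψ (⟨s, hs⟩ * ⟨s⁻¹, hs'⟩) = 1 := by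
      have h2 : (⟨s, hs⟩ * ⟨s⁻¹, hs'⟩ : ↥(Algebra.adjoin K (Set.range e₀ ∪ (T : Set S)))) = 1 :=
        Subtype.ext (mul_inv_cancel₀ hs0)
      rw [h2, map_one]
    rw [map_mul, h0, zero_mul] at h1
    exact zero_ne_one h1
  -- the specialised jets
  choose Θ' hΘ' hΘ'1 hΘ'L using fun k =>
    exists_jet_comp n hn (Θ k) (hΘ1 k) (hΘL k) _ ψ (hΘA k)
  have hmul : ∀ k (x y : B), Θ' k 0 (x * y) = Θ' k 0 x * Θ' k 0 y := fun k x y => by
    have h := hΘ'L k 0 hn x y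
    simpa using h
  let q : Fin g → B →ₐ[K] K := fun k => AlgHom.ofLinearMap (Θ' k 0) (hΘ'1 k) (hmul k)
  have hq : ∀ k b, q k b = ψ ⟨Θ k 0 b, hΘA k b 0 hn⟩ := fun k b => hΘ' k 0 hn b
  -- specialisation of a relation
  have hspec : ∀ (d : Fin (m + 1) → S)
      (hd : ∀ j, d j ∈ Algebra.adjoin K (Set.range e₀ ∪ (T : Set S))),
      ∑ j, c j * d j = 0 → ∑ j, ψ ⟨c j, hTA _ (hT₁ j)⟩ * ψ ⟨d j, hd j⟩ = 0 := by
    intro d hd h0
    have h1 : (∑ j, (⟨c j, hTA _ (hT₁ j)⟩ * ⟨d j, hd j⟩ :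
        ↥(Algebra.adjoin K (Set.range e₀ ∪ (T : Set S))))) = 0 := by
      apply Subtype.ext
      rw [AddSubmonoidClass.coe_finsetSum]
      simpa using h0
    have h2 := congrArg ψ h1
    rw [map_sum, map_zero] at h2
    rw [← h2]
    exact Finset.sum_congr rfl fun j _ => (map_mul ψ _ _).symm
  -- vanishing of the specialised jets on `y`
  have hvan : ∀ k, ∀ i < n, Θ' k i (∑ j, ψ ⟨c j, hTA _ (hT₁ j)⟩ • w j) = 0 := by
    intro k i hi
    rw [map_sum]
    have h1 := hspec (fun j => Θ k i (w j)) (fun j => hΘA k (w j) i hi) (hrel k i hi)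
    rw [← h1]
    refine Finset.sum_congr rfl fun j _ => ?_
    rw [map_smul, smul_eq_mul, hΘ' k i hi]
  refine ⟨fun j => ψ ⟨c j, hTA _ (hT₁ j)⟩, q, ?_, ?_, ?_, ?_, ?_, ?_, ?_⟩
  · -- `a 0 = 1`
    have h1 : (⟨c 0, hTA _ (hT₁ 0)⟩ : ↥(Algebra.adjoin K (Set.range e₀ ∪ (T : Set S)))) = 1 :=
      Subtype.ext hc₀
    show ψ ⟨c 0, hTA _ (hT₁ 0)⟩ = 1
    rw [h1, map_one]
  · -- `P b₁ ≠ 0`
    rw [← hψe b₁]
    exact hψne _ _ (hTA _ hT₆) ((map_ne_zero_iff e₀ he₀).mpr hb₁)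
  · -- the points are pairwise distinct
    intro k k' hkk' heq
    have h1 : q k z = q k' z := by rw [heq]
    rw [hq, hq] at h1
    have hmem : Θ k 0 z - Θ k' 0 z ∈ Algebra.adjoin K (Set.range e₀ ∪ (T : Set S)) :=
      Subalgebra.sub_mem _ (hΘA k z 0 hn) (hΘA k' z 0 hn)
    refine hψne _ hmem (hTA _ (hT₄ k k')) (sub_ne_zero.mpr (hz k k' hkk')) ?_
    have h2 : (⟨Θ k 0 z - Θ k' 0 z, hmem⟩ : ↥(Algebra.adjoin K (Set.range e₀ ∪ (T : Set S))))
        = ⟨Θ k 0 z, hΘA k z 0 hn⟩ - ⟨Θ k' 0 z, hΘA k' z 0 hn⟩ := rfl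
    rw [h2, map_sub, h1, sub_self]
  · -- the points are distinct from `P`
    intro k heq
    have h1 : q k (z₀ k) = P (z₀ k) := by rw [heq]
    rw [hq, ← hψe (z₀ k)] at h1
    have hmem : Θ k 0 (z₀ k) - e₀ (z₀ k) ∈ Algebra.adjoin K (Set.range e₀ ∪ (T : Set S)) :=
      Subalgebra.sub_mem _ (hΘA k (z₀ k) 0 hn) (heA (z₀ k))
    refine hψne _ hmem (hTA _ (hT₅ k)) (sub_ne_zero.mpr (hz₀ k)) ?_
    have h2 : (⟨Θ k 0 (z₀ k) - e₀ (z₀ k), hmem⟩ :
        ↥(Algebra.adjoin K (Set.range e₀ ∪ (T : Set S))))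
        = ⟨Θ k 0 (z₀ k), hΘA k (z₀ k) 0 hn⟩ - ⟨e₀ (z₀ k), heA (z₀ k)⟩ := rfl
    rw [h2, map_sub, h1, sub_self]
  · -- a point either avoids the zeros of `b₁` or is the base point
    intro k
    by_cases h0 : Θ k 0 b₁ = 0
    · right
      -- the kernel of the constant term of the jet is a non-zero prime, hence maximal
      have hmulS : ∀ x y : B, Θ k 0 (x * y) = Θ k 0 x * Θ k 0 y := fun x y => by
        have h := hΘL k 0 hn x y
        simpa using h
      let φ : B →ₐ[K] S := AlgHom.ofLinearMap (Θ k 0) (hΘ1 k) hmulS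
      have hφ : ∀ b, φ b = Θ k 0 b := fun b => rfl
      have hprime : (RingHom.ker (φ : B →+* S)).IsPrime := RingHom.ker_isPrime _
      have hne : RingHom.ker (φ : B →+* S) ≠ ⊥ := by
        intro hbot
        have hmem : b₁ ∈ RingHom.ker (φ : B →+* S) := by
          rw [RingHom.mem_ker]
          exact h0
        rw [hbot, Ideal.mem_bot] at hmem
        exact hb₁ hmem
      have hmax : (RingHom.ker (φ : B →+* S)).IsMaximal := hprime.isMaximal hne
      refine algHom_eq_of_vanish (RingHom.ker (φ : B →+* S)) (q k) (χ k) ?_ ?_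
      · intro b hb
        have hb0 : Θ k 0 b = 0 := hb
        rw [hq]
        have h1 : (⟨Θ k 0 b, hΘA k b 0 hn⟩ : ↥(Algebra.adjoin K (Set.range e₀ ∪ (T : Set S))))
            = 0 := Subtype.ext hb0
        rw [h1, map_zero]
      · intro b hb
        exact hχ k b hb
    · left
      rw [hq]
      exact hψne _ _ (hTA _ (hT₇ k)) h0
  · -- `y` vanishes at `P`
    rw [map_sum]
    have h1 := hspec (fun j => e₀ (w j)) (fun j => heA (w j)) hrel₀
    rw [← h1]
    refine Finset.sum_congr rfl fun j _ => ?_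
    rw [map_smul, smul_eq_mul, hψe]
  · -- `y` vanishes to order `n` at the points
    intro k
    rcases Nat.lt_or_ge 1 n with h1n | h1n
    · refine hD4 (Θ' k) (hΘ'1 k) (hΘ'L k) (q k) (fun b => rfl) (t k) ?_ _ (hvan k)
      rw [hΘ' k 1 h1n]
      exact hψne _ _ (hTA _ (hT₃ k)) (ht k)
    · have hn1 : n = 1 := by omega
      rw [hn1, pow_one, RingHom.mem_ker]
      exact hvan k 0 hn

end Fermat.Agent.S17.D.SpecPoints
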