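import Mathlib
import Fermat.Agent.S17.D.SetupDef
import Fermat.Agent.S17.D.SpecPoints
import Fermat.Agent.S17.D.JetLemma
import Fermat.Agent.S17.D.Model
import Fermat.Agent.S17.D.ModelAux
import Fermat.Agent.S17.D.SubstEst

/-!
# Program MW (statement S17), strand D: the jet half of the specialisation of a setup

`exists_points_of_setup` : for a setup `s` on the model `R` there is `h ≠ 0` in `R` such that
for every `K`-point `P` of `R` with `P h ≠ 0` the generic function of `s` specialises: there are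
coefficients `a j ∈ K` (`a 0 = 1`) and `K`-points `q k` of `R`, pairwise distinct and distinct
from `P`, such that `y = ∑ a j • s.r j` vanishes at `P` and lies in the `n`-th power of the
kernel of each `q k`; `P` is not a zero of `s.b₁`, and each `q k` either is not a zero of `s.b₁`
or is the point of the prime `s.w k`.

This is `SpecPoints.exists_specialised_points` at `B := R`, `S := LaurentSeries K`,
`e₀ := s.τL ∘ algebraMap R F` (the generic point) and the moving jets
`Θ k i b := ((hasse i (s.τ k b)).subst (s.u k) : LaurentSeries K)`.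
-/

set_option autoImplicit false

namespace Fermat.Agent.S17.D.SpecJets

open AlgebraicCurve IsDedekindDomain PowerSeries

section PS

variable {K : Type*} [Field K]

/-- Power series inside Laurent series, as a `K`-algebra map. -/
noncomputable def ofPS : PowerSeries K →ₐ[K] LaurentSeries K :=
  { HahnSeries.ofPowerSeries ℤ K with commutes' := fun _ => rfl }

theorem ofPS_apply (φ : PowerSeries K) : ofPS φ = HahnSeries.ofPowerSeries ℤ K φ := rfl

theorem order_ofPowerSeries_nonneg (φ : PowerSeries K) :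
    0 ≤ (HahnSeries.ofPowerSeries ℤ K φ).order := by
  by_contra h
  rw [not_le] at h
  have h1 : (HahnSeries.ofPowerSeries ℤ K φ).coeff (HahnSeries.ofPowerSeries ℤ K φ).order = 0 := by
    rw [PowerSeries.coeff_coe, if_pos h]
  have h2 := HahnSeries.coeff_order_eq_zero.mp h1
  rw [h2, HahnSeries.order_zero] at h
  exact lt_irrefl _ h

theorem constantCoeff_subst_eq (f u : PowerSeries K) (hu : constantCoeff u = 0) :
    constantCoeff (f.subst u) = constantCoeff f := by
  have h := SubstEst.dvd_subst_sub_C f (X_dvd_iff.mpr hu)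
  rw [X_dvd_iff, map_sub, constantCoeff_C, sub_eq_zero] at h
  exact h

theorem one_subst (u : PowerSeries K) (hu : constantCoeff u = 0) :
    (1 : PowerSeries K).subst u = 1 := by
  have hs : PowerSeries.HasSubst u := PowerSeries.HasSubst.of_constantCoeff_zero' hu
  rw [← PowerSeries.coe_substAlgHom hs, map_one]

end PS

section Setup

variable {K F : Type*} [Field K] [Field F] [Algebra K F]
variable {R : Type*} [CommRing R] [IsDedekindDomain R] [Algebra R F] [IsFractionRing R F]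
  [Algebra K R] [IsScalarTower K R F]
variable {n : ℕ} {Q₀ : Place K F} {E₀ : Finset (Place K F)}

/-- The `K`-point of the `k`-th base point: the constant coefficient of the Taylor expansion. -/
noncomputable def chi (s : Setup (K := K) (F := F) R n Q₀ E₀) (k : Fin s.g) : R →ₐ[K] K :=
  { (constantCoeff (R := K)).comp (s.τ k : R →+* PowerSeries K) with
    commutes' := fun a => by
      show constantCoeff (s.τ k (algebraMap K R a)) = a
      rw [AlgHom.commutes]
      exact constantCoeff_C a }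

theorem chi_apply (s : Setup (K := K) (F := F) R n Q₀ E₀) (k : Fin s.g) (b : R) :
    chi s k b = constantCoeff (s.τ k b) := rfl

/-- The moving jets of a setup, with values in the Laurent series. -/
theorem exists_jets (s : Setup (K := K) (F := F) R n Q₀ E₀) (k : Fin s.g) :
    ∃ Θ : ℕ → @LinearMap K K _ _ (RingHom.id K) R (LaurentSeries K) _ _ _ Algebra.toModule,
      (∀ i b, Θ i b = HahnSeries.ofPowerSeries ℤ K ((hasse i (s.τ k b)).subst (s.u k))) ∧
      Θ 0 1 = 1 ∧
      ∀ i < n, ∀ a b : R, Θ i (a * b) = ∑ j ∈ Finset.range (i + 1), Θ j a * Θ (i - j) b := by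
  obtain ⟨Θ₀, hΘ₀, hJ⟩ := isJet_hasse_subst (s.u k) (s.u_zero k) n
  refine ⟨fun i => (ofPS (K := K)).toLinearMap ∘ₗ Θ₀ i ∘ₗ (s.τ k).toLinearMap, ?_, ?_, ?_⟩
  · intro i b
    show ofPS (Θ₀ i (s.τ k b)) = _
    rw [hΘ₀, ofPS_apply]
  · show ofPS (Θ₀ 0 (s.τ k 1)) = 1
    rw [map_one, hJ.map_one, map_one]
  · intro i hi a b
    show ofPS (Θ₀ i (s.τ k (a * b))) =
      ∑ j ∈ Finset.range (i + 1), ofPS (Θ₀ j (s.τ k a)) * ofPS (Θ₀ (i - j) (s.τ k b))
    rw [map_mul, hJ.leibniz i hi, map_sum]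
    simp only [map_mul]

variable [IsAlgClosed K] [CharZero K] [Algebra.EssFiniteType K F]

/-- The kernel of `chi s k` is the prime `s.w k`. -/
theorem chi_eq_zero_iff (s : Setup (K := K) (F := F) R n Q₀ E₀) (k : Fin s.g) (b : R) :
    chi s k b = 0 ↔ b ∈ (s.w k).asIdeal := by
  rcases eq_or_ne b 0 with rfl | hb
  · rw [map_zero]
    exact ⟨fun _ => zero_mem _, fun _ => rfl⟩
  · have h1 := Model.mem_pow_iff_le_ord (K := K) (F := F) (s.w k) 1 b
    rw [pow_one] at h1
    rw [h1, chi_apply, ← X_dvd_iff]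
    have h2 := s.τ_dvd k b 1 hb
    rw [pow_one] at h2
    rw [h2]
    exact ⟨fun h => Or.inr h, fun h => h.resolve_left hb⟩

/-- **The jet half of the specialisation of a setup.** -/
theorem exists_points_of_setup (htr : Algebra.trdeg K F = 1) [Algebra.FiniteType K R]
    (hn : 0 < n)
    (hR : ∀ v : Place K F, v ≠ Q₀ ↔
        ∃ w : HeightOneSpectrum R, Place.ofHeightOneSpectrum (K := K) (F := F) w = v)
    (s : Setup (K := K) (F := F) R n Q₀ E₀) :
    ∃ h : R, h ≠ 0 ∧ ∀ P : R →ₐ[K] K, P h ≠ 0 →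
      ∃ (a : Fin (s.m + 1) → K) (q : Fin s.g → R →ₐ[K] K),
        a 0 = 1 ∧ P s.b₁ ≠ 0 ∧ (∀ k k', k ≠ k' → q k ≠ q k') ∧ (∀ k, q k ≠ P) ∧
        (∀ k, q k s.b₁ ≠ 0 ∨ ∀ b, q k b = 0 ↔ b ∈ (s.w k).asIdeal) ∧
        P (∑ j, a j • s.r j) = 0 ∧
        ∀ k, ∑ j, a j • s.r j ∈ RingHom.ker (q k : R →+* K) ^ n := by
  classical
  choose Θ hΘ hΘ1 hΘL using fun k => exists_jets s k
  have hχw : ∀ k b, chi s k b = 0 ↔ b ∈ (s.w k).asIdeal := chi_eq_zero_iff s
  -- a function separating the base points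
  obtain ⟨z, hz⟩ := Model.exists_separating (K := K) (F := F) htr (Finset.univ.image s.w)
  -- a function with its only pole at `Q₀`
  obtain ⟨x, hxt, hx⟩ := Model.exists_sole_pole htr Q₀
  have hx0 : x ≠ 0 := by
    rintro rfl
    exact hxt (isAlgebraic_zero)
  obtain ⟨z₀, hz₀⟩ := Model.exists_eq_algebraMap_of_ord_nonneg (K := K) (R := R) x (fun w => by
    have h1 : Place.ofHeightOneSpectrum (K := K) (F := F) w ≠ Q₀ := (hR _).mpr ⟨w, rfl⟩
    by_contra h2
    exact h1 ((hx _).mp (not_le.mp h2)))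
  -- the generic point
  let e₀ : R →ₐ[K] LaurentSeries K := s.τL.comp (IsScalarTower.toAlgHom K R F)
  have he₀ : Function.Injective e₀ :=
    s.τL.toRingHom.injective.comp (IsFractionRing.injective R F)
  have he₀a : ∀ b : R, e₀ b = s.τL (algebraMap R F b) := fun b => rfl
  -- the jet lemma on the model
  have hD4 : ∀ Θ' : ℕ → R →ₗ[K] K, Θ' 0 1 = 1 →
      (∀ i < n, ∀ a b : R, Θ' i (a * b) = ∑ j ∈ Finset.range (i + 1), Θ' j a * Θ' (i - j) b) →
      ∀ q : R →ₐ[K] K, (∀ b, q b = Θ' 0 b) → ∀ t : R, Θ' 1 t ≠ 0 →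
      ∀ y : R, (∀ i < n, Θ' i y = 0) → y ∈ RingHom.ker (q : R →+* K) ^ n := by
    intro Θ' h1 hL q hq t ht y hy
    obtain ⟨w, hw⟩ := Model.exists_prime_of_point (K := K) (F := F) htr q
    have hker : w.asIdeal = RingHom.ker (q : R →+* K) := by
      ext b
      rw [hw, RingHom.mem_ker]
      rfl
    rw [← hker]
    exact mem_pow_of_jet_eq_zero n Θ' ⟨h1, hL⟩ w (fun b => by rw [hw, hq]) t ht y hy
  have ht : ∀ k, Θ k 1 (s.π k) ≠ 0 := by
    intro k
    rw [hΘ, s.τ_π, hasse_one_X, one_subst _ (s.u_zero k), map_one]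
    exact one_ne_zero
  have hzsep : ∀ k k', k ≠ k' → Θ k 0 z ≠ Θ k' 0 z := by
    intro k k' hkk' heq
    rw [hΘ, hΘ, hasse_zero, hasse_zero] at heq
    have h1 := congrArg constantCoeff (HahnSeries.ofPowerSeries_injective heq)
    rw [constantCoeff_subst_eq _ _ (s.u_zero k), constantCoeff_subst_eq _ _ (s.u_zero k')] at h1
    exact hz (chi s k) (chi s k') (s.w k) (Finset.mem_image_of_mem _ (Finset.mem_univ k))
      (s.w k') (Finset.mem_image_of_mem _ (Finset.mem_univ k')) (s.w_inj.ne hkk')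
      (hχw k) (hχw k') h1
  have hz₀' : ∀ k, ∃ z₀ : R, Θ k 0 z₀ ≠ e₀ z₀ := by
    intro k
    refine ⟨z₀, fun heq => ?_⟩
    have h1 : (e₀ z₀).order = Q₀.ord x := by
      rw [he₀a, hz₀]
      exact s.order_τL x hx0
    have h2 : Q₀.ord x < 0 := (hx Q₀).mpr rfl
    have h3 := order_ofPowerSeries_nonneg ((hasse 0 (s.τ k z₀)).subst (s.u k))
    rw [← hΘ, heq, h1] at h3
    exact absurd h2 (not_lt.mpr h3)
  have hχ : ∀ k b, Θ k 0 b = 0 → chi s k b = 0 := by
    intro k b hb
    rw [hΘ, hasse_zero] at hb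
    have h1 : (s.τ k b).subst (s.u k) = 0 :=
      HahnSeries.ofPowerSeries_injective (hb.trans (map_zero _).symm)
    rw [chi_apply, ← constantCoeff_subst_eq _ _ (s.u_zero k), h1, map_zero]
  have hc₀ : HahnSeries.ofPowerSeries ℤ K (s.c 0) = 1 := by
    rw [s.c_zero, map_one]
  have hrel₀ : ∑ j, HahnSeries.ofPowerSeries ℤ K (s.c j) * e₀ (s.r j) = 0 := by
    have h1 : ∀ j, HahnSeries.ofPowerSeries ℤ K (s.c j) * e₀ (s.r j) =
        s.τL (algebraMap R F s.b₁) * (HahnSeries.ofPowerSeries ℤ K (s.c j) * s.τL (s.v j)) := by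
      intro j
      rw [he₀a, s.r_spec, map_mul]
      ring
    simp only [h1]
    rw [← Finset.mul_sum, s.generic, mul_zero]
  have hrel : ∀ k, ∀ i < n, ∑ j, HahnSeries.ofPowerSeries ℤ K (s.c j) * Θ k i (s.r j) = 0 := by
    intro k i hi
    simp only [hΘ, ← map_mul]
    rw [← map_sum, s.jets k i hi, map_zero]
  obtain ⟨h, hh0, hh⟩ := SpecPoints.exists_specialised_points (K := K) (B := R)
    (S := LaurentSeries K) n s.g s.m hn hD4 e₀ he₀ Θ hΘ1 hΘL s.π ht z hzsep hz₀' s.b₁ s.b₁_ne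
    (chi s) hχ s.r (fun j => HahnSeries.ofPowerSeries ℤ K (s.c j)) hc₀ hrel₀ hrel
  refine ⟨h, hh0, fun P hP => ?_⟩
  obtain ⟨a, q, ha0, hPb, hqq, hqP, hqb, hPy, hqy⟩ := hh P hP
  exact ⟨a, q, ha0, hPb, hqq, hqP,
    fun k => (hqb k).imp id (fun hk b => by rw [hk]; exact hχw k b), hPy, hqy⟩

end Setup

end Fermat.Agent.S17.D.SpecJets
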